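import Fermat.Agent.Engine.TW.SelmerConds

/-!
# Tangent pairs give Selmer classes
-/

set_option autoImplicit false

noncomputable section

set_option maxSynthPendingDepth 5

namespace Fermat.Agent.Engine.TW

open Fermat.Agent.DefRing Fermat.Agent.Deform Fermat.Agent.GalCoh Fermat.Agent.GalCoh.Descent
  ExtCitation Module
open scoped Pointwise

local notation "Ω" => AlgebraicClosure ℚ
local notation "Γ" => (AlgebraicClosure ℚ ≃ₐ[ℚ] AlgebraicClosure ℚ)

variable {k : Type} [Field k]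

/-- The trace free part. -/
def tracePart (h2 : (2 : k) ≠ 0) : Matrix (Fin 2) (Fin 2) k →ₗ[k] traceZero k :=
  ((LinearMap.id : Matrix (Fin 2) (Fin 2) k →ₗ[k] _) -
    ((2 : k)⁻¹ • (LinearMap.toSpanSingleton k (Matrix (Fin 2) (Fin 2) k) 1).comp
      (Matrix.traceLinearMap (Fin 2) k k))).codRestrict _ fun X => by
    rw [mem_traceZero]
    simp [Matrix.trace_sub, Matrix.trace_smul, Matrix.trace_one]
    field_simp
    ring

lemma coe_tracePart (h2 : (2 : k) ≠ 0) (X : Matrix (Fin 2) (Fin 2) k) :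
    (tracePart h2 X : Matrix (Fin 2) (Fin 2) k) = X - ((2 : k)⁻¹ * X.trace) • 1 := by
  simp [tracePart, smul_smul]

lemma adRep_one (ρ : MRep k) (g : Γ) : adRep ρ g (1 : Matrix (Fin 2) (Fin 2) k) = 1 := by
  rw [adRep_apply, mul_one, rho_mul_inv]

lemma coe_slRep_tracePart (h2 : (2 : k) ≠ 0) (ρ : MRep k) (g : Γ) (X : Matrix (Fin 2) (Fin 2) k) :
    (slRep ρ g (tracePart h2 X) : Matrix (Fin 2) (Fin 2) k) -
        (tracePart h2 X : Matrix (Fin 2) (Fin 2) k) = ρ g * X * ρ g⁻¹ - X := by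
  rw [coe_slRep, coe_tracePart, map_sub, map_smul, adRep_one, adRep_apply]
  abel

variable {p : ℕ} [Fact p.Prime] [Algebra (ZMod p) k] [CharP k p] [FiniteDimensional (ZMod p) k]
  {ρ : MRep k} {χ : GQ → k} {Smin T Q : Finset ℕ} {C : LocalChoices T} {atP : CondAtP ρ p}

/-- The cocycles of tangent pairs, with values in trace zero matrices. -/
structure IsSelmerCocycle (ρ : MRep k) (Smin Sigma T : Finset ℕ) (atP : CondAtP ρ p)
    (c : Γ → traceZero k) : Prop where
  cocycle : ∀ a b, c (a * b) = c a + slRep ρ a (c b)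
  level : ∃ L : IntermediateField ℚ Ω, FiniteDimensional ℚ L ∧
    ∀ σ : Γ, (∀ a ∈ L, σ a = a) → c σ = 0
  unr : ∀ q : ℕ, q.Prime → q ∉ Sigma → ∀ A : ValuationSubring Ω, A.LiesOverPrime q →
    ∀ σ ∈ A.inertiaSubgroupIn ℚ, c σ = 0
  min : ∀ u : Nat.Primes, (u : ℕ) ∈ Smin →
    (fun σ : (primeLocalPlace u).decompositionSubgroup ℚ => c σ) ∈
      unipotentSpace (primeLocalPlace u) ρ
  atp : (fun σ : atP.place.decompositionSubgroup ℚ => c σ) ∈ pSpace atP
  frame : ∀ r : T, ∃ A : ValuationSubring Ω, A.LiesOverPrime (r : ℕ) ∧ ∃ X : traceZero k,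
    ∀ σ ∈ A.decompositionSubgroup ℚ, c σ = slRep ρ σ X - X

variable (H : TWHyp p ρ χ Smin T) (hC : C.Valid p)

include H hC in
/-- The cocycle of a tangent pair. -/
theorem isSelmerCocycle_of_pair {Sigma : Finset ℕ} {x : TangentPair k T}
    (hx : IsTangentPair ρ Smin Sigma T C atP x) (c : Γ → traceZero k)
    (hc : ∀ g, (c g : Matrix (Fin 2) (Fin 2) k) = x.1 g) :
    IsSelmerCocycle ρ Smin Sigma T atP c := by
  have hp : p.Prime := Fact.out
  have h2 := two_ne_zero_of_hyp hp H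
  obtain ⟨⟨hadd, -, hlev⟩, hunr, hmin, hatp, hframe⟩ := hx
  have hcoc : ∀ a b, c (a * b) = c a + slRep ρ a (c b) := fun a b => Subtype.ext (by
    rw [Submodule.coe_add, coe_slRep, adRep_apply, hc, hc, hc]; exact hadd a b)
  have hzero : ∀ {σ}, x.1 σ = 0 → c σ = 0 := fun h => Subtype.ext ((hc _).trans h)
  obtain ⟨L, hL, hxL⟩ := hlev
  have hlev' : ∃ L : IntermediateField ℚ Ω, FiniteDimensional ℚ L ∧
      ∀ σ : Γ, (∀ a ∈ L, σ a = a) → c σ = 0 := ⟨L, hL, fun σ h => hzero (hxL σ h)⟩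
  refine ⟨hcoc, hlev', fun q hq hqS A hA σ hσ => hzero (hunr q hq hqS A hA σ hσ),
    fun u hu => ⟨restrict_mem_adCocyclesAt _ hcoc hlev', fun σ hσ => ?_⟩, ?_, fun r => ?_⟩
  · simp only [hc]
    exact hmin _ hu _ (primeLocalPlace_liesOver u) _ hσ
  · show _ ∈ atP.cond
    convert hatp using 1
    ext1 σ
    exact hc _
  · obtain ⟨A, hA, hF, hτI, z, hz, hmove⟩ := hC r
    have hrT : (r : ℕ) ∈ Smin ∪ T := Finset.mem_union_right _ r.2
    have hrS : (r : ℕ) ∉ Smin := fun h => Finset.disjoint_left.mp H.disj h r.2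
    have hrp : p ≠ (r : ℕ) := fun h => H.notMem.2 (h ▸ r.2)
    have hI := H.unr _ (H.prime _ hrT) hrS (fun h => hrp h.symm) A hA
    have hrq := H.prime _ hrT
    let X : traceZero k := tracePart h2 (x.2 r)
    refine ⟨A, hA, X, ?_⟩
    let d : A.decompositionSubgroup ℚ → traceZero k :=
      (fun σ : A.decompositionSubgroup ℚ => c σ) - coboundaryAt ρ A X
    have hd : d ∈ adCocyclesAt A ρ :=
      sub_mem (restrict_mem_adCocyclesAt A hcoc hlev') (hasCoboundaries_adCocyclesAt A H.fin X)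
    have hd0 : ∀ σ : A.decompositionSubgroup ℚ, (σ : Γ) ∈ ({C.frob r, C.tame r} : Set GQ) →
        d σ = 0 := fun σ hσ => Subtype.ext (by
      show (c σ : Matrix (Fin 2) (Fin 2) k) -
        ((slRep ρ (σ : Γ) X : Matrix (Fin 2) (Fin 2) k) - (X : Matrix (Fin 2) (Fin 2) k)) = 0
      rw [coe_slRep_tracePart, hc]
      linear_combination (norm := abel) hframe r _ hσ)
    have hall := eq_zero_of_tame_frobenius (p := p) hrq hrp hA H.fin (φ := ⟨_, hF.choose⟩) hF hI
      hd hz (τ₀ := ⟨_, MultRed.inertia_mem_decomposition hτI⟩) hτI hmove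
      (hd0 _ (Set.mem_insert_of_mem _ rfl)) (hd0 _ (Set.mem_insert _ _))
    intro σ hσ
    exact sub_eq_zero.mp (congrFun hall ⟨σ, hσ⟩)

include H in
/-- A Selmer cocycle is continuous for `G_{ℚ,S}`. -/
theorem IsSelmerCocycle.mem_Z1 {c : Γ → traceZero k}
    (hc : IsSelmerCocycle ρ Smin (sigmaSet p Smin T Q) T atP c) :
    c ∈ Z1 (levelsS (placeSet p Smin T Q)) (adP p ρ) := by
  have hc1 : c 1 = 0 := by simpa using hc.cocycle 1 1
  let U : Subgroup Γ :=
    { carrier := {σ | ρ σ = 1 ∧ c σ = 0}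
      one_mem' := ⟨map_one ρ, hc1⟩
      mul_mem' := fun {a b} ha hb => ⟨(rhoKer ρ).mul_mem ha.1 hb.1, by
        rw [hc.cocycle, ha.2, hb.2, map_zero, add_zero]⟩
      inv_mem' := fun {a} ha => ⟨(rhoKer ρ).inv_mem ha.1, by
        have h := hc.cocycle a⁻¹ a
        rw [inv_mul_cancel, hc1, ha.2, map_zero, add_zero] at h
        exact h.symm⟩ }
  have hfull : fullLevels.mem U := by
    obtain ⟨L, hL, hρL⟩ := H.fin
    obtain ⟨L', hL', hcL⟩ := hc.level
    refine ⟨L ⊔ L', inferInstance, fun σ hσ => ?_⟩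
    rw [IntermediateField.fixingSubgroup_sup, Subgroup.mem_inf] at hσ
    exact ⟨hρL σ ((IntermediateField.mem_fixingSubgroup_iff _ _).mp hσ.1),
      hcL σ ((IntermediateField.mem_fixingSubgroup_iff _ _).mp hσ.2)⟩
  have hU : (levelsS (placeSet p Smin T Q)).mem U := by
    refine levelsS_mem_of_inertia hfull fun u hu A hA σ hσ => ?_
    rw [mem_placeSet] at hu
    refine ⟨?_, hc.unr _ u.2 hu A hA σ hσ⟩
    simp only [sigmaSet, Finset.mem_union, Finset.mem_singleton, not_or] at hu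
    exact H.unr _ u.2 hu.1.1.1 hu.2 A hA σ hσ
  refine mem_Z1_iff.mpr ⟨fun a b => (hc.cocycle a b).trans (add_comm _ _), U, hU, fun g s hs => ?_⟩
  rw [hc.cocycle, hs.2, map_zero, add_zero]

include H in
/-- The class of a Selmer cocycle lies in the Selmer group. -/
theorem IsSelmerCocycle.mem_Sel {c : Γ → traceZero k}
    (hc : IsSelmerCocycle ρ Smin (sigmaSet p Smin T Q) T atP c) :
    H1mk (levelsS (placeSet p Smin T Q)) (adP p ρ) ⟨c, hc.mem_Z1 H⟩ ∈
      Sel (placeSet p Smin T Q) (adP p ρ) (condFamily atP Smin T (placeSet p Smin T Q)) := by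
  have h2 := two_ne_zero_of_hyp (Fact.out : p.Prime) H
  refine (mem_Sel_iff _ _ _ _).mpr fun u => ?_
  rcases u with v | ⟨u, hu⟩
  · -- the archimedean place: the group has order two
    show H1mk (localLevels (placeLoc (Sum.inl v))) ((adP p ρ).comp (placeLoc (Sum.inl v))) _ ∈
      (⊥ : Submodule (ZMod p) _)
    rw [Submodule.mem_bot, H1mk_eq_zero_iff, mem_B1_iff]
    refine ⟨-((2 : k)⁻¹ • c complexConjugation), fun g => ?_⟩
    show c (archimedeanLoc g) = slRep ρ (archimedeanLoc g) (-((2 : k)⁻¹ • c complexConjugation)) -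
      -((2 : k)⁻¹ • c complexConjugation)
    set σ := complexConjugation with hσ
    have hc1 : c 1 = 0 := by simpa using hc.cocycle 1 1
    have hneg : slRep ρ σ (c σ) = -c σ := by
      have h := hc.cocycle σ σ
      rw [hσ, complexConjugation_mul_self, hc1, ← hσ] at h
      exact eq_neg_of_add_eq_zero_right h.symm
    obtain ⟨n, hn⟩ := Subgroup.mem_zpowers_iff.mp (show archimedeanLoc g ∈
      Subgroup.zpowers complexConjugation from g.2)
    rw [← hn, ← hσ]
    rcases Int.even_or_odd n with ⟨j, rfl⟩ | ⟨j, rfl⟩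
    · rw [← two_mul, zpow_mul, zpow_ofNat, hσ, complexConjugation_sq, one_zpow, map_one, hc1,
        Module.End.one_apply, sub_self]
    · rw [zpow_add, zpow_mul, zpow_ofNat, hσ, complexConjugation_sq, one_zpow, one_mul, zpow_one,
        ← hσ, map_neg, map_smul, hneg, smul_neg, neg_neg, sub_neg_eq_add, ← two_smul k, smul_smul,
        mul_inv_cancel₀ h2, one_smul]
  · show H1mk (localLevels (placeLoc (Sum.inr u))) ((adP p ρ).comp (placeLoc (Sum.inr u))) _ ∈
      condAt atP Smin T (Sum.inr u)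
    by_cases hup : (u : ℕ) = p
    · rw [condAt_p hup]
      exact mk_mem_condOf u _ _ _ (pSpace_bound atP).1 hc.cocycle hc.atp _ fun _ => rfl
    by_cases hS : (u : ℕ) ∈ Smin
    · rw [condAt_min hup hS]
      exact mk_mem_condOf u 1 _ _ (hasCoboundaries_unipotentSpace _ H.fin
        (H.unip _ hS _ (primeLocalPlace_liesOver u))) hc.cocycle (hc.min u hS) _ fun _ => rfl
    by_cases hT : (u : ℕ) ∈ T
    · rw [condAt_frame hup hS hT, Submodule.mem_bot, H1mk_eq_zero_iff]
      obtain ⟨A, hA, X, hX⟩ := hc.frame ⟨_, hT⟩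
      obtain ⟨g, hg⟩ := Frobenius.exists_smul_eq_of_liesOverPrime_qbar u.2
        (primeLocalPlace_liesOver u) hA
      refine ⟨slRep ρ g⁻¹ (X + c g), funext fun a => ?_⟩
      rw [← transport_coboundary u g A hg, slRep_apply_inv_apply]
      show _ = c (placeLoc (Sum.inr u) a)
      rw [comp_placeLoc_eq u g A hg hc.cocycle, transport_apply, transport_apply]
      congr 1
      show slRep ρ _ (X + c g) - (X + c g) = _
      rw [hX _ (toDecomp u g A hg a).2, map_add]
      abel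
    · rw [condAt_aux hup hS hT]
      exact mk_mem_condOf u 1 _ _ (hasCoboundaries_adCocyclesAt _ H.fin) hc.cocycle
        (restrict_mem_adCocyclesAt _ hc.cocycle hc.level) _ fun _ => rfl

end Fermat.Agent.Engine.TW
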