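import Fermat.Agent.Engine.TW.DualSelmer
import Fermat.Agent.Engine.TW.Tangent

/-!
# Taylor–Wiles systems

The dual Selmer group is killed by primes whose number does not depend on the level; the
Greenberg–Wiles inequality then bounds the framed tangent spaces.
-/

set_option autoImplicit false

noncomputable section

set_option maxSynthPendingDepth 5

namespace Fermat.Agent.Engine.TW

open Fermat.Agent.DefRing Fermat.Agent.Deform Fermat.Agent.GalCoh Fermat.Agent.GalCoh.Descent
  ExtCitation Module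
open scoped Pointwise

local notation "Ω" => AlgebraicClosure ℚ
local notation "Γ" => (AlgebraicClosure ℚ ≃ₐ[ℚ] AlgebraicClosure ℚ)

variable {k : Type} [Field k]

/-- A map with finite dimensional kernel and range. -/
lemma finrank_le_of_range_ker {K M N : Type} [Field K] [AddCommGroup M] [Module K M]
    [AddCommGroup N] [Module K N] (f : M →ₗ[K] N) [FiniteDimensional K (LinearMap.range f)]
    [FiniteDimensional K (LinearMap.ker f)] {a b : ℕ} (ha : finrank K (LinearMap.range f) ≤ a)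
    (hb : finrank K (LinearMap.ker f) ≤ b) : FiniteDimensional K M ∧ finrank K M ≤ a + b := by
  have : Module.Finite K (M ⧸ LinearMap.ker f) := Module.Finite.equiv f.quotKerEquivRange.symm
  have : Module.Finite K M := Module.Finite.of_submodule_quotient (LinearMap.ker f)
  refine ⟨inferInstance, ?_⟩
  rw [← LinearMap.finrank_range_add_finrank_ker f]
  omega

variable {p : ℕ} [Fact p.Prime] [Algebra (ZMod p) k] [CharP k p] [FiniteDimensional (ZMod p) k]
  {ρ : MRep k} {χ : GQ → k} {Smin T Q : Finset ℕ} {C : LocalChoices T} {atP : CondAtP ρ p}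
  (H : TWHyp p ρ χ Smin T) (hC : C.Valid p)

include H in
/-- A space of Selmer cocycles. -/
theorem finrank_selmerCocycles_le
    (Z : Submodule k (Γ → traceZero k))
    (hZ : ∀ c ∈ Z, IsSelmerCocycle ρ Smin (sigmaSet p Smin T Q) T atP c)
    [FiniteDimensional (ZMod p)
      (Sel (placeSet p Smin T Q) (adP p ρ) (condFamily atP Smin T (placeSet p Smin T Q)))] :
    FiniteDimensional k Z ∧ finrank (ZMod p) k * finrank k Z ≤
      finrank (ZMod p)
          (Sel (placeSet p Smin T Q) (adP p ρ) (condFamily atP Smin T (placeSet p Smin T Q))) +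
        finrank (ZMod p) k * 3 := by
  let e : Z →ₗ[ZMod p] ↥(Z1 (levelsS (placeSet p Smin T Q)) (adP p ρ)) :=
    { toFun := fun c => ⟨c.1, (hZ c.1 c.2).mem_Z1 H⟩
      map_add' := fun _ _ => rfl
      map_smul' := fun _ _ => rfl }
  let f : Z →ₗ[ZMod p]
      Sel (placeSet p Smin T Q) (adP p ρ) (condFamily atP Smin T (placeSet p Smin T Q)) :=
    ((H1mk (levelsS (placeSet p Smin T Q)) (adP p ρ)).comp e).codRestrict _
      fun c => (hZ c.1 c.2).mem_Sel H
  have := finiteDimensional_traceZero (k := k) (p := p)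
  obtain ⟨hB1fin, hB1⟩ := finrank_B1_add (σ := adP p ρ)
  let g : LinearMap.ker f →ₗ[ZMod p] B1 (adP p ρ) :=
    { toFun := fun c => ⟨c.1.1, H1mk_eq_zero_iff.mp
        (congrArg Subtype.val (LinearMap.mem_ker.mp c.2) :
          H1mk (levelsS (placeSet p Smin T Q)) (adP p ρ) (e c.1) = 0)⟩
      map_add' := fun _ _ => rfl
      map_smul' := fun _ _ => rfl }
  have hg : Function.Injective g := fun a b h =>
    Subtype.ext (Subtype.ext (congrArg (fun x : B1 (adP p ρ) => x.1) h))
  have : FiniteDimensional (ZMod p) (LinearMap.ker f) := Module.Finite.of_injective g hg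
  have hker : finrank (ZMod p) (LinearMap.ker f) ≤ finrank (ZMod p) k * 3 :=
    (LinearMap.finrank_le_finrank_of_injective hg).trans (by
      rw [← finrank_traceZero_prime]; omega)
  obtain ⟨hfin, hle⟩ := finrank_le_of_range_ker f (Submodule.finrank_le _) hker
  have hfink : FiniteDimensional k Z := Module.Finite.of_restrictScalars_finite (ZMod p) k Z
  refine ⟨hfink, ?_⟩
  rw [Module.finrank_mul_finrank (ZMod p) k Z]
  exact hle

/-- The frames fixed by Frobenius: scalars and the trace zero centraliser. -/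
def frameParts (h2 : (2 : k) ≠ 0) (ρ : MRep k) (φ : Γ) :
    LinearMap.ker (adRep ρ φ - 1) →ₗ[k] k × cent0 ρ φ :=
  LinearMap.prod ((Matrix.traceLinearMap (Fin 2) k k).comp (Submodule.subtype _))
    (((tracePart h2).comp (Submodule.subtype _)).codRestrict _ fun X => mem_cent0.mpr
      (Subtype.ext (sub_eq_zero.mp (by
        have hX := X.2
        rw [LinearMap.mem_ker, LinearMap.sub_apply, Module.End.one_apply, adRep_apply] at hX
        rw [LinearMap.comp_apply, coe_slRep_tracePart]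
        exact hX))))

omit [Fact p.Prime] [Algebra (ZMod p) k] [CharP k p] [FiniteDimensional (ZMod p) k] in
lemma frameParts_injective (h2 : (2 : k) ≠ 0) (ρ : MRep k) (φ : Γ) :
    Function.Injective (frameParts h2 ρ φ) := fun X Y h => by
  have h1 : (X : Matrix (Fin 2) (Fin 2) k).trace = (Y : Matrix (Fin 2) (Fin 2) k).trace :=
    congrArg Prod.fst h
  have h3 : tracePart h2 (X : Matrix (Fin 2) (Fin 2) k) = tracePart h2 Y :=
    congrArg (fun z : k × cent0 ρ φ => (z.2 : traceZero k)) h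
  have h4 := congrArg Subtype.val h3
  rw [coe_tracePart, coe_tracePart, h1, sub_left_inj] at h4
  exact Subtype.ext h4

include H hC in
/-- A space of tangent pairs. -/
theorem finrank_tangentPairs_le (W : Submodule k (TangentPair k T))
    (hW : ∀ x ∈ W, IsTangentPair ρ Smin (sigmaSet p Smin T Q) T C atP x)
    [FiniteDimensional (ZMod p)
      (Sel (placeSet p Smin T Q) (adP p ρ) (condFamily atP Smin T (placeSet p Smin T Q)))] :
    FiniteDimensional k W ∧ finrank (ZMod p) k * finrank k W ≤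
      finrank (ZMod p)
          (Sel (placeSet p Smin T Q) (adP p ρ) (condFamily atP Smin T (placeSet p Smin T Q))) +
        finrank (ZMod p) k * (3 + T.card + ∑ r : T, finrank k (cent0 ρ (C.frob r))) := by
  have h2 := two_ne_zero_of_hyp (Fact.out : p.Prime) H
  let π : W →ₗ[k] (Γ → traceZero k) :=
    { toFun := fun x g => ⟨x.1.1 g, mem_traceZero.mpr ((hW x.1 x.2).1.2.1 g)⟩
      map_add' := fun _ _ => rfl
      map_smul' := fun _ _ => rfl }
  obtain ⟨hZfin, hZ⟩ := finrank_selmerCocycles_le H (LinearMap.range π) (by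
    rintro _ ⟨x, rfl⟩
    exact isSelmerCocycle_of_pair H hC (hW x.1 x.2) _ fun _ => rfl)
  let κ : LinearMap.ker π →ₗ[k] ((r : T) → k × cent0 ρ (C.frob r)) :=
    LinearMap.pi fun r => (frameParts h2 ρ (C.frob r)).comp
      (((LinearMap.proj r).comp ((LinearMap.snd k _ _).comp
        (W.subtype.comp (LinearMap.ker π).subtype))).codRestrict _ fun x => by
          rw [LinearMap.mem_ker, LinearMap.sub_apply, Module.End.one_apply, adRep_apply]
          have h := (hW x.1.1 x.1.2).2.2.2.2 r (C.frob r) (Set.mem_insert _ _)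
          have h0 : x.1.1.1 (C.frob r) = 0 :=
            congrArg (fun f : Γ → traceZero k => (f (C.frob r) : Matrix (Fin 2) (Fin 2) k))
              (LinearMap.mem_ker.mp x.2)
          rw [h0, zero_add] at h
          show ρ (C.frob r) * x.1.1.2 r * ρ (C.frob r)⁻¹ - x.1.1.2 r = 0
          linear_combination (norm := abel) -h)
  have hκ : Function.Injective κ := fun x y h => by
    refine Subtype.ext (Subtype.ext (Prod.ext ?_ (funext fun r => ?_)))
    · funext g
      have hx := congrArg (fun f : Γ → traceZero k => (f g : Matrix (Fin 2) (Fin 2) k))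
        (LinearMap.mem_ker.mp x.2)
      have hy := congrArg (fun f : Γ → traceZero k => (f g : Matrix (Fin 2) (Fin 2) k))
        (LinearMap.mem_ker.mp y.2)
      exact hx.trans hy.symm
    · exact congrArg Subtype.val (frameParts_injective h2 ρ _ (congrFun h r))
  have : FiniteDimensional k (LinearMap.ker π) := Module.Finite.of_injective κ hκ
  have hker : finrank k (LinearMap.ker π) ≤ T.card + ∑ r : T, finrank k (cent0 ρ (C.frob r)) := by
    refine (LinearMap.finrank_le_finrank_of_injective hκ).trans ?_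
    rw [Module.finrank_pi_fintype]
    simp only [Module.finrank_prod, Module.finrank_self, Finset.sum_add_distrib, Finset.sum_const,
      Finset.card_univ, Fintype.card_coe, smul_eq_mul, mul_one, le_refl]
  obtain ⟨hfin, hle⟩ := finrank_le_of_range_ker π le_rfl hker
  refine ⟨hfin, ?_⟩
  calc finrank (ZMod p) k * finrank k W
      ≤ finrank (ZMod p) k *
        (finrank k (LinearMap.range π) + (T.card + ∑ r : T, finrank k (cent0 ρ (C.frob r)))) :=
        Nat.mul_le_mul_left _ hle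
    _ ≤ _ := by rw [Nat.mul_add, Nat.mul_add, Nat.mul_add, Nat.mul_add]; omega

include H hC in
/-- The Greenberg–Wiles count. -/
theorem finrank_sel_le (hGW : GreenbergWilesLe p) {inv : InvFamily p} (hinv : inv.IsReciprocal)
    (hQ : ∀ q ∈ Q, q.Prime ∧ q ∉ Smin ∪ T ∧ q ≠ p ∧ ∃ m, IsTWPrime p (m + 1) ρ q) :
    FiniteDimensional (ZMod p)
      (Sel (placeSet p Smin T Q) (adP p ρ) (condFamily atP Smin T (placeSet p Smin T Q))) ∧
    FiniteDimensional (ZMod p) (dualSel H inv atP Q) ∧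
    finrank (ZMod p)
        (Sel (placeSet p Smin T Q) (adP p ρ) (condFamily atP Smin T (placeSet p Smin T Q))) +
      finrank (ZMod p) k * ∑ r : T, finrank k (cent0 ρ (C.frob r)) ≤
    finrank (ZMod p) (dualSel H inv atP Q) + finrank (ZMod p) k * Q.card := by
  have := finiteDimensional_traceZero (k := k) (p := p)
  obtain ⟨h1, h2, h3⟩ := hGW (traceZero k) (placeSet p Smin T Q) (pPrime_mem_placeSet Q) (adP p ρ)
    (isCtsRep_adP_placeSet H Q) (isCtsRep_dual H Q) inv hinv _
    (finiteDimensional_condFamily (atP := atP) H hC hQ)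
  refine ⟨h1, h2, ?_⟩
  have h0 : finrank (ZMod p) (H0 (adP p ρ)) = 0 := by
    rw [invariants_adP_eq_bot H.abs (two_ne_zero_of_hyp (Fact.out : p.Prime) H), finrank_bot]
  have h4 := sum_condFamily_le (atP := atP) H hC hQ
  generalize hD : finrank (ZMod p) (dualSel H inv atP Q) = D
  generalize hS : (∑ u, finrank (ZMod p) (condFamily atP Smin T (placeSet p Smin T Q) u)) = A at h3 h4
  have h5 : finrank (ZMod p) (dualSel H inv atP Q) + finrank (ZMod p) (H0 (adP p ρ)) + A ≥
      finrank (ZMod p) (Sel (placeSet p Smin T Q) (adP p ρ) (condFamily atP Smin T (placeSet p Smin T Q))) +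
      ∑ u, finrank (ZMod p) (H0 ((adP p ρ).comp (locAt (placeSet p Smin T Q) u))) :=
    le_trans (by omega) h3
  rw [hD, h0] at h5
  omega

end Fermat.Agent.Engine.TW

namespace Fermat.Agent.Engine

open Fermat.Agent.DefRing Fermat.Agent.GalCoh TW Module

/-- **Taylor–Wiles primes with the framed bound**, from reciprocity, the Greenberg–Wiles
inequality and the vanishing of `H¹` of the image on cocycles. -/
theorem exists_taylorWiles_system_of_h1 {k : Type} [Field k] [Finite k] (p : ℕ) [Fact p.Prime]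
    (hp : p ≠ 2) [CharP k p] [Algebra (ZMod p) k] (hinv : GalCoh.Reciprocity p) (hGW : GreenbergWilesLe p)
    (ρ : MRep k) (hfin : GaloisFactorsThroughFiniteLevel (ρ : GQ →* _))
    (habs : ∀ (K : Type) [Field K] [Algebra k K] (G : Subgroup GQ), G.index = 1 ∨ G.index = 2 →
      ∀ V : Submodule K (Fin 2 → K),
        (∀ σ ∈ G, ∀ x ∈ V, ((ρ σ).map (algebraMap k K)).mulVec x ∈ V) → V = ⊥ ∨ V = ⊤)
    (χ : GQ → k) (hχ : IsCyclotomicModP p χ) (hdet : ∀ σ, (ρ σ).det = χ σ)
    (hvan : H1Vanishing p ρ)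
    (atP : CondAtP ρ p)
    (Smin T : Finset ℕ) (hpS : p ∉ Smin ∧ p ∉ T) (hdisj : Disjoint Smin T)
    (hprime : ∀ q ∈ Smin ∪ T, q.Prime)
    (hmin : ∀ q ∈ Smin, ∀ A : ValuationSubring (AlgebraicClosure ℚ), A.LiesOverPrime q →
      ∀ σ ∈ A.inertiaSubgroupIn ℚ, (ρ σ - 1) * (ρ σ - 1) = 0)
    (hram : ∀ q ∈ Smin, ∃ A : ValuationSubring (AlgebraicClosure ℚ), A.LiesOverPrime q ∧
      ∃ σ ∈ A.inertiaSubgroupIn ℚ, ρ σ ≠ 1)
    (hunr : ∀ q : ℕ, q.Prime → q ∉ Smin → q ≠ p →
      ∀ A : ValuationSubring (AlgebraicClosure ℚ), A.LiesOverPrime q →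
        ∀ σ ∈ A.inertiaSubgroupIn ℚ, ρ σ = 1)
    (C : LocalChoices T) (hC : C.Valid p) :
    ∃ r : ℕ, T.card ≤ r ∧ ∀ n : ℕ, ∃ Q : Finset ℕ, Q.card = r ∧
      (∀ q ∈ Q, q.Prime ∧ q ∉ Smin ∪ T ∧ q ≠ p ∧ p ^ (n + 1) ∣ q - 1 ∧
        ∀ A : ValuationSubring (AlgebraicClosure ℚ), A.LiesOverPrime q →
          ∀ φ : GQ, A.IsFrobeniusAt φ q → (ρ φ).trace ^ 2 ≠ 4 * (ρ φ).det) ∧
      ∀ W : Submodule k (TangentPair k T),
        (∀ x ∈ W, IsTangentPair ρ Smin (Smin ∪ T ∪ Q ∪ {p}) T C atP x) →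
        FiniteDimensional k W ∧ Module.finrank k W ≤ r + T.card + 3 := by
  have : FiniteDimensional (ZMod p) k := Module.Finite.of_finite
  have H : TWHyp p ρ χ Smin T :=
    ⟨hfin, habs, hp, hχ, hdet, hpS, hdisj, hprime, hmin, hram, hunr⟩
  obtain ⟨inv, hinj, hsum⟩ := hinv
  have hrec : InvFamily.IsReciprocal inv := ⟨hinj, hsum⟩
  obtain ⟨-, hdfin, -⟩ := finrank_sel_le (atP := atP) (Q := ∅) H hC hGW hrec (by simp)
  refine ⟨max T.card (Nat.card (dualSel H inv atP ∅)), le_max_left _ _, fun n => ?_⟩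
  obtain ⟨Q, hcard, hQ, hzero⟩ := exists_killing_set (atP := atP) H hrec hvan n
    (max T.card (Nat.card (dualSel H inv atP ∅))) (le_max_right _ _)
  refine ⟨Q, hcard, fun q hq => ?_, fun W hW => ?_⟩
  · obtain ⟨h1, h2, h3, h4, h5⟩ := hQ q hq
    exact ⟨h1, h2, h3, h4, h5⟩
  obtain ⟨hsfin, -, hle⟩ := finrank_sel_le (atP := atP) H hC hGW hrec fun q hq =>
    ⟨(hQ q hq).1, (hQ q hq).2.1, (hQ q hq).2.2.1, n, (hQ q hq).2.2.2⟩
  obtain ⟨hWfin, hWle⟩ := finrank_tangentPairs_le H hC W hW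
  refine ⟨hWfin, ?_⟩
  rw [hzero, finrank_bot, zero_add, hcard] at hle
  refine Nat.le_of_mul_le_mul_left ?_ (Module.finrank_pos (R := ZMod p) (M := k))
  rw [Nat.mul_add, Nat.mul_add] at hWle ⊢
  omega

/-- **Taylor–Wiles primes with the framed bound**, from reciprocity, the Greenberg–Wiles
inequality and the vanishing of `H¹` of the image. -/
theorem exists_taylorWiles_system_of {k : Type} [Field k] [Finite k] (p : ℕ) [Fact p.Prime]
    (hp : 5 ≤ p) [CharP k p] (hinv : GalCoh.Reciprocity p) (hGW : GreenbergWilesLe p)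
    (ρ : MRep k) (hfin : GaloisFactorsThroughFiniteLevel (ρ : GQ →* _))
    (habs : ∀ (K : Type) [Field K] [Algebra k K] (G : Subgroup GQ), G.index = 1 ∨ G.index = 2 →
      ∀ V : Submodule K (Fin 2 → K),
        (∀ σ ∈ G, ∀ x ∈ V, ((ρ σ).map (algebraMap k K)).mulVec x ∈ V) → V = ⊥ ∨ V = ⊤)
    (χ : GQ → k) (hχ : IsCyclotomicModP p χ) (hdet : ∀ σ, (ρ σ).det = χ σ)
    (hvan : (∃ σ, ∃ c : k, ρ σ = c • 1 ∧ χ σ ≠ 1) ∨ ¬ p ∣ (Set.range ρ).ncard)
    (atP : CondAtP ρ p)
    (Smin T : Finset ℕ) (hpS : p ∉ Smin ∧ p ∉ T) (hdisj : Disjoint Smin T)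
    (hprime : ∀ q ∈ Smin ∪ T, q.Prime)
    (hmin : ∀ q ∈ Smin, ∀ A : ValuationSubring (AlgebraicClosure ℚ), A.LiesOverPrime q →
      ∀ σ ∈ A.inertiaSubgroupIn ℚ, (ρ σ - 1) * (ρ σ - 1) = 0)
    (hram : ∀ q ∈ Smin, ∃ A : ValuationSubring (AlgebraicClosure ℚ), A.LiesOverPrime q ∧
      ∃ σ ∈ A.inertiaSubgroupIn ℚ, ρ σ ≠ 1)
    (hunr : ∀ q : ℕ, q.Prime → q ∉ Smin → q ≠ p →
      ∀ A : ValuationSubring (AlgebraicClosure ℚ), A.LiesOverPrime q →
        ∀ σ ∈ A.inertiaSubgroupIn ℚ, ρ σ = 1)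
    (C : LocalChoices T) (hC : C.Valid p) :
    ∃ r : ℕ, T.card ≤ r ∧ ∀ n : ℕ, ∃ Q : Finset ℕ, Q.card = r ∧
      (∀ q ∈ Q, q.Prime ∧ q ∉ Smin ∪ T ∧ q ≠ p ∧ p ^ (n + 1) ∣ q - 1 ∧
        ∀ A : ValuationSubring (AlgebraicClosure ℚ), A.LiesOverPrime q →
          ∀ φ : GQ, A.IsFrobeniusAt φ q → (ρ φ).trace ^ 2 ≠ 4 * (ρ φ).det) ∧
      ∀ W : Submodule k (TangentPair k T),
        (∀ x ∈ W, IsTangentPair ρ Smin (Smin ∪ T ∪ Q ∪ {p}) T C atP x) →
        FiniteDimensional k W ∧ Module.finrank k W ≤ r + T.card + 3 := by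
  let : Algebra (ZMod p) k := ZMod.algebra k p
  exact exists_taylorWiles_system_of_h1 p (by omega) hinv hGW ρ hfin habs χ hχ hdet
    (h1Vanishing_of_imageVanishing hχ hdet hfin hvan) atP Smin T hpS hdisj hprime hmin hram hunr
    C hC

end Fermat.Agent.Engine
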