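import Fermat.Agent.Engine.TW.Choice
import Fermat.Agent.BigImage.Irreducible
import Mathlib.Algebra.CharP.Lemmas
import Mathlib.GroupTheory.Perm.Cycle.Type
import Mathlib.FieldTheory.Normal.Basic
import Mathlib.RingTheory.Polynomial.Cyclotomic.Roots
import Mathlib.LinearAlgebra.Matrix.Charpoly.Coeff

/-!
# The vanishing of `H¹(image, ad⁰(1))` for representations defined over `𝔽_p`

If `p` divides the order of the image, the image contains `SL₂(𝔽_p)`; as the determinant is onto
it contains the scalar `2`.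
-/

set_option autoImplicit false

noncomputable section

namespace Fermat.Agent.Engine.TW

open Fermat.Agent.DefRing Fermat.Agent.GalCoh Fermat.Agent.GalCoh.Descent ExtCitation Module

local notation "Ω" => AlgebraicClosure ℚ
local notation "Γ" => (AlgebraicClosure ℚ ≃ₐ[ℚ] AlgebraicClosure ℚ)

variable {p : ℕ} [Fact p.Prime]

/-- The mod `p` cyclotomic character is onto. -/
theorem exists_cycloChar_eq (a : (ZMod p)ˣ) : ∃ σ : Γ, cycloChar p σ = a := by
  have hp : p.Prime := Fact.out
  have : Algebra.IsAlgebraic ℚ Ω := AlgebraicClosure.isAlgebraic ℚ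
  have : IsAlgClosure ℚ Ω := ⟨inferInstance, inferInstance⟩
  have : Normal ℚ Ω := IsAlgClosure.normal ℚ Ω
  have hcop : (a : ZMod p).val.Coprime p := ZMod.val_coe_unit_coprime a
  have h1 : IsPrimitiveRoot (mu p (a : ZMod p)) p := (zetaP_spec p).pow_of_coprime _ hcop
  have hmin : minpoly ℚ (mu p (a : ZMod p)) = minpoly ℚ (zetaP p) := by
    rw [← Polynomial.cyclotomic_eq_minpoly_rat h1 hp.pos,
      ← Polynomial.cyclotomic_eq_minpoly_rat (zetaP_spec p) hp.pos]
  obtain ⟨σ, hσ⟩ := (Normal.minpoly_eq_iff_mem_orbit Ω).mp hmin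
  refine ⟨σ, Units.ext (mu_injective (p := p) ?_)⟩
  have h := apply_mu σ (1 : ZMod p)
  rw [mul_one] at h
  rw [← h, mu, ZMod.val_one, pow_one]
  exact hσ

/-- A nilpotent two by two matrix squares to zero. -/
lemma sq_eq_zero_of_isNilpotent {F : Type} [Field F] {N : Matrix (Fin 2) (Fin 2) F}
    (h : IsNilpotent N) : N * N = 0 := by
  obtain ⟨m, hm⟩ := h
  have ht : N.trace = 0 := (Matrix.isNilpotent_trace_of_isNilpotent ⟨m, hm⟩).eq_zero
  have hd : N.det = 0 := by
    refine (pow_eq_zero_iff' (n := m + 1)).mp ?_ |>.1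
    rw [← Matrix.det_pow, pow_succ, hm, zero_mul, Matrix.det_zero]
  rw [Matrix.trace_fin_two] at ht
  rw [Matrix.det_fin_two] at hd
  ext i j
  fin_cases i <;> fin_cases j <;> simp [Matrix.mul_apply, Fin.sum_univ_two]
  · linear_combination N 0 0 * ht - hd
  · linear_combination N 0 1 * ht
  · linear_combination N 1 0 * ht
  · linear_combination N 1 1 * ht - hd

variable {k : Type} [Field k] [Algebra (ZMod p) k] [CharP k p]

/-- An irreducible subgroup of `GL₂(𝔽_p)` of order divisible by `p` contains `SL₂`. -/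
theorem exists_eq_of_dvd_card {G : Type} [Group G] [Finite G]
    (r : G →* Matrix (Fin 2) (Fin 2) (ZMod p)) (hr : Function.Injective r) (hdvd : p ∣ Nat.card G)
    (hirr : BigImage.NoStableSubspace
      ((Matrix.toLinAlgEquiv' : Matrix (Fin 2) (Fin 2) (ZMod p) ≃ₐ[ZMod p] _).toMonoidHom.comp r))
    {f : Matrix (Fin 2) (Fin 2) (ZMod p)} (hf : f.det = 1) : ∃ σ, r σ = f := by
  obtain ⟨u, hu⟩ := exists_prime_orderOf_dvd_card' p hdvd
  have hu1 : r u ≠ 1 := fun h => by
    have : u = 1 := hr (h.trans (map_one r).symm)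
    rw [this, orderOf_one] at hu
    exact (Fact.out : p.Prime).ne_one hu.symm
  have hN : IsNilpotent (r u - 1) := ⟨p, by
    rw [sub_pow_char_of_commute (p := p) (h := Commute.one_right (r u)), one_pow, ← map_pow, show u ^ p = 1 from orderOf_dvd_iff_pow_eq_one.mp hu.dvd,
      map_one, sub_self]⟩
  have hN2 := sq_eq_zero_of_isNilpotent hN
  let L : Matrix (Fin 2) (Fin 2) (ZMod p) ≃ₐ[ZMod p] Module.End (ZMod p) (Fin 2 → ZMod p) :=
    Matrix.toLinAlgEquiv'
  have hu2 : r u * (r u - 1) = r u - 1 := by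
    rw [← sub_eq_zero, ← hN2]; noncomm_ring
  have hsq : ∀ v, L (r u) (L (r u) v - v) = L (r u) v - v := fun v => by
    have h := congrArg (fun M => L M v) hu2
    simp only [map_mul, map_sub, map_one, Module.End.mul_apply, LinearMap.sub_apply,
      Module.End.one_apply] at h
    rw [map_sub]
    exact h
  obtain ⟨v₀, hv₀⟩ : ∃ v, L (r u) v ≠ v := by
    by_contra! h
    refine hu1 (L.injective ?_)
    rw [map_one]
    exact LinearMap.ext h
  obtain ⟨σ, -, hσ⟩ := BigImage.exists_mem_map_eq_of_det_eq_one hirr (by simp) hsq hv₀ ⊤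
    (Subgroup.mem_top u) (f := L f) (by
      rw [← hf]
      exact LinearMap.det_toLin' f)
  exact ⟨σ, L.injective hσ⟩

/-- **Vanishing for representations defined over `𝔽_p`.** -/
theorem imageVanishing_of_primeField (hp5 : 5 ≤ p) {ρ : MRep k} (habs : IndexTwoIrreducible ρ)
    {χ : GQ → k} (hχ : IsCyclotomicModP p χ) (hdet : ∀ σ, (ρ σ).det = χ σ)
    (ρ₀ : GQ →* Matrix (Fin 2) (Fin 2) (ZMod p)) (P P' : Matrix (Fin 2) (Fin 2) k)
    (hP : P * P' = 1) (hconj : ∀ σ, ρ σ = P * (ρ₀ σ).map (algebraMap (ZMod p) k) * P') :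
    ImageVanishing p ρ χ := by
  classical
  have hp : p.Prime := Fact.out
  have hP' : P' * P = 1 := mul_eq_one_comm.mp hP
  let φ := algebraMap (ZMod p) k
  have hinj : ∀ {a b : Matrix (Fin 2) (Fin 2) (ZMod p)},
      P * a.map φ * P' = P * b.map φ * P' → a = b := fun {a b} h => by
    have h1 := congrArg (fun M => P' * M * P) h
    simp only [← mul_assoc, hP', one_mul] at h1
    rw [mul_assoc _ P' P, mul_assoc _ P' P, hP', mul_one, mul_one] at h1
    exact Matrix.map_injective φ.injective h1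
  refine or_iff_not_imp_right.mpr fun hdvd => ?_
  rw [not_not] at hdvd
  -- the image as a finite group
  let G := GQ ⧸ ρ₀.ker
  let r : G →* Matrix (Fin 2) (Fin 2) (ZMod p) :=
    QuotientGroup.lift ρ₀.ker ρ₀ fun _ h => h
  have hr : Function.Injective r := by
    refine QuotientGroup.injective_lift_iff _ _ _ |>.mpr ?_
    rfl
  have : Finite G := Finite.of_injective r hr
  have hcard : Nat.card G = (Set.range ρ).ncard := by
    rw [← Nat.card_coe_set_eq]
    refine Nat.card_congr (Equiv.ofBijective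
      (fun x => (⟨P * (r x).map φ * P', x.out, by
        rw [hconj]
        conv_rhs => rw [← QuotientGroup.out_eq' x]
        rfl⟩ : Set.range ρ)) ⟨fun x y h => hr (hinj (congrArg Subtype.val h)), ?_⟩)
    rintro ⟨_, σ, rfl⟩
    exact ⟨QuotientGroup.mk σ, Subtype.ext (hconj σ).symm⟩
  rw [← hcard] at hdvd
  have hirr : BigImage.NoStableSubspace
      ((Matrix.toLinAlgEquiv' : Matrix (Fin 2) (Fin 2) (ZMod p) ≃ₐ[ZMod p] _).toMonoidHom.comp r) := by
    intro W hW
    by_contra! hne
    obtain ⟨w, hw, hw0⟩ := Submodule.exists_mem_ne_zero_of_ne_bot hne.1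
    let v : Fin 2 → k := P.mulVec (φ ∘ w)
    have hv : v ≠ 0 := fun h => hw0 (funext fun i => φ.injective (by
      have h1 := congrArg (fun x => (P'.mulVec x) i) h
      simp only [v, Matrix.mulVec_mulVec, hP', Matrix.one_mulVec, Matrix.mulVec_zero] at h1
      simpa using h1))
    have hW1 : Submodule.span (ZMod p) {w} = W := by
      refine Submodule.eq_of_le_of_finrank_le ((Submodule.span_singleton_le_iff_mem _ _).mpr hw) ?_
      rw [finrank_span_singleton hw0]
      have := Submodule.finrank_lt hne.2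
      rw [Module.finrank_fintype_fun_eq_card, Fintype.card_fin] at this
      omega
    have hst : ∀ σ ∈ (⊤ : Subgroup GQ), ∀ x ∈ Submodule.span k {v},
        ((ρ σ).map (algebraMap k k)).mulVec x ∈ Submodule.span k {v} := fun σ _ x hx => by
      rw [Submodule.mem_span_singleton] at hx
      obtain ⟨c, rfl⟩ := hx
      obtain ⟨d, hd⟩ := Submodule.mem_span_singleton.mp
        (hW1.symm ▸ hW (QuotientGroup.mk σ) w hw :)
      rw [Algebra.algebraMap_self, RingHom.coe_id, Matrix.map_id, Matrix.mulVec_smul,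
        Submodule.mem_span_singleton]
      refine ⟨c * φ d, ?_⟩
      have he : ((ρ₀ σ).map φ).mulVec (φ ∘ w) = φ d • (φ ∘ w) := by
        have h2 : (ρ₀ σ).mulVec w = d • w := hd.symm
        funext i
        rw [← RingHom.map_mulVec, h2, Pi.smul_apply, smul_eq_mul, map_mul]
        rfl
      rw [hconj, ← Matrix.mulVec_mulVec, ← Matrix.mulVec_mulVec]
      simp only [v, Matrix.mulVec_mulVec (v := φ ∘ w) P' P, hP', Matrix.one_mulVec]
      rw [he, Matrix.mulVec_smul, smul_smul]
    rcases habs k ⊤ (Or.inl Subgroup.index_top) (Submodule.span k {v}) hst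
      with h | h
    · exact hv (Submodule.span_singleton_eq_bot.mp h)
    · have h1 : finrank k (Submodule.span k {v}) = 1 := finrank_span_singleton hv
      rw [h, finrank_top, Module.finrank_fintype_fun_eq_card, Fintype.card_fin] at h1
      omega
  -- the determinant
  have hdet₀ : ∀ σ, (ρ₀ σ).det = (cycloChar p σ : ZMod p) := fun σ => φ.injective (by
    have h := (hdet σ).trans (chi_eq (p := p) hχ σ)
    rw [hconj, Matrix.det_mul, Matrix.det_mul, mul_right_comm, ← Matrix.det_mul, hP,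
      Matrix.det_one, one_mul, ← RingHom.mapMatrix_apply, ← RingHom.map_det] at h
    rw [h, ← map_natCast φ, ZMod.natCast_zmod_val])
  have h2 : ((2 : ℕ) : ZMod p) ≠ 0 := by
    rw [Ne, ZMod.natCast_eq_zero_iff, Nat.prime_dvd_prime_iff_eq hp Nat.prime_two]
    omega
  obtain ⟨τ, hτ⟩ := exists_cycloChar_eq (Units.mk0 ((2 : ℕ) : ZMod p) h2 ^ 2)
  obtain ⟨x, hx⟩ := exists_eq_of_dvd_card r hr hdvd hirr
    (f := ((2 : ℕ) : ZMod p) • ρ₀ τ⁻¹) (by
      rw [Matrix.det_smul, Fintype.card_fin, hdet₀, map_inv, hτ, Units.val_inv_eq_inv_val,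
        Units.val_pow_eq_pow_val, Units.val_mk0, mul_inv_cancel₀ (pow_ne_zero _ h2)])
  obtain ⟨σ, rfl⟩ := QuotientGroup.mk_surjective x
  have hs : ρ₀ (σ * τ) = ((2 : ℕ) : ZMod p) • 1 := by
    rw [map_mul, show ρ₀ σ = ((2 : ℕ) : ZMod p) • ρ₀ τ⁻¹ from hx, Matrix.smul_mul, ← map_mul,
      inv_mul_cancel, map_one]
  refine ⟨σ * τ, φ ((2 : ℕ) : ZMod p), ?_, fun h => ?_⟩
  · rw [hconj, hs, Matrix.map_smul' _ _ _ (map_mul φ), Matrix.map_one _ (map_zero φ) (map_one φ),
      Matrix.mul_smul, mul_one, Matrix.smul_mul, hP]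
  · have h3 := hdet (σ * τ)
    rw [h, hconj, Matrix.det_mul, Matrix.det_mul, mul_right_comm, ← Matrix.det_mul, hP,
      Matrix.det_one, one_mul, ← RingHom.mapMatrix_apply, ← RingHom.map_det, hs, Matrix.det_smul,
      Matrix.det_one, mul_one, Fintype.card_fin, ← map_one φ] at h3
    have h4 : ((2 : ℕ) : ZMod p) ^ 2 = 1 := φ.injective h3
    have h5 : (((2 : ℕ) ^ 2 : ℕ) : ZMod p) = ((1 : ℕ) : ZMod p) := by
      rw [Nat.cast_pow, h4, Nat.cast_one]
    rw [ZMod.natCast_eq_natCast_iff'] at h5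
    rw [Nat.mod_eq_of_lt (by omega), Nat.mod_eq_of_lt hp.one_lt] at h5
    omega

end Fermat.Agent.Engine.TW
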