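import Fermat.Agent.Engine.TW.Dual
import Fermat.Agent.Chebotarev.Main

/-!
# Chebotarev choice of a Taylor–Wiles prime against a dual class

A non-trivial dual class is, at some Frobenius with distinct eigenvalues and trivial on
`μ_{p^{n+1}}`, non-zero on a fixed vector of Frobenius, provided `H¹` of the image vanishes.
-/

set_option autoImplicit false

noncomputable section

set_option maxSynthPendingDepth 5

namespace Fermat.Agent.Engine.TW

open Fermat.Agent.DefRing Fermat.Agent.Deform Fermat.Agent.GalCoh Fermat.Agent.GalCoh.Descent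
  ExtCitation Module
open scoped Pointwise

local notation "Ω" => AlgebraicClosure ℚ
local notation "Γ" => (AlgebraicClosure ℚ ≃ₐ[ℚ] AlgebraicClosure ℚ)

local instance isAlgebraicQbar_ch : Algebra.IsAlgebraic ℚ (AlgebraicClosure ℚ) :=
  AlgebraicClosure.isAlgebraic ℚ

variable {k : Type} [Field k] {p : ℕ} [Fact p.Prime] [Algebra (ZMod p) k] {ρ : MRep k}

/-- The group theoretic vanishing of `H¹(image, ad⁰(1))`. -/
def ImageVanishing (p : ℕ) (ρ : MRep k) (χ : GQ → k) : Prop :=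
  (∃ σ, ∃ c : k, ρ σ = c • 1 ∧ χ σ ≠ 1) ∨ ¬ p ∣ (Set.range ρ).ncard

/-- The vanishing of `H¹(image, ad⁰(1))`, on cocycles. -/
def H1Vanishing (p : ℕ) [Fact p.Prime] [Algebra (ZMod p) k] (ρ : MRep k) : Prop :=
  ∀ y : Γ → Dual (ZMod p) (traceZero k),
    (∀ g h, y (g * h) = dualMu (adP p ρ) g (y h) + y g) → (∀ a, ρ a = 1 → y a = 0) →
      y ∈ B1 (dualMu (adP p ρ))

omit [Algebra (ZMod p) k] in
/-- A `k`-valued cyclotomic character is the cast of the cyclotomic character. -/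
lemma chi_eq {χ : GQ → k} (hχ : IsCyclotomicModP p χ) (σ : Γ) :
    χ σ = (((cycloChar p σ : ZMod p)).val : k) :=
  hχ σ _ fun μ hμ => by
    obtain ⟨x, rfl⟩ := exists_mu_eq hμ
    rw [apply_mu, ← mu_natCast_mul, ZMod.natCast_zmod_val]

lemma adP_eq_one_of_scalar {σ : Γ} {c : k} (h : ρ σ = c • 1) : adP p ρ σ = 1 := by
  refine LinearMap.ext fun X => Subtype.ext ?_
  have h1 := rho_mul_inv ρ σ
  rw [h, Matrix.smul_mul, one_mul] at h1
  show adRep ρ σ (X : Matrix (Fin 2) (Fin 2) k) = _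
  rw [adRep_apply, h, Matrix.smul_mul, one_mul, Matrix.smul_mul, ← Matrix.mul_smul, h1, mul_one]
  rfl

/-- An element acting on the dual by a non-trivial scalar, commuting through the cocycle. -/
lemma mem_B1_of_commute {y : Γ → Dual (ZMod p) (traceZero k)}
    (hy : ∀ g h, y (g * h) = dualMu (adP p ρ) g (y h) + y g) {σ : Γ} {t : ZMod p} (ht : t ≠ 1)
    (hσ : ∀ f, dualMu (adP p ρ) σ f = t • f) (hc : ∀ g, y (σ * g) = y (g * σ)) :
    y ∈ B1 (dualMu (adP p ρ)) := by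
  refine mem_B1_iff.mpr ⟨(t - 1)⁻¹ • y σ, fun g => ?_⟩
  have h := hc g
  rw [hy, hy, hσ] at h
  have h' : (t - 1) • y g = dualMu (adP p ρ) g (y σ) - y σ := by
    rw [sub_smul, one_smul, sub_eq_sub_iff_add_eq_add, h]
  rw [map_smul, ← smul_sub, ← h', smul_smul, inv_mul_cancel₀ (sub_ne_zero.mpr ht), one_smul]

section Vanishing

variable [FiniteDimensional (ZMod p) k] (habs : IndexTwoIrreducible ρ) (h2 : (2 : k) ≠ 0)

include habs h2 in
lemma invariants_dualMu_eq_zero {f : Dual (ZMod p) (traceZero k)}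
    (hf : ∀ g, dualMu (adP p ρ) g f = f) : f = 0 := by
  refine eq_zero_of_semiinvariant habs h2 (fun g => (cycloChar p g : ZMod p)) f fun g X => ?_
  conv_lhs => rw [← hf g]
  rw [dualMu_apply, adP_apply, slRep_inv_apply_apply]

variable {χ : GQ → k} (hχ : IsCyclotomicModP p χ) (hdet : ∀ σ, (ρ σ).det = χ σ)
  (hvan : H1Vanishing p ρ) (hρ : GaloisFactorsThroughFiniteLevel (ρ : GQ →* _))

include hχ hdet in
lemma cycloChar_of_rhoKer [CharP k p] {σ : Γ} (h : ρ σ = 1) : cycloChar p σ = 1 := by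
  have h1 := (chi_eq (p := p) hχ σ).symm.trans ((hdet σ).symm.trans (by rw [h, Matrix.det_one]))
  refine Units.ext (ZMod.val_injective p ?_)
  rw [Units.val_one, ZMod.val_one]
  rw [← Nat.cast_one, CharP.natCast_eq_natCast k p] at h1
  have h2 := Nat.ModEq.eq_of_lt_of_lt h1 (ZMod.val_lt _) (Fact.out : p.Prime).one_lt
  exact h2

include hχ hdet hρ in
/-- The group theoretic conditions give the vanishing. -/
theorem h1Vanishing_of_imageVanishing [CharP k p] (hvan : ImageVanishing p ρ χ) :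
    H1Vanishing p ρ := by
  intro y hy hker
  have htriv : ∀ a, ρ a = 1 → dualMu (adP p ρ) a = 1 := fun a ha => by
    refine LinearMap.ext fun f => LinearMap.ext fun w => ?_
    rw [dualMu_apply, cycloChar_of_rhoKer hχ hdet ha, adP_eq_one ((rhoKer ρ).inv_mem ha)]
    simp
  have hleft : ∀ a x, ρ a = 1 → y a = 0 → y (a * x) = y x := fun a x ha hya => by
    rw [hy, htriv a ha, hya, add_zero, Module.End.one_apply]
  rcases hvan with ⟨σ, c, hσ, hχσ⟩ | hcard
  · have ht : ((cycloChar p σ : ZMod p)) ≠ 1 := fun h => hχσ (by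
      rw [chi_eq (p := p) hχ σ, h, ZMod.val_one, Nat.cast_one])
    refine mem_B1_of_commute (σ := σ) hy ht (fun f => LinearMap.ext fun w => ?_) fun g => ?_
    · have h1 : ρ σ * ρ σ⁻¹ = 1 := rho_mul_inv ρ σ
      rw [hσ, Matrix.smul_mul, one_mul] at h1
      have hne : c ≠ 0 := fun h => by simp [h] at h1
      have h2' : ρ σ⁻¹ = c⁻¹ • (1 : Matrix (Fin 2) (Fin 2) k) := by
        rw [← h1, smul_smul, inv_mul_cancel₀ hne, one_smul]
      rw [dualMu_apply, adP_eq_one_of_scalar h2']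
      simp
    · have hm : ρ (g * σ * g⁻¹ * σ⁻¹) = 1 := by
        rw [map_mul, map_mul, map_mul, hσ, Matrix.mul_smul, mul_one, Matrix.smul_mul, rho_mul_inv,
          ← hσ, rho_mul_inv]
      have h := hleft _ (σ * g) hm (hker _ hm)
      rw [show g * σ * g⁻¹ * σ⁻¹ * (σ * g) = g * σ by group] at h
      exact h.symm
  · have : (rhoKer ρ).FiniteIndex := fullLevels.finiteIndex (fullLevels_rhoKer hρ)
    have : Fintype (Γ ⧸ rhoKer ρ) := Fintype.ofFinite _
    have hN : Fintype.card (Γ ⧸ rhoKer ρ) = (Set.range ρ).ncard := by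
      rw [← Nat.card_eq_fintype_card, ← Nat.card_coe_set_eq]
      refine Nat.card_congr (Equiv.ofBijective
        (Quotient.lift (fun a : Γ => (⟨ρ a, a, rfl⟩ : Set.range ρ)) fun a b hab => Subtype.ext ?_)
        ⟨fun x => ?_, fun ⟨_, a, rfl⟩ => ⟨QuotientGroup.mk a, rfl⟩⟩)
      · have h : ρ (a⁻¹ * b) = 1 := QuotientGroup.leftRel_apply.mp hab
        have := congrArg (ρ a * ·) h
        simp only [mul_one, ← map_mul, mul_inv_cancel_left] at this
        exact this.symm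
      · refine Quotient.inductionOn x fun a x' h => ?_
        induction x' using Quotient.inductionOn with
        | _ b =>
          refine Quotient.sound (QuotientGroup.leftRel_apply.mpr ?_)
          have h' : ρ a = ρ b := congrArg Subtype.val h
          show ρ (a⁻¹ * b) = 1
          rw [map_mul, ← h', rho_inv_mul]
    have hN0 : ((Fintype.card (Γ ⧸ rhoKer ρ) : ℕ) : ZMod p) ≠ 0 := by
      rwa [hN, Ne, ZMod.natCast_eq_zero_iff]
    set w := ∑ x : Γ ⧸ rhoKer ρ, y x.out with hw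
    refine mem_B1_iff.mpr ⟨-((Fintype.card (Γ ⧸ rhoKer ρ) : ℕ) : ZMod p)⁻¹ • w, fun g => ?_⟩
    have hsum : dualMu (adP p ρ) g w + (Fintype.card (Γ ⧸ rhoKer ρ)) • y g = w := by
      rw [hw, map_sum, ← Finset.card_univ, ← Finset.sum_const, ← Finset.sum_add_distrib]
      refine Fintype.sum_bijective (fun x => g • x) (MulAction.bijective g) _ _ fun x => ?_
      rw [← hy]
      have hm : (g * x.out)⁻¹ * (g • x).out ∈ rhoKer ρ :=
        (QuotientGroup.eq).mp (by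
          rw [QuotientGroup.out_eq']
          conv_rhs => rw [← QuotientGroup.out_eq' x]
          rfl)
      conv_rhs => rw [← mul_inv_cancel_left (g * x.out) (g • x).out]
      rw [hy (g * x.out), hker _ hm, map_zero, zero_add]
    rw [← Nat.cast_smul_eq_nsmul (ZMod p)] at hsum
    have h3 : dualMu (adP p ρ) g w - w = -(((Fintype.card (Γ ⧸ rhoKer ρ) : ℕ) : ZMod p) • y g) := by
      conv_lhs => arg 2; rw [← hsum]
      abel
    rw [map_smul, ← smul_sub, h3, smul_neg, neg_smul, neg_neg, smul_smul, inv_mul_cancel₀ hN0,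
      one_smul]

include habs h2 hχ hdet hvan hρ in
/-- A class killed by `ker ρ ∩ G_{ℚ(μ_{p^m})}` is trivial. -/
theorem mem_B1_of_vanishes [CharP k p] {y : Γ → Dual (ZMod p) (traceZero k)}
    (hy : ∀ g h, y (g * h) = dualMu (adP p ρ) g (y h) + y g) (K : Subgroup Γ)
    (hK : ∀ a b : Γ, a * b * a⁻¹ * b⁻¹ ∈ K)
    (h0 : ∀ a, ρ a = 1 → a ∈ K → y a = 0) : y ∈ B1 (dualMu (adP p ρ)) := by
  have htriv : ∀ a, ρ a = 1 → dualMu (adP p ρ) a = 1 := fun a ha => by
    refine LinearMap.ext fun f => LinearMap.ext fun w => ?_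
    rw [dualMu_apply, cycloChar_of_rhoKer hχ hdet ha, adP_eq_one ((rhoKer ρ).inv_mem ha)]
    simp
  have hleft : ∀ a x, ρ a = 1 → y a = 0 → y (a * x) = y x := fun a x ha hya => by
    rw [hy, htriv a ha, hya, add_zero, Module.End.one_apply]
  have hker : ∀ a, ρ a = 1 → y a = 0 := fun a ha => by
    refine invariants_dualMu_eq_zero habs h2 fun g => ?_
    have hm : ρ (g * a * g⁻¹ * a⁻¹) = 1 := by
      have e : ρ a⁻¹ = 1 := (rhoKer ρ).inv_mem ha
      rw [map_mul, map_mul, map_mul, ha, e, mul_one, mul_one, rho_mul_inv]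
    have h := hleft _ (a * g) hm (h0 _ hm (hK g a))
    rw [show g * a * g⁻¹ * a⁻¹ * (a * g) = g * a by group, hy, hy, htriv a ha,
      Module.End.one_apply, add_comm (y g), add_left_inj] at h
    exact h
  exact hvan y hy hker

include habs h2 hχ hdet hvan hρ in
/-- A non-trivial class does not vanish on the fixed vectors of regular elements of `K`. -/
theorem exists_regular_value_ne_zero [CharP k p] {y : Γ → Dual (ZMod p) (traceZero k)}
    (hy : ∀ g h, y (g * h) = dualMu (adP p ρ) g (y h) + y g) (hne : y ∉ B1 (dualMu (adP p ρ)))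
    (K : Subgroup Γ) (hn : ∀ g : Γ, ∀ a ∈ K, g * a * g⁻¹ ∈ K)
    (hK : ∀ a b : Γ, a * b * a⁻¹ * b⁻¹ ∈ K) (hKχ : ∀ a ∈ K, cycloChar p a = 1) :
    ∃ g ∈ K, (ρ g).trace ^ 2 ≠ 4 * (ρ g).det ∧ ∃ v ∈ cent0 ρ g, y g v ≠ 0 := by
  have hdetK : ∀ a ∈ K, (ρ a).det = 1 := fun a ha => by
    rw [hdet, chi_eq (p := p) hχ, hKχ a ha, Units.val_one, ZMod.val_one, Nat.cast_one]
  obtain ⟨h, hhρ, hhK, hyh⟩ : ∃ h, ρ h = 1 ∧ h ∈ K ∧ y h ≠ 0 := by
    by_contra! hcon
    exact hne (mem_B1_of_vanishes habs h2 hχ hdet hvan hρ hy K hK hcon)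
  -- the vectors fixed by regular elements span
  let U₀ : Set (traceZero k) := {v | ∃ g ∈ K, (ρ g).trace ^ 2 ≠ 4 * (ρ g).det ∧ v ∈ cent0 ρ g}
  have hU : Submodule.span k U₀ = ⊤ := by
    refine (eq_bot_or_eq_top_of_stable habs h2 _ fun a X hX => ?_).resolve_left fun hbot => ?_
    · induction hX using Submodule.span_induction with
      | mem v hv =>
        obtain ⟨g, hg, hreg, hv⟩ := hv
        refine Submodule.subset_span ⟨a * g * a⁻¹, hn a g hg, ?_, mem_cent0.mpr ?_⟩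
        · rw [map_mul, map_mul, Matrix.trace_mul_cycle, rho_inv_mul, one_mul,
            Matrix.det_mul, Matrix.det_mul, mul_right_comm, ← Matrix.det_mul, rho_mul_inv,
            Matrix.det_one, one_mul]
          exact hreg
        · rw [map_mul, map_mul, Module.End.mul_apply, Module.End.mul_apply, slRep_inv_apply_apply,
            mem_cent0.mp hv]
      | zero => rw [map_zero]; exact zero_mem _
      | add v w _ _ hv hw => rw [map_add]; exact add_mem hv hw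
      | smul c v _ hv => rw [map_smul]; exact Submodule.smul_mem _ c hv
    · obtain ⟨g, hg, hreg⟩ := exists_regular habs h2 K hn hK hdetK
      let Y : traceZero k := ⟨ρ g - ((ρ g).trace / 2) • 1, by
        rw [mem_traceZero, Matrix.trace_sub, Matrix.trace_smul, Matrix.trace_one, Fintype.card_fin,
          smul_eq_mul]
        field_simp
        push_cast
        ring⟩
      have hY : Y ∈ Submodule.span k U₀ := Submodule.subset_span ⟨g, hg,
        by rwa [hdetK g hg, mul_one], mem_cent0.mpr (Subtype.ext (by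
          simp only [Y, coe_slRep, adRep_apply, Matrix.mul_sub, Matrix.sub_mul, Matrix.mul_smul,
            Matrix.smul_mul, mul_one, mul_assoc, rho_mul_inv]))⟩
      rw [hbot, Submodule.mem_bot] at hY
      have hY' := congrArg (fun Z : traceZero k => (Z : Matrix (Fin 2) (Fin 2) k)) hY
      simp only [Y, Submodule.coe_zero, sub_eq_zero] at hY'
      have hd := hdetK g hg
      rw [hY', Matrix.det_smul, Matrix.det_one, Fintype.card_fin, mul_one, div_pow,
        div_eq_iff (pow_ne_zero 2 h2)] at hd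
      exact hreg (by rw [hd]; ring)
  obtain ⟨g₀, hg₀, hreg, v, hv, hval⟩ : ∃ g ∈ K, (ρ g).trace ^ 2 ≠ 4 * (ρ g).det ∧
      ∃ v ∈ cent0 ρ g, y h v ≠ 0 := by
    by_contra! hcon
    apply hyh
    refine LinearMap.ext fun X => ?_
    have hX : X ∈ Submodule.span k U₀ := hU ▸ Submodule.mem_top
    suffices hall : ∀ a : k, y h (a • X) = 0 by simpa using hall 1
    induction hX using Submodule.span_induction with
    | mem v hv =>
      obtain ⟨g, hg, hreg, hv⟩ := hv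
      exact fun a => hcon g hg hreg _ (Submodule.smul_mem _ a hv)
    | zero => intro a; rw [smul_zero, map_zero]
    | add v w _ _ hv hw => intro a; rw [smul_add, map_add, hv, hw, add_zero]
    | smul c v _ hv => intro a; rw [smul_smul]; exact hv _
  by_cases hg : y g₀ v = 0
  · have e : ρ (g₀ * h) = ρ g₀ := by rw [map_mul, hhρ, mul_one]
    refine ⟨g₀ * h, mul_mem hg₀ hhK, by rwa [e], v, mem_cent0.mpr ?_, ?_⟩
    · have hh : slRep ρ h v = v := by
        rw [← adP_apply (p := p), adP_eq_one hhρ, Module.End.one_apply]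
      rw [map_mul, Module.End.mul_apply, hh, mem_cent0.mp hv]
    · rw [dual_value_add hy (hKχ g₀ hg₀) (mem_cent0.mp hv), hg, zero_add]
      exact hval
  · exact ⟨g₀, hg₀, hreg, v, hv, hg⟩

/-- A Taylor–Wiles prime at level `m` is non-trivial on a class at a place. -/
def IsKilling (u : Nat.Primes) (y : Γ → Dual (ZMod p) (traceZero k)) (ρ : MRep k) : Prop :=
  ∃ φ : (primeLocalPlace u).decompositionSubgroup ℚ,
    (primeLocalPlace u).IsFrobeniusAt (φ : Γ) (u : ℕ) ∧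
      ∃ v ∈ cent0 ρ (φ : Γ), y (φ : Γ) v ≠ 0

/-- A regular unramified prime `≡ 1` modulo `p ^ m`. -/
def IsTWPrime (p m : ℕ) (ρ : MRep k) (q : ℕ) : Prop :=
  p ^ m ∣ q - 1 ∧ ∀ A : ValuationSubring Ω, A.LiesOverPrime q →
    ∀ φ : GQ, A.IsFrobeniusAt φ q → (ρ φ).trace ^ 2 ≠ 4 * (ρ φ).det

/-- The elements fixing a primitive `p ^ (m + 1)`-th root of unity. -/
theorem exists_cyclotomic_subgroup (p m : ℕ) [Fact p.Prime] : ∃ (z : Ω) (K : Subgroup Γ),
    IsPrimitiveRoot z (p ^ (m + 1)) ∧ (∀ {σ : Γ}, σ ∈ K ↔ σ z = z) ∧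
      (∀ g : Γ, ∀ a ∈ K, g * a * g⁻¹ ∈ K) ∧ (∀ a b : Γ, a * b * a⁻¹ * b⁻¹ ∈ K) ∧
      ∀ a ∈ K, cycloChar p a = 1 := by
  have hp : p.Prime := Fact.out
  have : NeZero (p ^ (m + 1)) := ⟨pow_ne_zero _ hp.ne_zero⟩
  have : NeZero ((p ^ (m + 1) : ℕ) : Ω) := ⟨Nat.cast_ne_zero.mpr (pow_ne_zero _ hp.ne_zero)⟩
  obtain ⟨z, hz⟩ := HasEnoughRootsOfUnity.exists_primitiveRoot Ω (p ^ (m + 1))
  let K : Subgroup Γ := MulAction.stabilizer Γ z
  have hK : ∀ {σ : Γ}, σ ∈ K ↔ σ z = z := Iff.rfl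
  have hzpow : ∀ σ : Γ, ∃ i : ℕ, σ z = z ^ i := fun σ => by
    obtain ⟨i, -, hi⟩ := hz.eq_pow_of_pow_eq_one (ξ := σ z) (by rw [← map_pow, hz.pow_eq_one, map_one])
    exact ⟨i, hi.symm⟩
  have hn : ∀ g : Γ, ∀ a ∈ K, g * a * g⁻¹ ∈ K := fun g a ha => by
    obtain ⟨i, hi⟩ := hzpow g⁻¹
    rw [hK, AlgEquiv.mul_apply, AlgEquiv.mul_apply, hi, map_pow, hK.mp ha, ← hi,
      ← AlgEquiv.mul_apply, mul_inv_cancel, AlgEquiv.one_apply]
  have hcomm : ∀ a b : Γ, a * b * a⁻¹ * b⁻¹ ∈ K := fun a b => by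
    obtain ⟨i, hi⟩ := hzpow a
    obtain ⟨j, hj⟩ := hzpow b
    have e : (a * b) z = (b * a) z := by
      rw [AlgEquiv.mul_apply, AlgEquiv.mul_apply, hj, hi, map_pow, map_pow, hi, hj, ← pow_mul,
        ← pow_mul, mul_comm]
    rw [show a * b * a⁻¹ * b⁻¹ = a * b * (b * a)⁻¹ by group, hK]
    obtain ⟨l, hl⟩ := hzpow (b * a)⁻¹
    rw [AlgEquiv.mul_apply, hl, map_pow, e, ← map_pow, ← hl, ← AlgEquiv.mul_apply, mul_inv_cancel,
      AlgEquiv.one_apply]
  have hzP : (z ^ p ^ m) ^ p = 1 := by rw [← pow_mul, ← pow_succ]; exact hz.pow_eq_one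
  have hprim : IsPrimitiveRoot (z ^ p ^ m) p := hz.pow (pow_pos hp.pos _) (pow_succ _ _)
  have hKχ : ∀ a ∈ K, cycloChar p a = 1 := fun a ha => cycloChar_eq_one (by
    obtain ⟨i, -, hi⟩ := hprim.eq_pow_of_pow_eq_one (ξ := zetaP p) (zetaP_spec p).pow_eq_one
    rw [← hi, map_pow, map_pow, hK.mp ha])
  exact ⟨z, K, hz, hK, hn, hcomm, hKχ⟩

include hρ in
/-- Chebotarev at a regular element fixing `μ_{p^{m+1}}`. -/
theorem exists_frobenius_prime (Bad : Finset ℕ) (hpBad : p ∈ Bad)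
    (hunr : ∀ q : ℕ, q.Prime → q ∉ Bad → ∀ A : ValuationSubring Ω, A.LiesOverPrime q →
      ∀ σ ∈ A.inertiaSubgroupIn ℚ, ρ σ = 1)
    {z : Ω} {m : ℕ} (hz : IsPrimitiveRoot z (p ^ (m + 1))) {g : Γ} (hgz : g z = z)
    (hreg : (ρ g).trace ^ 2 ≠ 4 * (ρ g).det) (L : IntermediateField ℚ Ω) [FiniteDimensional ℚ L] :
    ∃ u : Nat.Primes, (u : ℕ) ∉ Bad ∧ IsTWPrime p (m + 1) ρ u ∧
      ∃ A : ValuationSubring Ω, A.LiesOverPrime (u : ℕ) ∧ ∃ σ : Γ, A.IsFrobeniusAt σ (u : ℕ) ∧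
        ρ σ = ρ g ∧ σ z = z ∧ ∀ a ∈ L, (g⁻¹ * σ) a = a := by
  have hp : p.Prime := Fact.out
  obtain ⟨Lρ, hLρ, hρL⟩ := hρ
  have := IntermediateField.adjoin.finiteDimensional (Algebra.IsIntegral.isIntegral (R := ℚ) z)
  obtain ⟨ℓ, hℓ, hℓBad, A, hA, σ, hσ, hσg⟩ := Chebotarev.exists_isFrobeniusAt_eqOn
    (Lρ ⊔ L ⊔ IntermediateField.adjoin ℚ {z}) g Bad
  have hdiff : ∀ a ∈ Lρ ⊔ L ⊔ IntermediateField.adjoin ℚ {z}, (g⁻¹ * σ) a = a := fun a ha => by
    rw [AlgEquiv.mul_apply, hσg a ha, ← AlgEquiv.mul_apply, inv_mul_cancel, AlgEquiv.one_apply]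
  have hρσ : ρ σ = ρ g := by
    rw [← mul_inv_cancel_left g σ, map_mul,
      hρL _ fun a ha => hdiff a ((le_sup_left.trans le_sup_left : Lρ ≤ _) ha), mul_one]
  have hℓp : p ≠ ℓ := fun h => hℓBad (h ▸ hpBad)
  have hσz : σ z = z := by
    rw [hσg z (le_sup_right (a := Lρ ⊔ L) (IntermediateField.mem_adjoin_simple_self ℚ z))]
    exact hgz
  have hnd : ¬ ℓ ∣ p ^ (m + 1) := fun h =>
    hℓp ((Nat.prime_dvd_prime_iff_eq hℓ hp).mp (hℓ.dvd_of_dvd_pow h)).symm
  have hdvd : p ^ (m + 1) ∣ ℓ - 1 := by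
    refine hz.dvd_of_pow_eq_one _ (mul_right_cancel₀ (hz.ne_zero (pow_ne_zero _ hp.ne_zero)) ?_)
    rw [one_mul, ← pow_succ, show ℓ - 1 + 1 = ℓ by have := hℓ.one_le; omega,
      ← Descent.frobenius_root_of_unity hℓ hA hnd hσ hz.pow_eq_one, hσz]
  refine ⟨⟨ℓ, hℓ⟩, hℓBad, ⟨hdvd, fun A' hA' φ' hφ' => ?_⟩, A, hA, σ, hσ, hρσ, hσz,
    fun a ha => hdiff a ((le_sup_right.trans le_sup_left : L ≤ _) ha)⟩
  obtain ⟨a, rfl⟩ := Frobenius.exists_smul_eq_of_liesOverPrime_qbar hℓ hA hA'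
  have hi := Frobenius.isFrobeniusAt_inv_mul_mem_inertia (Frobenius.isFrobeniusAt_conj hσ a) hφ'
  have e : ρ φ' = ρ a * ρ g * ρ a⁻¹ := by
    rw [← mul_inv_cancel_left (a * σ * a⁻¹) φ', map_mul, hunr ℓ hℓ hℓBad _ hA' _ hi, mul_one,
      map_mul, map_mul, hρσ]
  rw [e, Matrix.trace_mul_cycle, rho_inv_mul, one_mul, Matrix.det_mul, Matrix.det_mul,
      mul_right_comm, ← Matrix.det_mul, rho_mul_inv, Matrix.det_one, one_mul]
  exact hreg

include habs h2 hχ hdet hvan hρ in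
/-- **The Chebotarev choice.** -/
theorem exists_killing_prime [CharP k p] (Bad : Finset ℕ) (hpBad : p ∈ Bad)
    (hunr : ∀ q : ℕ, q.Prime → q ∉ Bad → ∀ A : ValuationSubring Ω, A.LiesOverPrime q →
      ∀ σ ∈ A.inertiaSubgroupIn ℚ, ρ σ = 1)
    {y : Γ → Dual (ZMod p) (traceZero k)}
    (hy : ∀ g h, y (g * h) = dualMu (adP p ρ) g (y h) + y g)
    (hylev : ∃ L : IntermediateField ℚ Ω, FiniteDimensional ℚ L ∧
      ∀ σ : Γ, (∀ a ∈ L, σ a = a) → y σ = 0)
    (hne : y ∉ B1 (dualMu (adP p ρ))) (m : ℕ) :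
    ∃ u : Nat.Primes, (u : ℕ) ∉ Bad ∧ IsTWPrime p (m + 1) ρ u ∧ IsKilling u y ρ := by
  have hp : p.Prime := Fact.out
  obtain ⟨z, K, hz, hK, hn, hcomm, hKχ⟩ := exists_cyclotomic_subgroup p m
  obtain ⟨g, hgK, hreg, v, hv, hval⟩ :=
    exists_regular_value_ne_zero habs h2 hχ hdet hvan hρ hy hne K hn hcomm hKχ
  obtain ⟨Ly, hLy, hyL⟩ := hylev
  obtain ⟨⟨ℓ, hℓ⟩, hℓBad, hTW, A, hA, σ, hσ, hρσ, hσz, hdiff⟩ :=
    exists_frobenius_prime hρ Bad hpBad hunr hz (hK.mp hgK) hreg Ly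
  have hyσ : y σ = y g := by
    rw [← mul_inv_cancel_left g σ, hy, hyL _ hdiff, map_zero, zero_add]
  refine ⟨⟨ℓ, hℓ⟩, hℓBad, hTW, ?_⟩
  obtain ⟨a, ha⟩ := Frobenius.exists_smul_eq_of_liesOverPrime_qbar hℓ hA
    (primeLocalPlace_liesOver ⟨ℓ, hℓ⟩)
  have hF := Frobenius.isFrobeniusAt_conj hσ a
  rw [ha] at hF
  refine ⟨⟨a * σ * a⁻¹, hF.choose⟩, hF, slRep ρ a v, ?_, ?_⟩
  · have hσv : slRep ρ σ v = v := by
      refine Subtype.ext ?_
      have := congrArg Subtype.val (mem_cent0.mp hv)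
      have e : ρ σ⁻¹ = ρ g⁻¹ := by
        calc ρ σ⁻¹ = ρ σ⁻¹ * (ρ g * ρ g⁻¹) := by rw [rho_mul_inv, mul_one]
          _ = ρ g⁻¹ := by rw [← mul_assoc, ← hρσ, rho_inv_mul, one_mul]
      simpa only [coe_slRep, adRep_apply, hρσ, e] using this
    rw [mem_cent0]
    show slRep ρ (a * σ * a⁻¹) (slRep ρ a v) = slRep ρ a v
    rw [map_mul, map_mul, Module.End.mul_apply, Module.End.mul_apply, slRep_inv_apply_apply, hσv]
  · show y (a * σ * a⁻¹) (slRep ρ a v) ≠ 0
    have h : y (a * σ * a⁻¹ * a) = y (a * σ) := by rw [inv_mul_cancel_right]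
    rw [hy, hy a σ] at h
    have h1 := LinearMap.congr_fun h (slRep ρ a v)
    have hσ1 : cycloChar p (a * σ * a⁻¹) = 1 := by
      have hσχ : cycloChar p σ = 1 := by
        have : σ ∈ K := hK.mpr hσz
        exact hKχ σ this
      rw [map_mul, map_mul, hσχ, mul_one, ← map_mul, mul_inv_cancel, map_one]
    have hfix : slRep ρ (a * σ * a⁻¹)⁻¹ (slRep ρ a v) = slRep ρ a v := by
      have hσv : slRep ρ σ⁻¹ v = v := by
        refine Subtype.ext ?_
        have := congrArg Subtype.val (mem_cent0.mp hv)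
        have e : ρ σ⁻¹ = ρ g⁻¹ := by
          calc ρ σ⁻¹ = ρ σ⁻¹ * (ρ g * ρ g⁻¹) := by rw [rho_mul_inv, mul_one]
            _ = ρ g⁻¹ := by rw [← mul_assoc, ← hρσ, rho_inv_mul, one_mul]
        simp only [coe_slRep, adRep_apply, inv_inv, hρσ, e] at this ⊢
        conv_lhs => rw [← this]
        simp only [← mul_assoc, rho_inv_mul, one_mul]
        rw [mul_assoc, rho_inv_mul, mul_one]
      rw [mul_inv_rev, mul_inv_rev, inv_inv, map_mul, map_mul, Module.End.mul_apply,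
        Module.End.mul_apply, slRep_inv_apply_apply, hσv]
    simp only [LinearMap.add_apply, dualMu_apply, hσ1, Units.val_one, one_mul, adP_apply, hfix,
      slRep_inv_apply_apply] at h1
    rw [add_comm, add_left_inj, hyσ] at h1
    rw [h1]
    exact mul_ne_zero (Units.ne_zero _) hval

include habs h2 hχ hdet hρ in
/-- There are Taylor–Wiles primes outside every finite set. -/
theorem exists_twPrime [CharP k p] (Bad : Finset ℕ) (hpBad : p ∈ Bad)
    (hunr : ∀ q : ℕ, q.Prime → q ∉ Bad → ∀ A : ValuationSubring Ω, A.LiesOverPrime q →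
      ∀ σ ∈ A.inertiaSubgroupIn ℚ, ρ σ = 1) (m : ℕ) :
    ∃ u : Nat.Primes, (u : ℕ) ∉ Bad ∧ IsTWPrime p (m + 1) ρ u := by
  obtain ⟨z, K, hz, hK, hn, hcomm, hKχ⟩ := exists_cyclotomic_subgroup p m
  have hdetK : ∀ a ∈ K, (ρ a).det = 1 := fun a ha => by
    rw [hdet, chi_eq (p := p) hχ, hKχ a ha, Units.val_one, ZMod.val_one, Nat.cast_one]
  obtain ⟨g, hg, hreg⟩ := exists_regular habs h2 K hn hcomm hdetK
  obtain ⟨u, hu, hTW, -⟩ := exists_frobenius_prime (p := p) hρ Bad hpBad hunr hz (hK.mp hg)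
    (by rwa [hdetK g hg, mul_one]) ⊥
  exact ⟨u, hu, hTW⟩

end Vanishing

end Fermat.Agent.Engine.TW
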