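import Fermat.Agent.Deform.FixedDet
import Fermat.Agent.DefRing.MatrixRep
import Mathlib.GroupTheory.Index
import Mathlib.LinearAlgebra.Eigenspace.Triangularizable
import Mathlib.FieldTheory.IsAlgClosed.AlgebraicClosure
import Mathlib.Algebra.Algebra.ZMod
import Mathlib.LinearAlgebra.Dual.Lemmas

/-!
# The adjoint representation of an absolutely irreducible residual representation

No proper non-zero subspace of the trace zero matrices is stable, and every normal subgroup of
determinant one with abelian quotient contains an element with distinct eigenvalues.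
-/

set_option autoImplicit false

noncomputable section

namespace Fermat.Agent.Engine.TW

open Fermat.Agent.DefRing Fermat.Agent.Deform

variable {k : Type} [Field k]

/-- Irreducible over every extension field on every subgroup of index at most two. -/
def IndexTwoIrreducible (ρ : MRep k) : Prop :=
  ∀ (K : Type) [Field K] [Algebra k K] (G : Subgroup GQ), G.index = 1 ∨ G.index = 2 →
    ∀ V : Submodule K (Fin 2 → K),
      (∀ σ ∈ G, ∀ x ∈ V, ((ρ σ).map (algebraMap k K)).mulVec x ∈ V) → V = ⊥ ∨ V = ⊤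

variable {ρ : MRep k}

omit [Field k] in
lemma smul_ne_bot_of_ne_zero {K : Type} [Field K] {V : Submodule K (Fin 2 → K)}
    {x : Fin 2 → K} (hx : x ∈ V) (h0 : x ≠ 0) : V ≠ ⊥ := fun h => h0 (by simpa [h] using hx)

/-- No line of trace zero matrices is stable. -/
theorem no_stable_line (habs : IndexTwoIrreducible ρ) (h2 : (2 : k) ≠ 0)
    {Y : Matrix (Fin 2) (Fin 2) k} (htr : Y.trace = 0) (hY : Y ≠ 0)
    (hst : ∀ g : GQ, ∃ l : k, ρ g * Y = l • (Y * ρ g)) : False := by
  classical
  rw [Matrix.trace_fin_two] at htr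
  by_cases hd : Y.det = 0
  · -- nilpotent: the kernel is stable
    let V : Submodule k (Fin 2 → k) := LinearMap.ker Y.mulVecLin
    obtain ⟨v, hv0, hv⟩ := Matrix.exists_mulVec_eq_zero_iff.mpr hd
    have hstab : ∀ σ ∈ (⊤ : Subgroup GQ), ∀ x ∈ V,
        ((ρ σ).map (algebraMap k k)).mulVec x ∈ V := by
      intro σ _ x hx
      simp only [Algebra.algebraMap_self, RingHom.coe_id, Matrix.map_id]
      rw [LinearMap.mem_ker, Matrix.mulVecLin_apply] at hx
      show Y.mulVecLin ((ρ σ).mulVec x) = 0
      obtain ⟨l, hl⟩ := hst σ⁻¹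
      have h1 : Y * ρ σ = l • (ρ σ * Y) := by
        have h3 := congrArg (fun M => ρ σ * (M * ρ σ)) hl
        simp only [Matrix.smul_mul, Matrix.mul_smul, mul_assoc] at h3
        rw [← mul_assoc (ρ σ) (ρ σ⁻¹), ← map_mul, mul_inv_cancel, map_one, one_mul, ← map_mul,
          inv_mul_cancel, map_one, mul_one] at h3
        exact h3
      rw [Matrix.mulVecLin_apply, Matrix.mulVec_mulVec, h1, Matrix.smul_mulVec,
        ← Matrix.mulVec_mulVec, hx, Matrix.mulVec_zero, smul_zero]
    rcases habs k ⊤ (Or.inl (by simp)) V hstab with h | h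
    · exact smul_ne_bot_of_ne_zero (show v ∈ V by simpa [V] using hv) hv0 h
    · refine hY (Matrix.ext fun i j => ?_)
      have h1 : Pi.single j (1 : k) ∈ V := h ▸ Submodule.mem_top
      rw [LinearMap.mem_ker, Matrix.mulVecLin_apply, Matrix.mulVec_single_one] at h1
      exact congrFun h1 i
  -- semisimple: the centraliser has index at most two and stabilises an eigenline
  have hl2 : ∀ g (l : k), ρ g * Y = l • (Y * ρ g) → l = 1 ∨ l = -1 := by
    intro g l hl
    have hg : (ρ g).det ≠ 0 := by
      intro h0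
      have h1 := congrArg Matrix.det (show ρ g * ρ g⁻¹ = 1 by rw [← map_mul, mul_inv_cancel, map_one])
      rw [Matrix.det_mul, h0, zero_mul, Matrix.det_one] at h1
      exact zero_ne_one h1
    have h1 := congrArg Matrix.det hl
    rw [Matrix.det_smul, Matrix.det_mul, Matrix.det_mul, Fintype.card_fin] at h1
    have h2' : (l ^ 2 - 1) * (Y.det * (ρ g).det) = 0 := by linear_combination -h1
    exact sq_eq_one_iff.mp
      (sub_eq_zero.mp ((mul_eq_zero.mp h2').resolve_right (mul_ne_zero hd hg)))
  let H : Subgroup GQ :=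
    { carrier := {g | ρ g * Y = Y * ρ g}
      one_mem' := by simp
      mul_mem' := fun {a b} ha hb => by
        show ρ (a * b) * Y = Y * ρ (a * b)
        rw [map_mul, mul_assoc, hb, ← mul_assoc, ha, mul_assoc]
      inv_mem' := fun {a} ha => by
        show ρ a⁻¹ * Y = Y * ρ a⁻¹
        have h1 : ρ a⁻¹ * (ρ a * Y) * ρ a⁻¹ = ρ a⁻¹ * (Y * ρ a) * ρ a⁻¹ := by rw [ha]
        rw [← mul_assoc, ← map_mul, inv_mul_cancel, map_one, one_mul, mul_assoc (ρ a⁻¹),
          mul_assoc Y, ← map_mul, mul_inv_cancel, map_one, mul_one] at h1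
        exact h1.symm }
  have hmem : ∀ {g}, g ∈ H ↔ ρ g * Y = Y * ρ g := Iff.rfl
  have hH : H.index = 1 ∨ H.index = 2 := by
    by_cases htop : H = ⊤
    · exact Or.inl (by rw [htop, Subgroup.index_top])
    obtain ⟨a, ha⟩ : ∃ a, a ∉ H := by
      by_contra! h
      exact htop (eq_top_iff.mpr fun x _ => h x)
    refine Or.inr (Subgroup.index_eq_two_iff.mpr ⟨a, fun b => ?_⟩)
    have hneg : ∀ {g}, g ∉ H → ρ g * Y = -(Y * ρ g) := fun {g} hg => by
      obtain ⟨l, hl⟩ := hst g
      rcases hl2 g l hl with rfl | rfl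
      · exact absurd (by rw [hmem, hl, one_smul]) hg
      · rw [hl, neg_one_smul]
    by_cases hb : b ∈ H
    · exact Or.inr ⟨hb, fun h => ha ((H.mul_mem_cancel_left hb).mp h)⟩
    · refine Or.inl ⟨?_, hb⟩
      rw [hmem, map_mul, mul_assoc, hneg ha, mul_neg, ← mul_assoc, hneg hb, neg_mul, neg_neg,
        mul_assoc]
  let K := AlgebraicClosure k
  let YK : Module.End K (Fin 2 → K) := (Y.map (algebraMap k K)).mulVecLin
  obtain ⟨μ, hμ⟩ := Module.End.exists_eigenvalue YK
  rcases habs K H hH (Module.End.eigenspace YK μ) (fun σ hσ x hx => by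
    rw [Module.End.mem_eigenspace_iff] at hx ⊢
    show (Y.map (algebraMap k K)).mulVec (((ρ σ).map (algebraMap k K)).mulVec x) = _
    rw [Matrix.mulVec_mulVec, ← Matrix.map_mul, ← hmem.mp hσ, Matrix.map_mul,
      ← Matrix.mulVec_mulVec]
    change ((ρ σ).map (algebraMap k K)).mulVec (YK x) = _
    rw [hx, Matrix.mulVec_smul]) with h | h
  · exact hμ h
  · have hcol : ∀ i j, algebraMap k K (Y i j) = μ * (if i = j then 1 else 0) := fun i j => by
      have h1 : (Pi.single j (1 : K)) ∈ Module.End.eigenspace YK μ := h ▸ Submodule.mem_top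
      rw [Module.End.mem_eigenspace_iff] at h1
      have h2' := congrFun h1 i
      simp only [YK, Matrix.mulVecLin_apply, Matrix.mulVec_single_one, Pi.smul_apply,
        smul_eq_mul, Matrix.col_apply, Matrix.map_apply] at h2'
      rw [h2', Pi.single_apply]
    have h00 : Y 0 0 = Y 1 1 :=
      (algebraMap k K).injective (by rw [hcol, hcol]; simp)
    have hdiag : Y 0 0 = 0 := by
      rw [← h00, ← two_mul] at htr
      exact (mul_eq_zero.mp htr).resolve_left h2
    have h01 : Y 0 1 = 0 := (algebraMap k K).injective (by rw [hcol]; simp)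
    apply hd
    rw [Matrix.det_fin_two, hdiag, h01, zero_mul, zero_mul, sub_zero]

lemma trace_conj (g : GQ) (X : Matrix (Fin 2) (Fin 2) k) :
    (ρ g * X * ρ g⁻¹).trace = X.trace := by
  rw [Matrix.trace_mul_cycle, ← map_mul, inv_mul_cancel, map_one, one_mul]

/-- A stable space of trace zero matrices is trivial. -/
theorem eq_bot_or_eq_top_of_stable (habs : IndexTwoIrreducible ρ) (h2 : (2 : k) ≠ 0)
    (W : Submodule k (traceZero k)) (hW : ∀ g, ∀ X ∈ W, slRep ρ g X ∈ W) :
    W = ⊥ ∨ W = ⊤ := by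
  classical
  by_contra! hne
  obtain ⟨hbot, htop⟩ := hne
  have hline : ∀ U : Submodule k (traceZero k), (∀ g, ∀ X ∈ U, slRep ρ g X ∈ U) →
      Module.finrank k U = 1 → False := fun U hU h1 => by
    have : Module.Free k U := Module.Free.of_divisionRing k U
    obtain ⟨⟨Y, hYU⟩, hY0, hspan⟩ := (finrank_eq_one_iff' (K := k) (V := U)).mp h1
    refine no_stable_line habs h2 (Y := Y.1) Y.2 (fun h => hY0 (Subtype.ext (Subtype.ext h)))
      fun g => ?_
    obtain ⟨l, hl⟩ := hspan ⟨_, hU g Y hYU⟩
    have hl' := congrArg (fun x : U => ((x : traceZero k) : Matrix (Fin 2) (Fin 2) k)) hl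
    simp only [SetLike.val_smul, coe_slRep, adRep_apply] at hl'
    refine ⟨l, ?_⟩
    have := congrArg (· * ρ g) hl'
    simp only [mul_assoc, Matrix.smul_mul] at this
    rw [← map_mul, inv_mul_cancel, map_one, mul_one] at this
    exact this.symm
  let B : traceZero k →ₗ[k] Module.Dual k (traceZero k) :=
    LinearMap.mk₂ k (fun X Y => (X.1 * Y.1).trace)
      (fun a b c => by simp [Matrix.add_mul]) (fun a b c => by simp)
      (fun a b c => by simp [Matrix.mul_add]) (fun a b c => by simp)
  have hB : Function.Injective B := by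
    refine LinearMap.ker_eq_bot.mp (LinearMap.ker_eq_bot'.mpr ?_)
    rintro ⟨Y, hY⟩ hBY
    have htest : ∀ Z : Matrix (Fin 2) (Fin 2) k, Z.trace = 0 → (Y * Z).trace = 0 := fun Z hZ =>
      LinearMap.congr_fun hBY ⟨Z, hZ⟩
    have a := htest !![0, 1; 0, 0] (by simp [Matrix.trace_fin_two])
    have b := htest !![0, 0; 1, 0] (by simp [Matrix.trace_fin_two])
    have c := htest !![1, 0; 0, -1] (by simp [Matrix.trace_fin_two])
    simp [Matrix.trace_fin_two, Matrix.mul_apply, Fin.sum_univ_two] at a b c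
    have htr := mem_traceZero.mp hY
    rw [Matrix.trace_fin_two] at htr
    have h00 : Y 0 0 = 0 :=
      (mul_eq_zero.mp (show (2 : k) * Y 0 0 = 0 by linear_combination htr + c)).resolve_left h2
    refine Subtype.ext (Matrix.ext fun i j => ?_)
    fin_cases i <;> fin_cases j <;> simp_all
  let P : Submodule k (traceZero k) := W.dualAnnihilator.comap B
  have hP : ∀ g, ∀ X ∈ P, slRep ρ g X ∈ P := by
    intro g X hX
    rw [Submodule.mem_comap, Submodule.mem_dualAnnihilator] at hX ⊢
    intro Z hZ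
    have h := hX _ (hW g⁻¹ Z hZ)
    show ((slRep ρ g X : Matrix (Fin 2) (Fin 2) k) * (Z : Matrix (Fin 2) (Fin 2) k)).trace = 0
    change ((X : Matrix (Fin 2) (Fin 2) k) *
      (slRep ρ g⁻¹ Z : Matrix (Fin 2) (Fin 2) k)).trace = 0 at h
    rw [coe_slRep, adRep_apply, inv_inv] at h
    rw [coe_slRep, adRep_apply, ← h]
    rw [mul_assoc, mul_assoc, Matrix.trace_mul_comm]
    simp only [mul_assoc]
  have h3 : Module.finrank k (traceZero k) = 3 := by
    have h := LinearMap.finrank_range_add_finrank_ker (Matrix.traceLinearMap (Fin 2) k k)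
    rw [LinearMap.range_eq_top.mpr fun x => ⟨!![x, 0; 0, 0], by simp [Matrix.trace_fin_two]⟩,
      finrank_top, Module.finrank_self, Module.finrank_matrix] at h
    show Module.finrank k (LinearMap.ker (Matrix.traceLinearMap (Fin 2) k k)) = 3
    simp at h
    omega
  have hBe : LinearMap.range B = ⊤ :=
    Submodule.eq_top_of_finrank_eq (by
      rw [LinearMap.finrank_range_of_inj hB, Subspace.dual_finrank_eq])
  have hP' : Module.finrank k P + Module.finrank k W = 3 := by
    have h1 : Module.finrank k P = Module.finrank k W.dualAnnihilator := by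
      rw [(Submodule.equivMapOfInjective B hB P).finrank_eq, Submodule.map_comap_eq, hBe, top_inf_eq]
    rw [h1, add_comm, Subspace.finrank_add_finrank_dualAnnihilator_eq, h3]
  have hW1 : 1 ≤ Module.finrank k W := Submodule.one_le_finrank_iff.mpr hbot
  have hW3 : Module.finrank k W < 3 := h3 ▸ Submodule.finrank_lt htop
  rcases (show Module.finrank k W = 1 ∨ Module.finrank k W = 2 by omega) with h | h
  · exact hline W hW h
  · exact hline P hP (by omega)

/-- A normal subgroup of determinant one with abelian quotient contains a regular element. -/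
theorem exists_regular (habs : IndexTwoIrreducible ρ) (h2 : (2 : k) ≠ 0) (N : Subgroup GQ)
    (hnormal : ∀ g : GQ, ∀ n ∈ N, g * n * g⁻¹ ∈ N)
    (hcomm : ∀ a b : GQ, a * b * a⁻¹ * b⁻¹ ∈ N) (hdet : ∀ n ∈ N, (ρ n).det = 1) :
    ∃ g ∈ N, (ρ g).trace ^ 2 ≠ 4 := by
  by_contra! hall
  by_cases hsc : ∀ n ∈ N, ρ n = (ρ n 0 0) • (1 : Matrix (Fin 2) (Fin 2) k)
  · have hconj : ∀ g g₀ : GQ, ∃ c : k, ρ g * ρ g₀ = c • (ρ g₀ * ρ g) := fun g g₀ => by
      refine ⟨ρ (g * g₀ * g⁻¹ * g₀⁻¹) 0 0, ?_⟩
      have h := hsc _ (hcomm g g₀)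
      have h' := congrArg (· * ρ (g₀ * g)) h
      simp only [← map_mul, Matrix.smul_mul, one_mul] at h'
      rw [show g * g₀ * g⁻¹ * g₀⁻¹ * (g₀ * g) = g * g₀ by group] at h'
      rw [← map_mul, ← map_mul]
      exact h'
    by_cases hscal : ∀ g : GQ, ρ g = (ρ g 0 0) • (1 : Matrix (Fin 2) (Fin 2) k)
    · refine no_stable_line habs h2 (Y := !![0, 1; 0, 0]) (by simp [Matrix.trace_fin_two])
        (fun h => by simpa using congrFun (congrFun h 0) 1) fun g => ⟨1, ?_⟩
      rw [hscal g]
      simp
    push Not at hscal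
    obtain ⟨g₀, hg₀⟩ := hscal
    let Y : Matrix (Fin 2) (Fin 2) k := ρ g₀ - ((ρ g₀).trace / 2) • 1
    refine no_stable_line habs h2 (Y := Y) ?_ ?_ fun g => ?_
    · simp only [Y, Matrix.trace_sub, Matrix.trace_smul, Matrix.trace_one, Fintype.card_fin,
        smul_eq_mul]
      field_simp
      push_cast
      ring
    · intro h
      have h' := sub_eq_zero.mp h
      apply hg₀
      conv_lhs => rw [h']
      rw [show ρ g₀ 0 0 = (ρ g₀).trace / 2 by conv_lhs => rw [h']; simp]
    obtain ⟨c, hc⟩ := hconj g g₀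
    by_cases hc1 : c = 1
    · refine ⟨1, ?_⟩
      rw [hc1, one_smul] at hc
      simp [Y, Matrix.mul_sub, Matrix.sub_mul, hc]
    · have ht : (ρ g₀).trace = 0 := by
        have h1 := congrArg (fun M => (M * ρ g⁻¹).trace) hc
        simp only [Matrix.smul_mul, Matrix.trace_smul, smul_eq_mul] at h1
        rw [trace_conj, mul_assoc (ρ g₀), ← map_mul, mul_inv_cancel, map_one, mul_one] at h1
        exact (mul_eq_zero.mp (show (c - 1) * (ρ g₀).trace = 0 by
          linear_combination -h1)).resolve_left (sub_ne_zero.mpr hc1)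
      exact ⟨c, by simp [Y, ht, hc]⟩
  push Not at hsc
  obtain ⟨n, hn, hns⟩ := hsc
  set t := (ρ n).trace / 2 with ht_def
  have ht : t ^ 2 = 1 := by
    have h := hall n hn
    rw [ht_def]
    field_simp
    linear_combination h
  set Z := ρ n - t • (1 : Matrix (Fin 2) (Fin 2) k) with hZ
  have hZ2 : Z * Z = 0 := by
    have hd := hdet n hn
    rw [Matrix.det_fin_two] at hd
    have e : ρ n 0 0 + ρ n 1 1 = 2 * t := by
      rw [ht_def, Matrix.trace_fin_two]; field_simp
    ext i j
    fin_cases i <;> fin_cases j <;>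
      simp [Z, Matrix.mul_apply, Fin.sum_univ_two]
    · linear_combination ρ n 0 0 * e - hd + ht
    · linear_combination ρ n 0 1 * e
    · linear_combination ρ n 1 0 * e
    · linear_combination ρ n 1 1 * e - hd + ht
  set N₁ := (2 * t) • Z with hN₁def
  have hN2 : N₁ * N₁ = 0 := by
    simp [hN₁def, hZ2]
  have hn2 : ρ (n * n) = 1 + N₁ := by
    rw [map_mul, show ρ n = Z + t • 1 by simp [hZ]]
    simp only [hN₁def, Matrix.add_mul, Matrix.mul_add, hZ2, Matrix.smul_mul, Matrix.mul_smul,
      one_mul, mul_one, zero_add]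
    rw [smul_add, smul_smul, ← sq, ht]
    module
  have hN0 : N₁ ≠ 0 := by
    have ht0 : t ≠ 0 := fun h0 => by simp [h0] at ht
    refine smul_ne_zero (mul_ne_zero h2 ht0) fun h0 => hns ?_
    have h' := sub_eq_zero.mp h0
    conv_lhs => rw [h']
    rw [show ρ n 0 0 = t by rw [h']; simp]
  have hzero : ∀ h ∈ N, (N₁ * ρ h).trace = 0 := by
    intro h hh
    have e0 := hall h hh
    have e1 := hall _ (mul_mem (mul_mem hn hn) hh)
    have e2 := hall _ (mul_mem (mul_mem (mul_mem hn hn) (mul_mem hn hn)) hh)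
    rw [map_mul, hn2, Matrix.add_mul, one_mul, Matrix.trace_add] at e1
    rw [map_mul, map_mul, hn2, show (1 + N₁) * (1 + N₁) = 1 + (2 : k) • N₁ by
      rw [Matrix.add_mul, Matrix.mul_add, Matrix.mul_add, hN2, one_mul, one_mul, mul_one, add_zero,
        two_smul, add_assoc], Matrix.add_mul, one_mul, Matrix.trace_add, Matrix.smul_mul,
      Matrix.trace_smul, smul_eq_mul] at e2
    set a := (ρ h).trace
    set x := (N₁ * ρ h).trace
    have f1 : x * (2 * a + x) = 0 := by linear_combination e1 - e0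
    have f2 : x * ((2 * 2) * (a + x)) = 0 := by linear_combination e2 - e0
    by_contra hx
    have g1 := (mul_eq_zero.mp f1).resolve_left hx
    have g2 := (mul_eq_zero.mp ((mul_eq_zero.mp f2).resolve_left hx)).resolve_left
      (mul_ne_zero h2 h2)
    have ha : a = 0 := by linear_combination g1 - g2
    rw [ha] at e0
    exact mul_ne_zero h2 h2 (by linear_combination -e0)
  have htr1 : N₁.trace = 0 := by simpa using hzero 1 (one_mem N)
  refine no_stable_line habs h2 htr1 hN0 fun g => ?_
  set N₂ := ρ g * N₁ * ρ g⁻¹ with hN₂def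
  have hconj : ρ (g * (n * n) * g⁻¹) = 1 + N₂ := by
    rw [map_mul, map_mul, hn2, Matrix.mul_add, Matrix.add_mul, mul_one, ← map_mul,
      mul_inv_cancel, map_one]
  have horth : (N₁ * N₂).trace = 0 := by
    have h := hzero _ (hnormal g _ (mul_mem hn hn))
    rwa [hconj, Matrix.mul_add, mul_one, Matrix.trace_add, htr1, zero_add] at h
  have hN22 : N₂ * N₂ = 0 := by
    rw [hN₂def, mul_assoc (ρ g * N₁) (ρ g⁻¹), ← mul_assoc (ρ g⁻¹), ← mul_assoc (ρ g⁻¹), ← map_mul,
      inv_mul_cancel, map_one, one_mul, ← mul_assoc, mul_assoc (ρ g) N₁ N₁, hN2, mul_zero,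
      zero_mul]
  have htr2 : N₂.trace = 0 := by rw [hN₂def, trace_conj, htr1]
  obtain ⟨l, hl⟩ : ∃ l : k, N₂ = l • N₁ := by
    rw [Matrix.trace_fin_two] at htr1 htr2
    have a2 : N₁ 1 1 = -N₁ 0 0 := by linear_combination htr1
    have a2' : N₂ 1 1 = -N₂ 0 0 := by linear_combination htr2
    have d1 := congrFun (congrFun hN2 0) 0
    have d2 := congrFun (congrFun hN22 0) 0
    simp [Matrix.mul_apply, Fin.sum_univ_two] at d1 d2
    simp [Matrix.trace_fin_two, Matrix.mul_apply, Fin.sum_univ_two, a2, a2'] at horth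
    set a := N₁ 0 0
    set b := N₁ 0 1
    set c := N₁ 1 0
    set a' := N₂ 0 0
    set b' := N₂ 0 1
    set c' := N₂ 1 0
    have hab : a * b' = a' * b := sub_eq_zero.mp (pow_eq_zero_iff (two_ne_zero) |>.mp
      (show (a * b' - a' * b) ^ 2 = 0 by
        linear_combination b' ^ 2 * d1 + b ^ 2 * d2 - b * b' * horth))
    have hac : a * c' = a' * c := sub_eq_zero.mp (pow_eq_zero_iff (two_ne_zero) |>.mp
      (show (a * c' - a' * c) ^ 2 = 0 by
        linear_combination c' ^ 2 * d1 + c ^ 2 * d2 - c * c' * horth))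
    have hbc : b * c' = b' * c := sub_eq_zero.mp (pow_eq_zero_iff (two_ne_zero) |>.mp
      (show (b * c' - b' * c) ^ 2 = 0 by
        linear_combination (b * c' + b' * c - 2 * a * a') * horth - 4 * b' * c' * d1 + 4 * a ^ 2 * d2))
    by_cases hb : b = 0
    · have ha0 : a = 0 := pow_eq_zero_iff (two_ne_zero) |>.mp (by
        linear_combination d1 - c * hb)
      have hc0 : c ≠ 0 := fun hc0 => hN0 (Matrix.ext fun i j => by
        fin_cases i <;> fin_cases j
        exacts [ha0, hb, hc0, (a2.trans (by rw [ha0, neg_zero]; rfl))])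
      refine ⟨c' / c, Matrix.ext fun i j => ?_⟩
      have hb' : b' = 0 := (mul_eq_zero.mp (show b' * c = 0 by
        linear_combination -hbc + c' * hb)).resolve_right hc0
      have ha' : a' = 0 := (mul_eq_zero.mp (show a' * c = 0 by
        linear_combination -hac + c' * ha0)).resolve_right hc0
      fin_cases i <;> fin_cases j <;>
        simp [a2, a2', ha0, ha', hb, hb', a, b, c, a', b', c'] at * <;> field_simp
    · refine ⟨b' / b, Matrix.ext fun i j => ?_⟩
      fin_cases i <;> fin_cases j <;> simp [a2, a2'] <;>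
        rw [div_mul_eq_mul_div, eq_div_iff hb] <;> first
        | linear_combination -hab | linear_combination hbc
  refine ⟨l, ?_⟩
  rw [hN₂def] at hl
  have := congrArg (· * ρ g) hl
  simp only [mul_assoc, Matrix.smul_mul] at this
  rw [← map_mul, inv_mul_cancel, map_one, mul_one] at this
  exact this

end Fermat.Agent.Engine.TW
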