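import Fermat.Agent.GalCoh.Cochain
import Fermat.Agent.Engine.TW.Adjoint
import Mathlib.LinearAlgebra.Dimension.Constructions
import Mathlib.RingTheory.Finiteness.Basic

/-!
# Classes of a space of cocycles, and the adjoint representation over the prime field
-/

set_option autoImplicit false

noncomputable section

namespace Fermat.Agent.Engine.TW

open Fermat.Agent.GalCoh Module

section Classes

variable {k₀ : Type} [Field k₀] {G : Type} [Group G] {V : Type} [AddCommGroup V] [Module k₀ V]
  {L : Levels G} {σ : Representation k₀ G V}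

/-- The classes of the continuous cocycles in a space of cochains. -/
def classesOf (L : Levels G) (σ : Representation k₀ G V) (W : Submodule k₀ (G → V)) :
    Submodule k₀ (H1 L σ) :=
  (W.comap (Z1 L σ).subtype).map (H1mk L σ)

lemma mem_classesOf {W : Submodule k₀ (G → V)} {c : ↥(Z1 L σ)} (hc : (c : G → V) ∈ W) :
    H1mk L σ c ∈ classesOf L σ W :=
  ⟨c, hc, rfl⟩

lemma finrank_range_add_le {M N B : Type} [AddCommGroup M] [Module k₀ M] [AddCommGroup N]
    [Module k₀ N] [AddCommGroup B] [Module k₀ B] [FiniteDimensional k₀ M] (f : M →ₗ[k₀] N)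
    (i : B →ₗ[k₀] M) (hi : Function.Injective i) (hfi : ∀ b, f (i b) = 0) :
    FiniteDimensional k₀ (LinearMap.range f) ∧
      finrank k₀ (LinearMap.range f) + finrank k₀ B ≤ finrank k₀ M := by
  have h1 : LinearMap.range i ≤ LinearMap.ker f := by
    rintro _ ⟨b, rfl⟩
    exact LinearMap.mem_ker.mpr (hfi b)
  refine ⟨inferInstance, ?_⟩
  have h2 := Submodule.finrank_mono h1
  rw [LinearMap.finrank_range_of_inj hi] at h2
  have h3 := LinearMap.finrank_range_add_finrank_ker f
  omega

lemma finrank_B1_add [FiniteDimensional k₀ V] :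
    FiniteDimensional k₀ (B1 σ) ∧ finrank k₀ (B1 σ) + finrank k₀ (H0 σ) = finrank k₀ V := by
  have hker : LinearMap.ker (d0 σ) = H0 σ := by
    ext v
    simp only [LinearMap.mem_ker, funext_iff, d0_apply, Pi.zero_apply, sub_eq_zero,
      Representation.mem_invariants]
  refine ⟨Module.Finite.range _, ?_⟩
  rw [← hker]
  exact LinearMap.finrank_range_add_finrank_ker (d0 σ)

theorem finrank_classesOf_le [FiniteDimensional k₀ V] (hσ : IsCtsRep L σ)
    (W : Submodule k₀ (G → V)) [FiniteDimensional k₀ W] (hB : B1 σ ≤ W) :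
    FiniteDimensional k₀ (classesOf L σ W) ∧
      finrank k₀ (classesOf L σ W) + finrank k₀ V ≤ finrank k₀ W + finrank k₀ (H0 σ) := by
  obtain ⟨hBfin, hB1⟩ := finrank_B1_add (σ := σ)
  let W' : Submodule k₀ ↥(Z1 L σ) := W.comap (Z1 L σ).subtype
  let e : W' →ₗ[k₀] W := ((Z1 L σ).subtype ∘ₗ W'.subtype).codRestrict W fun x => x.2
  have he : Function.Injective e := fun x y h =>
    Subtype.ext (Subtype.ext (congrArg (fun z : W => (z : G → V)) h))
  have hfin : FiniteDimensional k₀ W' := Module.Finite.of_injective e he
  have hle := LinearMap.finrank_le_finrank_of_injective he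
  have hmem : ∀ b : B1 σ, (b : G → V) ∈ Z1 L σ := fun b => by
    obtain ⟨v, hv⟩ := b.2
    rw [← hv]
    exact d0_mem_Z1 hσ v
  let i : B1 σ →ₗ[k₀] W' :=
    { toFun := fun b => ⟨⟨b, hmem b⟩, hB b.2⟩
      map_add' := fun _ _ => rfl
      map_smul' := fun _ _ => rfl }
  obtain ⟨hrfin, hr⟩ := finrank_range_add_le (M := W') (B := B1 σ) ((H1mk L σ).comp W'.subtype) i
    (fun a b h => Subtype.ext (congrArg (fun x : W' => ((x.1 : G → V))) h))
    fun b => H1mk_eq_zero_iff.mpr b.2
  have hrange : LinearMap.range ((H1mk L σ).comp W'.subtype) = classesOf L σ W := by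
    rw [classesOf, LinearMap.range_comp, Submodule.range_subtype]
  rw [hrange] at hr hrfin
  exact ⟨hrfin, by omega⟩

end Classes

section AdP

open Fermat.Agent.DefRing Fermat.Agent.Deform

variable {k : Type} [Field k] {p : ℕ} [Fact p.Prime] [Algebra (ZMod p) k]

/-- The adjoint representation on trace zero matrices over the prime field. -/
def adP (p : ℕ) [Fact p.Prime] [Algebra (ZMod p) k] (ρ : MRep k) :
    Representation (ZMod p) GQ (traceZero k) where
  toFun g := (slRep ρ g).restrictScalars (ZMod p)
  map_one' := LinearMap.ext fun X => by simp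
  map_mul' g h := LinearMap.ext fun X => by simp [map_mul, Module.End.mul_apply]

variable {ρ : MRep k}

@[simp]
lemma adP_apply (g : GQ) (X : traceZero k) : adP p ρ g X = slRep ρ g X := rfl

lemma finrank_traceZero : finrank k (traceZero k) = 3 := by
  have h := LinearMap.finrank_range_add_finrank_ker (Matrix.traceLinearMap (Fin 2) k k)
  rw [LinearMap.range_eq_top.mpr fun x => ⟨!![x, 0; 0, 0], by simp [Matrix.trace_fin_two]⟩,
    finrank_top, Module.finrank_self, Module.finrank_matrix] at h
  show finrank k (LinearMap.ker (Matrix.traceLinearMap (Fin 2) k k)) = 3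
  simp at h
  omega

lemma finrank_traceZero_prime [FiniteDimensional (ZMod p) k] :
    finrank (ZMod p) (traceZero k) = finrank (ZMod p) k * 3 := by
  rw [← finrank_traceZero (k := k)]
  exact (Module.finrank_mul_finrank (ZMod p) k (traceZero k)).symm

variable (habs : IndexTwoIrreducible ρ) (h2 : (2 : k) ≠ 0)

include habs h2 in
/-- There are no invariants. -/
theorem invariants_adP_eq_bot : H0 (adP p ρ) = ⊥ := by
  rw [eq_bot_iff]
  intro X hX
  rw [Representation.mem_invariants] at hX
  by_contra hne
  refine no_stable_line habs h2 X.2 (fun h => hne (Subtype.ext h)) fun g => ⟨1, ?_⟩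
  have h := congrArg (fun Y : traceZero k => (Y : Matrix (Fin 2) (Fin 2) k) * ρ g) (hX g)
  simp only [adP_apply, coe_slRep, adRep_apply, mul_assoc] at h
  rw [← map_mul, inv_mul_cancel, map_one, mul_one] at h
  rw [one_smul]
  exact h

include habs h2 in
/-- No non-zero functional transforms by a character. -/
theorem eq_zero_of_semiinvariant [FiniteDimensional (ZMod p) k] (χ : GQ → ZMod p)
    (ψ : Module.Dual (ZMod p) (traceZero k))
    (hψ : ∀ g X, ψ (slRep ρ g X) = χ g * ψ X) : ψ = 0 := by
  let K₀ : Submodule k (traceZero k) :=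
    { carrier := {X | ∀ a : k, ψ (a • X) = 0}
      zero_mem' := fun a => by rw [smul_zero, map_zero]
      add_mem' := fun {X Y} hX hY a => by rw [smul_add, map_add, hX a, hY a, add_zero]
      smul_mem' := fun b X hX a => by rw [smul_smul]; exact hX _ }
  have hst : ∀ g, ∀ X ∈ K₀, slRep ρ g X ∈ K₀ := fun g X hX a => by
    rw [← map_smul, hψ, hX, mul_zero]
  rcases eq_bot_or_eq_top_of_stable habs h2 K₀ hst with h | h
  · exfalso
    -- a three dimensional space does not embed in the dual of the scalars
    let Φ : traceZero k →ₗ[ZMod p] Module.Dual (ZMod p) k :=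
      LinearMap.mk₂ (ZMod p) (fun X a => ψ (a • X))
        (fun X Y a => by rw [smul_add, map_add])
        (fun c X a => by rw [smul_comm a c X, map_smul])
        (fun X a b => by rw [add_smul, map_add])
        (fun c X a => by rw [smul_assoc, map_smul])
    have hΦ : Function.Injective Φ := by
      refine LinearMap.ker_eq_bot.mp (LinearMap.ker_eq_bot'.mpr fun X hX => ?_)
      have hX0 : X ∈ K₀ := fun a => LinearMap.congr_fun hX a
      rwa [h, Submodule.mem_bot] at hX0
    have := LinearMap.finrank_le_finrank_of_injective hΦ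
    rw [Subspace.dual_finrank_eq, finrank_traceZero_prime] at this
    have hpos : 0 < finrank (ZMod p) k := Module.finrank_pos
    omega
  · refine LinearMap.ext fun X => ?_
    have hX : X ∈ K₀ := h ▸ Submodule.mem_top
    simpa using hX 1

end AdP

end Fermat.Agent.Engine.TW
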