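import Fermat.Agent.Engine.TW.LocalBound
import Fermat.Agent.GalCoh.Selmer
import Fermat.Agent.Engine.Galois
import Fermat.Agent.GalCoh.Descent.LocalImage
import Fermat.Agent.GalCoh.Descent.LocalClass
import Fermat.Agent.Frobenius.Exists

/-!
# Local conditions from spaces of cocycles on decomposition groups
-/

set_option autoImplicit false

noncomputable section

set_option maxSynthPendingDepth 5

namespace Fermat.Agent.Engine.TW

open Fermat.Agent.DefRing Fermat.Agent.Deform Fermat.Agent.GalCoh Fermat.Agent.GalCoh.Descent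
  ExtCitation Module
open scoped Pointwise

local notation "Ω" => AlgebraicClosure ℚ
local notation "Γ" => (AlgebraicClosure ℚ ≃ₐ[ℚ] AlgebraicClosure ℚ)

variable {k : Type} [Field k] {p : ℕ} [Fact p.Prime] [Algebra (ZMod p) k] {ρ : MRep k}

/-- The kernel of a residual representation, as a subgroup. -/
def rhoKer (ρ : MRep k) : Subgroup Γ where
  carrier := {σ | ρ σ = 1}
  one_mem' := map_one ρ
  mul_mem' := fun {a b} (ha : ρ a = 1) (hb : ρ b = 1) => by
    show ρ (a * b) = 1
    rw [map_mul, ha, hb, one_mul]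
  inv_mem' := fun {a} (ha : ρ a = 1) => by
    have h := rho_inv_mul ρ a
    rwa [ha, mul_one] at h

omit [Fact p.Prime] [Algebra (ZMod p) k] in
lemma fullLevels_rhoKer (hρ : GaloisFactorsThroughFiniteLevel (ρ : GQ →* _)) :
    fullLevels.mem (rhoKer ρ) := by
  obtain ⟨L, hL, h⟩ := hρ
  exact ⟨L, hL, fun σ hσ => h σ ((IntermediateField.mem_fixingSubgroup_iff L σ).mp hσ)⟩

omit [Fact p.Prime] [Algebra (ZMod p) k] in
/-- A subgroup of finite level containing inertia outside `S` is a level of `G_{ℚ,S}`. -/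
lemma levelsS_mem_of_inertia {S : Finset Nat.Primes} {U : Subgroup Γ} (hU : fullLevels.mem U)
    (h : ∀ q : Nat.Primes, q ∉ S → ∀ A : ValuationSubring Ω, A.LiesOverPrime (q : ℕ) →
      A.inertiaSubgroupIn ℚ ≤ U) : (levelsS S).mem U :=
  ⟨IntermediateField.fixedField U, ⟨finiteDimensional_fixedField hU, fun q hq A hA => by
    rw [fixingSubgroup_fixedField_of_mem hU]; exact h q hq A hA⟩,
    (fixingSubgroup_fixedField_of_mem hU).le⟩

lemma adP_eq_one {σ : Γ} (h : ρ σ = 1) : adP p ρ σ = 1 := by
  have h2 : ρ σ⁻¹ = 1 := (rhoKer ρ).inv_mem h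
  exact LinearMap.ext fun X => Subtype.ext (by simp [h, h2])

lemma isCtsRep_adP {S : Finset Nat.Primes}
    (hρ : GaloisFactorsThroughFiniteLevel (ρ : GQ →* _))
    (hS : ∀ q : Nat.Primes, q ∉ S → ∀ A : ValuationSubring Ω, A.LiesOverPrime (q : ℕ) →
      ∀ σ ∈ A.inertiaSubgroupIn ℚ, ρ σ = 1) :
    IsCtsRep (levelsS S) (adP p ρ) :=
  ⟨rhoKer ρ, levelsS_mem_of_inertia (fullLevels_rhoKer hρ) hS, fun _ h => adP_eq_one h⟩

lemma isCtsRep_adP_local (hρ : GaloisFactorsThroughFiniteLevel (ρ : GQ →* _)) {G : Type} [Group G]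
    (r : G →* Γ) : IsCtsRep (localLevels r) ((adP p ρ).comp r) :=
  IsCtsRep.comp (L := fullLevels) (fullLevels.compat_comap r)
    ⟨rhoKer ρ, fullLevels_rhoKer hρ, fun _ h => adP_eq_one h⟩

/-- The global coboundaries restricted to a decomposition group. -/
abbrev coboundaryAt (ρ : MRep k) (A : ValuationSubring Ω) (X : traceZero k) :
    A.decompositionSubgroup ℚ → traceZero k :=
  fun g => slRep ρ (g : Γ) X - X

variable (q : Nat.Primes) (g : Γ) (A : ValuationSubring Ω) (hg : g • primeLocalPlace q = A)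

/-- The conjugated local map with values in the decomposition group. -/
def toDecomp (x : placeGroup (Sum.inr q)) : A.decompositionSubgroup ℚ :=
  ⟨conjLoc (Sum.inr q) g x, hg ▸ conjLoc_mem_decomposition q g x⟩

omit [Fact p.Prime] [Algebra (ZMod p) k] in
@[simp] lemma coe_toDecomp (x : placeGroup (Sum.inr q)) :
    (toDecomp q g A hg x : Γ) = g * placeLoc (Sum.inr q) x * g⁻¹ := rfl

/-- Transport of cochains from a decomposition group to the local group. -/
def transport (ρ : MRep k) :
    (A.decompositionSubgroup ℚ → traceZero k) →ₗ[k] (placeGroup (Sum.inr q) → traceZero k) where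
  toFun d x := slRep ρ g⁻¹ (d (toDecomp q g A hg x))
  map_add' d d' := by ext1 x; simp only [Pi.add_apply, map_add]
  map_smul' t d := by ext1 x; simp only [Pi.smul_apply, map_smul, RingHom.id_apply]

omit [Fact p.Prime] [Algebra (ZMod p) k] in
lemma transport_apply (d : A.decompositionSubgroup ℚ → traceZero k)
    (x : placeGroup (Sum.inr q)) :
    transport q g A hg ρ d x = slRep ρ g⁻¹ (d (toDecomp q g A hg x)) := rfl

omit [Fact p.Prime] [Algebra (ZMod p) k] in
lemma slRep_inv_apply_apply (h : Γ) (X : traceZero k) : slRep ρ h⁻¹ (slRep ρ h X) = X := by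
  rw [← Module.End.mul_apply, ← map_mul, inv_mul_cancel, map_one, Module.End.one_apply]

omit [Fact p.Prime] [Algebra (ZMod p) k] in
lemma slRep_apply_inv_apply (h : Γ) (X : traceZero k) : slRep ρ h (slRep ρ h⁻¹ X) = X := by
  rw [← Module.End.mul_apply, ← map_mul, mul_inv_cancel, map_one, Module.End.one_apply]

lemma transport_coboundary (v : traceZero k) :
    transport q g A hg ρ (coboundaryAt ρ A (slRep ρ g v)) =
      d0 ((adP p ρ).comp (placeLoc (Sum.inr q))) v := by
  ext1 x
  rw [transport_apply, d0_apply, MonoidHom.comp_apply, adP_apply]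
  simp only [coboundaryAt, coe_toDecomp, map_sub, slRep_inv_apply_apply]
  rw [map_mul, map_mul, Module.End.mul_apply, Module.End.mul_apply, slRep_inv_apply_apply,
    slRep_inv_apply_apply]

omit [Fact p.Prime] [Algebra (ZMod p) k] in
/-- A global cocycle restricted along the local map. -/
lemma comp_placeLoc_eq {c : Γ → traceZero k} (hc : ∀ a b, c (a * b) = c a + slRep ρ a (c b))
    (x : placeGroup (Sum.inr q)) :
    c (placeLoc (Sum.inr q) x) =
      transport q g A hg ρ (fun σ => c σ + (slRep ρ (σ : Γ) (c g) - c g)) x := by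
  set y := placeLoc (Sum.inr q) x with hy
  have h : c (g * y * g⁻¹ * g) = c (g * y) := by rw [inv_mul_cancel_right]
  rw [hc, hc g y] at h
  rw [transport_apply, coe_toDecomp, ← hy, ← add_sub_assoc, h, add_sub_cancel_left,
    slRep_inv_apply_apply]

/-- The local condition of a space of cocycles on a decomposition group. -/
def condOf (Zc : Submodule k (A.decompositionSubgroup ℚ → traceZero k)) :
    Submodule (ZMod p) (H1 (localLevels (placeLoc (Sum.inr q)))
      ((adP p ρ).comp (placeLoc (Sum.inr q)))) :=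
  classesOf _ _ ((Zc.map (transport q g A hg ρ)).restrictScalars (ZMod p))

/-- The inclusion of the coboundaries. -/
def HasCoboundaries (ρ : MRep k) (A : ValuationSubring Ω)
    (Zc : Submodule k (A.decompositionSubgroup ℚ → traceZero k)) : Prop :=
  ∀ X : traceZero k, coboundaryAt ρ A X ∈ Zc

variable [FiniteDimensional (ZMod p) k]

lemma finiteDimensional_traceZero : FiniteDimensional (ZMod p) (traceZero k) :=
  Module.Finite.trans k (traceZero k)

lemma finrank_restrictScalars {M : Type} [AddCommGroup M] [Module k M] [Module (ZMod p) M]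
    [IsScalarTower (ZMod p) k M] (W : Submodule k M) [FiniteDimensional k W] :
    FiniteDimensional (ZMod p) (W.restrictScalars (ZMod p)) ∧
      finrank (ZMod p) (W.restrictScalars (ZMod p)) = finrank (ZMod p) k * finrank k W := by
  have e : (W.restrictScalars (ZMod p)) ≃ₗ[ZMod p] W :=
    (W.restrictScalarsEquiv (ZMod p) k M).restrictScalars (ZMod p)
  have : Module.Finite (ZMod p) W := Module.Finite.trans k W
  exact ⟨Module.Finite.equiv e.symm, by rw [e.finrank_eq, Module.finrank_mul_finrank]⟩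

/-- The bound on a condition. -/
theorem finrank_condOf_le (hρ : GaloisFactorsThroughFiniteLevel (ρ : GQ →* _))
    {Zc : Submodule k (A.decompositionSubgroup ℚ → traceZero k)} (hB : HasCoboundaries ρ A Zc)
    {d : ℕ} (hfin : FiniteDimensional k Zc) (hd : finrank k Zc ≤ d) :
    FiniteDimensional (ZMod p) (condOf (p := p) (ρ := ρ) q g A hg Zc) ∧
      finrank (ZMod p) (condOf (p := p) (ρ := ρ) q g A hg Zc) + finrank (ZMod p) k * 3 ≤
        finrank (ZMod p) k * d +
          finrank (ZMod p) (H0 ((adP p ρ).comp (placeLoc (Sum.inr q)))) := by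
  obtain ⟨hWfin, hW⟩ := finrank_restrictScalars (p := p) (Zc.map (transport q g A hg ρ))
  have hle : finrank k (Zc.map (transport q g A hg ρ)) ≤ d :=
    (Submodule.finrank_map_le _ _).trans hd
  have hB1 : B1 ((adP p ρ).comp (placeLoc (Sum.inr q))) ≤
      (Zc.map (transport q g A hg ρ)).restrictScalars (ZMod p) := by
    rintro _ ⟨v, rfl⟩
    exact ⟨_, hB (slRep ρ g v), transport_coboundary q g A hg v⟩
  have := finiteDimensional_traceZero (k := k) (p := p)
  obtain ⟨hfin', h⟩ := finrank_classesOf_le (isCtsRep_adP_local hρ (placeLoc (Sum.inr q))) _ hB1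
  refine ⟨hfin', ?_⟩
  rw [finrank_traceZero_prime, hW] at h
  refine h.trans ?_
  gcongr

omit [FiniteDimensional (ZMod p) k] in
/-- A global cocycle lying in the space has its class in the condition. -/
theorem mk_mem_condOf {Zc : Submodule k (A.decompositionSubgroup ℚ → traceZero k)}
    (hB : HasCoboundaries ρ A Zc) {c : Γ → traceZero k}
    (hc : ∀ a b, c (a * b) = c a + slRep ρ a (c b))
    (hmem : (fun σ : A.decompositionSubgroup ℚ => c σ) ∈ Zc)
    (z : ↥(Z1 (localLevels (placeLoc (Sum.inr q))) ((adP p ρ).comp (placeLoc (Sum.inr q)))))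
    (hz : ∀ x, (z : placeGroup (Sum.inr q) → traceZero k) x = c (placeLoc (Sum.inr q) x)) :
    H1mk (localLevels (placeLoc (Sum.inr q))) ((adP p ρ).comp (placeLoc (Sum.inr q))) z ∈
      condOf (p := p) (ρ := ρ) q g A hg Zc :=
  mem_classesOf ⟨_, Zc.add_mem hmem (hB (c g)), funext fun x => by
    rw [hz, comp_placeLoc_eq q g A hg hc]; rfl⟩

omit [FiniteDimensional (ZMod p) k] in
lemma hasCoboundaries_adCocyclesAt (hρ : GaloisFactorsThroughFiniteLevel (ρ : GQ →* _)) :
    HasCoboundaries ρ A (adCocyclesAt A ρ) := fun X => by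
  obtain ⟨L, hL, h⟩ := hρ
  refine ⟨fun a b => ?_, L, hL, fun σ hσ => ?_⟩
  · simp only [coboundaryAt, Subgroup.coe_mul, map_mul, Module.End.mul_apply, map_sub]
    abel
  · simp only [coboundaryAt]
    rw [sub_eq_zero]
    have h1 := h _ hσ
    have h2 : ρ (σ : Γ)⁻¹ = 1 := (rhoKer ρ).inv_mem h1
    exact Subtype.ext (by simp [h1, h2])

omit [Fact p.Prime] [Algebra (ZMod p) k] [FiniteDimensional (ZMod p) k] in
lemma hasCoboundaries_unipotentSpace (hρ : GaloisFactorsThroughFiniteLevel (ρ : GQ →* _))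
    (huni : ∀ σ ∈ A.inertiaSubgroupIn ℚ, (ρ σ - 1) * (ρ σ - 1) = 0) :
    HasCoboundaries ρ A (unipotentSpace A ρ) := fun X => by
  refine ⟨hasCoboundaries_adCocyclesAt A hρ X, fun σ hσ => ?_⟩
  have hN := huni _ hσ
  have h : (coboundaryAt ρ A X σ : Matrix (Fin 2) (Fin 2) k) * ρ (σ : Γ) =
      (ρ (σ : Γ) - 1) * X - X * (ρ (σ : Γ) - 1) := by
    simp only [coboundaryAt, Submodule.coe_sub, coe_slRep, adRep_apply, Matrix.sub_mul]
    rw [mul_assoc _ (ρ (σ : Γ)⁻¹), rho_inv_mul, mul_one]
    noncomm_ring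
  have key : ∀ N Y : Matrix (Fin 2) (Fin 2) k,
      (N * Y - Y * N) * N + N * (N * Y - Y * N) = N * N * Y - Y * (N * N) := fun N Y => by
    noncomm_ring
  rw [h, key, hN, mul_zero, zero_mul, sub_zero]

omit [Fact p.Prime] [Algebra (ZMod p) k] [FiniteDimensional (ZMod p) k] in
/-- A global cocycle of finite level restricts to a local one. -/
lemma restrict_mem_adCocyclesAt {c : Γ → traceZero k}
    (hc : ∀ a b, c (a * b) = c a + slRep ρ a (c b))
    (hlev : ∃ L : IntermediateField ℚ Ω, FiniteDimensional ℚ L ∧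
      ∀ σ : Γ, (∀ a ∈ L, σ a = a) → c σ = 0) :
    (fun σ : A.decompositionSubgroup ℚ => c σ) ∈ adCocyclesAt A ρ := by
  obtain ⟨L, hL, h⟩ := hlev
  exact ⟨fun a b => hc a b, L, hL, fun σ => h σ⟩

/-- The condition at `p`, on trace zero matrices. -/
def pSpace (atP : CondAtP ρ p) :
    Submodule k (atP.place.decompositionSubgroup ℚ → traceZero k) :=
  atP.cond.comap ((traceZero k).subtype.compLeft _)

omit [FiniteDimensional (ZMod p) k] [Algebra (ZMod p) k] in
lemma pSpace_bound (atP : CondAtP ρ p) :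
    HasCoboundaries ρ atP.place (pSpace atP) ∧
      FiniteDimensional k (pSpace atP) ∧ finrank k (pSpace atP) ≤ 4 := by
  refine ⟨fun X => ?_, ?_⟩
  · show _ ∈ atP.cond
    convert atP.coboundary X X.2 using 1
    ext1 σ
    simp [coboundaryAt]
  · obtain ⟨hfin, hb⟩ := atP.bound
    let e : pSpace atP →ₗ[k] atP.cond :=
      (((traceZero k).subtype.compLeft _).comp (pSpace atP).subtype).codRestrict atP.cond fun x => x.2
    have he : Function.Injective e := fun x y h =>
      Subtype.ext (funext fun σ => Subtype.ext (congrFun (congrArg Subtype.val h) σ))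
    exact ⟨Module.Finite.of_injective e he,
      (LinearMap.finrank_le_finrank_of_injective he).trans hb⟩

/-- The trace zero centraliser. -/
def cent0 (ρ : MRep k) (φ : Γ) : Submodule k (traceZero k) := LinearMap.ker (slRep ρ φ - 1)

omit [Fact p.Prime] [Algebra (ZMod p) k] [FiniteDimensional (ZMod p) k] in
lemma mem_cent0 {φ : Γ} {X : traceZero k} : X ∈ cent0 ρ φ ↔ slRep ρ φ X = X := by
  rw [cent0, LinearMap.mem_ker, LinearMap.sub_apply, Module.End.one_apply, sub_eq_zero]

omit [FiniteDimensional (ZMod p) k] in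
/-- At an unramified place the centraliser of Frobenius is invariant. -/
lemma slRep_eq_of_mem_cent0 (hA : A.LiesOverPrime (q : ℕ))
    (hρ : GaloisFactorsThroughFiniteLevel (ρ : GQ →* _))
    (hI : ∀ σ ∈ A.inertiaSubgroupIn ℚ, ρ σ = 1) {φ : A.decompositionSubgroup ℚ}
    (hφ : A.IsFrobeniusAt (φ : Γ) (q : ℕ)) {X : traceZero k} (hX : X ∈ cent0 ρ (φ : Γ))
    (σ : A.decompositionSubgroup ℚ) : adP p ρ (σ : Γ) X = X := by
  have hmem := hasCoboundaries_adCocyclesAt A hρ X
  have h := cocycle_eq_zero_of_frobenius q.2 hA (cocycle_of_mem (p := p) hmem)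
    (isFiniteLevel_of_mem (p := p) hρ hmem) hφ (sub_eq_zero.mpr (mem_cent0.mp hX)) (fun τ hτ => by
      have h2 : ρ (τ : Γ)⁻¹ = 1 := (rhoKer ρ).inv_mem (hI _ hτ)
      exact sub_eq_zero.mpr (Subtype.ext (by simp [hI _ hτ, h2]))) σ
  exact sub_eq_zero.mp h

include hg in
/-- The lower bound on local invariants at an unramified place. -/
theorem le_finrank_invariants (hA : A.LiesOverPrime (q : ℕ))
    (hρ : GaloisFactorsThroughFiniteLevel (ρ : GQ →* _))
    (hI : ∀ σ ∈ A.inertiaSubgroupIn ℚ, ρ σ = 1) {φ : A.decompositionSubgroup ℚ}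
    (hφ : A.IsFrobeniusAt (φ : Γ) (q : ℕ)) :
    finrank (ZMod p) k * finrank k (cent0 ρ (φ : Γ)) ≤
      finrank (ZMod p) (H0 ((adP p ρ).comp (placeLoc (Sum.inr q)))) := by
  obtain ⟨hfin, hc⟩ := finrank_restrictScalars (p := p) (cent0 ρ (φ : Γ))
  rw [← hc]
  let e : (cent0 ρ (φ : Γ)).restrictScalars (ZMod p) →ₗ[ZMod p]
      H0 ((adP p ρ).comp (placeLoc (Sum.inr q))) :=
    (((slRep ρ g⁻¹).restrictScalars (ZMod p)).comp (Submodule.subtype _)).codRestrict _ fun X => by
      rw [Representation.mem_invariants]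
      intro x
      have h := slRep_eq_of_mem_cent0 (p := p) q A hA hρ hI hφ X.2 (toDecomp q g A hg x)
      rw [coe_toDecomp, adP_apply, map_mul, map_mul, Module.End.mul_apply, Module.End.mul_apply] at h
      have h' := congrArg (slRep ρ g⁻¹) h
      rw [slRep_inv_apply_apply] at h'
      exact h'
  have he : Function.Injective e := fun X Y h => Subtype.ext (by
    have h1 := congrArg (slRep ρ g) (congrArg Subtype.val h)
    simp only [e, LinearMap.codRestrict_apply, LinearMap.comp_apply, LinearMap.restrictScalars_apply,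
      Submodule.subtype_apply, slRep_apply_inv_apply] at h1
    exact h1)
  have := finiteDimensional_traceZero (k := k) (p := p)
  exact LinearMap.finrank_le_finrank_of_injective he

end Fermat.Agent.Engine.TW
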