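import Fermat.Agent.Engine.TW.Conditions
import Fermat.Agent.GalCoh.Descent.Mu

/-!
# Dual classes orthogonal to all local classes at a prime `≡ 1 mod p`

Pairing with the classes `g ↦ x(g) v`, `x` a Kummer character and `v` fixed by Frobenius, kills
inertia and the values at Frobenius on such `v`.
-/

set_option autoImplicit false

noncomputable section

set_option maxSynthPendingDepth 5

namespace Fermat.Agent.Engine.TW

open Fermat.Agent.DefRing Fermat.Agent.Deform Fermat.Agent.GalCoh Fermat.Agent.GalCoh.Descent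
  ExtCitation Module
open scoped Pointwise

local notation "Ω" => AlgebraicClosure ℚ
local notation "Γ" => (AlgebraicClosure ℚ ≃ₐ[ℚ] AlgebraicClosure ℚ)

local instance isAlgebraicQbar_dl : Algebra.IsAlgebraic ℚ (AlgebraicClosure ℚ) :=
  AlgebraicClosure.isAlgebraic ℚ

variable {p : ℕ} [Fact p.Prime] {A : ValuationSubring Ω} {q : ℕ}

/-- What inertia and a Frobenius fix, the decomposition group fixes. -/
lemma apply_eq_of_frobenius (hq : q.Prime) (hA : A.LiesOverPrime q) {φ : Γ}
    (hφ : A.IsFrobeniusAt φ q) {z : Ω} (hI : ∀ τ ∈ A.inertiaSubgroupIn ℚ, τ z = z)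
    (hz : φ z = z) {g : Γ} (hg : g ∈ A.decompositionSubgroup ℚ) : g z = z := by
  have := IntermediateField.adjoin.finiteDimensional (Algebra.IsIntegral.isIntegral (R := ℚ) z)
  obtain ⟨F, hzF, hF, hFg⟩ := LocalRingP.exists_galois_level (IntermediateField.adjoin ℚ {z})
  obtain ⟨n, τ, hτ, h⟩ := LocalRingP.exists_pow_mul_inertia_eqOn hq hA hφ hg F
  rw [h z (hzF (IntermediateField.mem_adjoin_simple_self ℚ z)), AlgEquiv.mul_apply, hI τ hτ]
  clear h
  induction n with
  | zero => rw [pow_zero, AlgEquiv.one_apply]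
  | succ n ih => rw [pow_succ, AlgEquiv.mul_apply, hz, ih]

/-- The decomposition group at a prime `≡ 1 mod m` fixes the `m`-th roots of unity. -/
lemma apply_root_of_unity_eq (hq : q.Prime) (hA : A.LiesOverPrime q) {φ : Γ}
    (hφ : A.IsFrobeniusAt φ q) {m : ℕ} (hm : ¬ q ∣ m) (hq1 : m ∣ q - 1) {μ : Ω} (hμ : μ ^ m = 1)
    {g : Γ} (hg : g ∈ A.decompositionSubgroup ℚ) : g μ = μ := by
  refine apply_eq_of_frobenius hq hA hφ (fun τ hτ => inertia_fixes_root hq hA hm hτ hμ) ?_ hg
  rw [Descent.frobenius_root_of_unity hq hA hm hφ hμ]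
  obtain ⟨j, hj⟩ := hq1
  rw [show q = m * j + 1 by have := hq.one_le; omega, pow_succ, pow_mul, hμ, one_pow, one_mul]

/-- The Kummer character of `y` on a decomposition group fixing `μ_p` and `y ^ p`. -/
def kummerHom (A : ValuationSubring Ω) (p : ℕ) [Fact p.Prime] (y : Ω)
    (g : A.decompositionSubgroup ℚ) : ZMod p :=
  muLog p ((g : Γ) y / y)

section Kummer

variable {y : Ω} (hy : y ≠ 0) (hfix : ∀ g : A.decompositionSubgroup ℚ, (g : Γ) (y ^ p) = y ^ p)
  (hμ : ∀ g : A.decompositionSubgroup ℚ, ∀ x : ZMod p, (g : Γ) (mu p x) = mu p x)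

include hy hfix in
lemma mu_kummerHom (g : A.decompositionSubgroup ℚ) :
    mu p (kummerHom A p y g) = (g : Γ) y / y := by
  refine mu_muLog ?_
  rw [div_pow, ← map_pow, hfix, div_self (pow_ne_zero _ hy)]

include hy hfix hμ in
lemma kummerHom_mul (g h : A.decompositionSubgroup ℚ) :
    kummerHom A p y (g * h) = kummerHom A p y g + kummerHom A p y h := by
  refine mu_injective (p := p) ?_
  rw [mu_add, mu_kummerHom hy hfix, mu_kummerHom hy hfix g]
  have h1 : (g : Γ) ((h : Γ) y) = mu p (kummerHom A p y h) * (g : Γ) y := by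
    conv_lhs => rw [show (h : Γ) y = mu p (kummerHom A p y h) * y by
      rw [mu_kummerHom hy hfix, div_mul_cancel₀ _ hy]]
    rw [map_mul, hμ]
  rw [Subgroup.coe_mul, AlgEquiv.mul_apply, h1, mu_kummerHom hy hfix]
  ring

include hy hfix in
lemma kummerHom_eq_zero_iff (g : A.decompositionSubgroup ℚ) :
    kummerHom A p y g = 0 ↔ (g : Γ) y = y := by
  refine ⟨fun h => ?_, fun h => mu_injective (p := p) ?_⟩
  · have h1 := mu_kummerHom hy hfix g
    rw [h, mu_zero] at h1
    exact (div_eq_one_iff_eq hy).mp h1.symm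
  · rw [mu_kummerHom hy hfix, h, div_self hy, mu_zero]

end Kummer

variable {M : Type} [AddCommGroup M] [Module (ZMod p) M]

/-- Powers under a cocycle of an element fixing its value. -/
lemma cocycle_pow_of_fixed {σ : Representation (ZMod p) (A.decompositionSubgroup ℚ) M}
    {c : A.decompositionSubgroup ℚ → M} (hc : ∀ g h, c (g * h) = c g + σ g (c h))
    {a : A.decompositionSubgroup ℚ} (ha : σ a (c a) = c a) (n : ℕ) :
    c (a ^ n) = (n : ZMod p) • c a := by
  induction n with
  | zero => simp [cocycle_one hc]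
  | succ n ih =>
    rw [pow_succ', hc, ih, map_smul, ha, Nat.cast_succ, add_smul, one_smul, add_comm]

/-- The Heisenberg representation of a character. -/
def heisenberg (x : A.decompositionSubgroup ℚ → ZMod p) (hx : ∀ g h, x (g * h) = x g + x h) :
    Representation (ZMod p) (A.decompositionSubgroup ℚ) (ZMod p × ZMod p) where
  toFun g :=
    { toFun := fun m => (m.1 + x g * m.2, m.2)
      map_add' := fun a b => Prod.ext (by simp only [Prod.fst_add, Prod.snd_add]; ring) rfl
      map_smul' := fun t a => Prod.ext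
        (by simp only [Prod.smul_fst, Prod.smul_snd, smul_eq_mul, RingHom.id_apply]; ring) rfl }
  map_one' := by
    have h1 : x 1 = 0 := by simpa using hx 1 1
    exact LinearMap.ext fun m => Prod.ext (by simp [h1]) rfl
  map_mul' g h := LinearMap.ext fun m => Prod.ext
    (by simp only [Module.End.mul_apply, LinearMap.coe_mk, AddHom.coe_mk, hx]; ring) rfl

lemma heisenberg_apply (x : A.decompositionSubgroup ℚ → ZMod p)
    (hx : ∀ g h, x (g * h) = x g + x h) (g : A.decompositionSubgroup ℚ) (m : ZMod p × ZMod p) :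
    heisenberg x hx g m = (m.1 + x g * m.2, m.2) := rfl

/-- The tame relation applied to a splitting of the product of two characters. -/
theorem heisenberg_relation (hq : q.Prime) (hpq : p ≠ q) (hA : A.LiesOverPrime q)
    (hq1 : (q : ZMod p) = 1) {x Y F : A.decompositionSubgroup ℚ → ZMod p}
    (hx : ∀ g h, x (g * h) = x g + x h) (hY : ∀ g h, Y (g * h) = Y g + Y h)
    (hF : ∀ g h, F (g * h) = F g + F h - x g * Y h)
    (hlev : ∃ L : IntermediateField ℚ Ω, FiniteDimensional ℚ L ∧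
      ∀ g : A.decompositionSubgroup ℚ, (∀ a ∈ L, (g : Γ) a = a) → x g = 0 ∧ Y g = 0 ∧ F g = 0)
    {φ τ : A.decompositionSubgroup ℚ} (hφ : A.IsFrobeniusAt (φ : Γ) q)
    (hτ : (τ : Γ) ∈ A.inertiaSubgroupIn ℚ) (h0 : x τ * Y τ = 0) :
    x φ * Y τ = x τ * Y φ := by
  let σ := heisenberg x hx
  let c : A.decompositionSubgroup ℚ → ZMod p × ZMod p := fun g => (-F g, Y g)
  have hc : ∀ g h, c (g * h) = c g + σ g (c h) := fun g h => by
    refine Prod.ext ?_ ?_
    · show -F (g * h) = -F g + (-F h + x g * Y h)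
      rw [hF]; ring
    · show Y (g * h) = Y g + Y h
      exact hY g h
  have hlev' : IsFiniteLevel σ c := by
    obtain ⟨L, hL, h⟩ := hlev
    refine ⟨L, hL, fun g hg => ?_⟩
    obtain ⟨h1, h2, h3⟩ := h g hg
    refine ⟨LinearMap.ext fun m => Prod.ext (by simp [σ, heisenberg_apply, h1]) rfl, ?_⟩
    simp [c, h2, h3]
  have hxpow : ∀ (g : A.decompositionSubgroup ℚ) (n : ℕ), x (g ^ n) = n * x g := fun g n => by
    induction n with
    | zero => simpa using hx 1 1
    | succ n ih => rw [pow_succ, hx, ih]; push_cast; ring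
  have hpow : ∀ g : A.decompositionSubgroup ℚ, (g : Γ) ∈ A.inertiaSubgroupIn ℚ → σ g ^ p = 1 :=
    fun g _ => by
      rw [← map_pow]
      refine LinearMap.ext fun m => Prod.ext ?_ rfl
      show m.1 + x (g ^ p) * m.2 = m.1
      rw [hxpow, ZMod.natCast_self, zero_mul, zero_mul, add_zero]
  have hfix : σ τ (c τ) = c τ := by
    refine Prod.ext ?_ rfl
    show -F τ + x τ * Y τ = -F τ
    rw [h0, add_zero]
  obtain ⟨h1, h2⟩ := cocycle_frobenius_relation hq hpq hA hc hlev' hpow hφ hτ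
  rw [cocycle_pow_of_fixed hc hfix, hq1, one_smul] at h1
  have h3 : c (φ * τ * φ⁻¹ * φ) = c τ + σ (τ ^ q) (c φ) := by rw [hc, h1, h2]
  rw [inv_mul_cancel_right, hc] at h3
  have h4 := congrArg Prod.fst h3
  simp only [Prod.fst_add, σ, c, heisenberg_apply, hxpow, hq1, one_mul] at h4
  linear_combination h4

variable {k : Type} [Field k] [Algebra (ZMod p) k] {ρ : MRep k}

/-- Values of a dual cochain at the fixed vector are additive. -/
lemma dual_value_add {y : Γ → Dual (ZMod p) (traceZero k)}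
    (hy : ∀ g h, y (g * h) = dualMu (adP p ρ) g (y h) + y g) {g h : Γ} (hχ : cycloChar p g = 1)
    {v : traceZero k} (hv : slRep ρ g v = v) : y (g * h) v = y g v + y h v := by
  rw [hy, LinearMap.add_apply, dualMu_apply, hχ, Units.val_one, one_mul, adP_apply]
  conv_lhs => rw [← hv, slRep_inv_apply_apply, hv]
  exact add_comm _ _

variable (u : Nat.Primes) (hup : p ≠ (u : ℕ)) (hu1 : p ∣ (u : ℕ) - 1)
  (hρ : GaloisFactorsThroughFiniteLevel (ρ : GQ →* _))
  (hI : ∀ σ ∈ (primeLocalPlace u).inertiaSubgroupIn ℚ, ρ σ = 1)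

include hu1 in
lemma natCast_eq_one : ((u : ℕ) : ZMod p) = 1 := by
  obtain ⟨j, hj⟩ := hu1
  have := u.2.one_le
  rw [show (u : ℕ) = p * j + 1 by omega]
  simp

include hup hu1 in
/-- The decomposition group fixes `μ_p`. -/
lemma apply_mu_of_mem {φ : Γ} (hφ : (primeLocalPlace u).IsFrobeniusAt φ (u : ℕ)) {g : Γ}
    (hg : g ∈ (primeLocalPlace u).decompositionSubgroup ℚ) (x : ZMod p) :
    g (mu p x) = mu p x :=
  apply_root_of_unity_eq u.2 (primeLocalPlace_liesOver u) hφ
    (fun h => hup ((Nat.prime_dvd_prime_iff_eq u.2 (Fact.out : p.Prime)).mp h).symm) hu1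
    (by rw [mu, ← pow_mul, mul_comm, pow_mul, (zetaP_spec p).pow_eq_one, one_pow]) hg

/-- The hypothesis: every local cocycle pairs to a coboundary with `y`. -/
def IsOrthogonalAt (ρ : MRep k) (y : Γ → Dual (ZMod p) (traceZero k)) : Prop :=
  ∀ d ∈ adCocyclesAt (primeLocalPlace u) ρ, ∃ F : placeGroup (Sum.inr u) → ZMod p,
    (localLevels (placeLoc (Sum.inr u))).IsCts₁ F ∧ ∀ a b,
      (cycloChar p (placeLoc (Sum.inr u) a) : ZMod p) * F b - F (a * b) + F a =
        dualMu (adP p ρ) (placeLoc (Sum.inr u) a) (y (placeLoc (Sum.inr u) b))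
          (d (toDecomp u 1 (primeLocalPlace u) (one_smul _ _) a))

variable {y : Γ → Dual (ZMod p) (traceZero k)}
  (hy : ∀ g h, y (g * h) = dualMu (adP p ρ) g (y h) + y g)
  (hylev : ∃ L : IntermediateField ℚ Ω, FiniteDimensional ℚ L ∧
    ∀ σ : Γ, (∀ a ∈ L, σ a = a) → y σ = 0)
  (horth : IsOrthogonalAt u ρ y)
  {φ : (primeLocalPlace u).decompositionSubgroup ℚ}
  (hφ : (primeLocalPlace u).IsFrobeniusAt (φ : Γ) (u : ℕ))

include hup hu1 hρ hI hy hylev horth hφ in
/-- The relation obtained from one Kummer class. -/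
theorem kummer_relation {z : Ω} (hz : z ≠ 0)
    (hfix : ∀ g : (primeLocalPlace u).decompositionSubgroup ℚ, (g : Γ) (z ^ p) = z ^ p)
    {v : traceZero k} (hv : v ∈ cent0 ρ (φ : Γ))
    {τ : (primeLocalPlace u).decompositionSubgroup ℚ}
    (hτ : (τ : Γ) ∈ (primeLocalPlace u).inertiaSubgroupIn ℚ)
    (h0 : kummerHom _ p z τ * y (τ : Γ) v = 0) :
    kummerHom _ p z φ * y (τ : Γ) v = kummerHom _ p z τ * y (φ : Γ) v := by
  have hA : (primeLocalPlace u).LiesOverPrime (u : ℕ) := primeLocalPlace_liesOver u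
  let x := kummerHom (primeLocalPlace u) p z
  have hμ : ∀ g : (primeLocalPlace u).decompositionSubgroup ℚ, ∀ e : ZMod p, (g : Γ) (mu p e) = mu p e :=
    fun g e => apply_mu_of_mem u hup hu1 hφ g.2 e
  have hx : ∀ g h, x (g * h) = x g + x h := kummerHom_mul hz hfix hμ
  have hχ : ∀ g : (primeLocalPlace u).decompositionSubgroup ℚ, cycloChar p (g : Γ) = 1 := fun g =>
    cycloChar_eq_one (by
      have := hμ g 1
      rwa [mu, ZMod.val_one, pow_one] at this)
  have hvD : ∀ g : (primeLocalPlace u).decompositionSubgroup ℚ, slRep ρ (g : Γ) v = v := fun g =>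
    slRep_eq_of_mem_cent0 (p := p) u (primeLocalPlace u) hA hρ hI hφ hv g
  obtain ⟨L, hL, hyL⟩ := hylev
  have := IntermediateField.adjoin.finiteDimensional (Algebra.IsIntegral.isIntegral (R := ℚ) z)
  have hd : (fun g => (x g).val • v) ∈ adCocyclesAt (primeLocalPlace u) ρ := by
    refine ⟨fun g h => ?_, IntermediateField.adjoin ℚ {z}, inferInstance, fun g hg => ?_⟩
    · show (x (g * h)).val • v = (x g).val • v + slRep ρ (g : Γ) ((x h).val • v)
      rw [map_nsmul, hvD, ← add_smul, ← Nat.cast_smul_eq_nsmul (ZMod p),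
        ← Nat.cast_smul_eq_nsmul (ZMod p), Nat.cast_add, hx]
      simp only [ZMod.natCast_zmod_val]
    · show (kummerHom _ p z g).val • v = 0
      rw [(kummerHom_eq_zero_iff hz hfix g).mpr (hg z (IntermediateField.mem_adjoin_simple_self ℚ z)),
        ZMod.val_zero, zero_smul]
  obtain ⟨F, hFcts, hF⟩ := horth _ hd
  -- descend the splitting to the decomposition group
  have hpre : ∀ g : (primeLocalPlace u).decompositionSubgroup ℚ, ∃ a : placeGroup (Sum.inr u),
      placeLoc (Sum.inr u) a = (g : Γ) := fun g => by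
    obtain ⟨a, ha⟩ := exists_conjLoc_eq u 1 (σ := (g : Γ)) (by rw [one_smul]; exact g.2)
    exact ⟨a, by rw [← ha]; simp [conjLoc]⟩
  choose pre hpre using hpre
  obtain ⟨L₁, hL₁, hFL⟩ := (isCts₁_localLevels_iff _ _).mp hFcts
  have hsame : ∀ a b, placeLoc (Sum.inr u) a = placeLoc (Sum.inr u) b → F a = F b := fun a b h => by
    rw [← mul_inv_cancel_left a b]
    refine (hFL a (a⁻¹ * b) ?_).symm
    rw [map_mul, map_inv, h, inv_mul_cancel]
    exact one_mem _
  let F₀ : (primeLocalPlace u).decompositionSubgroup ℚ → ZMod p := fun g => F (pre g)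
  let Y : (primeLocalPlace u).decompositionSubgroup ℚ → ZMod p := fun g => y (g : Γ) v
  have hY : ∀ g h, Y (g * h) = Y g + Y h := fun g h => dual_value_add hy (hχ g) (hvD g)
  have hF₀ : ∀ g h, F₀ (g * h) = F₀ g + F₀ h - x g * Y h := fun g h => by
    have h1 := hF (pre g) (pre h)
    have e1 : toDecomp u 1 (primeLocalPlace u) (one_smul _ _) (pre g) = g := Subtype.ext (by simp [hpre])
    rw [hpre, hpre, e1, hχ, Units.val_one, one_mul, dualMu_apply, hχ, Units.val_one, one_mul,
      hsame (pre g * pre h) (pre (g * h)) (by rw [map_mul, hpre, hpre, hpre, Subgroup.coe_mul]),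
      adP_apply] at h1
    simp only [map_nsmul] at h1
    have e2 : slRep ρ (g : Γ)⁻¹ v = v := by
      conv_lhs => rw [← hvD g, slRep_inv_apply_apply]
    rw [e2, nsmul_eq_mul, ZMod.natCast_zmod_val] at h1
    show F (pre (g * h)) = F (pre g) + F (pre h) - x g * Y h
    linear_combination -h1
  have hlev : ∃ L' : IntermediateField ℚ Ω, FiniteDimensional ℚ L' ∧
      ∀ g : (primeLocalPlace u).decompositionSubgroup ℚ, (∀ a ∈ L', (g : Γ) a = a) →
        x g = 0 ∧ Y g = 0 ∧ F₀ g = 0 := by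
    refine ⟨L ⊔ IntermediateField.adjoin ℚ {z} ⊔ L₁, inferInstance, fun g hg => ⟨?_, ?_, ?_⟩⟩
    · exact (kummerHom_eq_zero_iff hz hfix g).mpr
        (hg z ((le_sup_right.trans le_sup_left : _ ≤ L ⊔ IntermediateField.adjoin ℚ {z} ⊔ L₁)
          (IntermediateField.mem_adjoin_simple_self ℚ z)))
    · show y (g : Γ) v = 0
      rw [hyL _ fun a ha => hg a ((le_sup_left.trans le_sup_left : L ≤ _) ha), LinearMap.zero_apply]
    · have h1 : F₀ g = F (pre 1) := by
        show F (pre g) = F (pre 1)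
        rw [hsame (pre g) (pre 1 * pre g) (by simp [map_mul, hpre])]
        refine hFL _ _ ((IntermediateField.mem_fixingSubgroup_iff _ _).mpr fun a ha => ?_)
        rw [hpre]
        exact hg a (le_sup_right (a := L ⊔ IntermediateField.adjoin ℚ {z}) ha)
      have h2 := hF₀ 1 1
      rw [mul_one, show x 1 = 0 by simpa using hx 1 1, zero_mul, sub_zero, left_eq_add] at h2
      exact h1.trans h2
  exact heisenberg_relation u.2 hup hA (natCast_eq_one u hu1) hx hY hF₀ hlev hφ hτ h0

include hup hu1 hρ hI hy hylev horth hφ in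
/-- **Orthogonality on the fixed vectors of Frobenius.** -/
theorem value_eq_zero_of_fixed {v : traceZero k} (hv : v ∈ cent0 ρ (φ : Γ)) :
    (∀ τ : (primeLocalPlace u).decompositionSubgroup ℚ,
      (τ : Γ) ∈ (primeLocalPlace u).inertiaSubgroupIn ℚ → y (τ : Γ) v = 0) ∧ y (φ : Γ) v = 0 := by
  have hp : p.Prime := Fact.out
  have hA : (primeLocalPlace u).LiesOverPrime (u : ℕ) := primeLocalPlace_liesOver u
  have hnd : ∀ j : ℕ, ¬ (u : ℕ) ∣ p ^ j := fun j h =>
    hup ((Nat.prime_dvd_prime_iff_eq u.2 hp).mp (u.2.dvd_of_dvd_pow h)).symm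
  -- the unramified character
  obtain ⟨m, hm, hm'⟩ : ∃ m : ℕ, p ^ m ∣ (u : ℕ) - 1 ∧ ¬ p ^ (m + 1) ∣ (u : ℕ) - 1 := by
    have hpos : (u : ℕ) - 1 ≠ 0 := by have := u.2.two_le; omega
    obtain ⟨m, n', hn', he⟩ := Nat.exists_eq_pow_mul_and_not_dvd hpos p hp.ne_one
    refine ⟨m, ⟨n', he⟩, fun h => hn' ?_⟩
    rw [he, pow_succ, Nat.mul_dvd_mul_iff_left (pow_pos hp.pos m)] at h
    exact h
  have : NeZero (p ^ (m + 1)) := ⟨pow_ne_zero _ hp.ne_zero⟩
  have : NeZero ((p ^ (m + 1) : ℕ) : Ω) := ⟨Nat.cast_ne_zero.mpr (pow_ne_zero _ hp.ne_zero)⟩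
  obtain ⟨z, hz⟩ := HasEnoughRootsOfUnity.exists_primitiveRoot Ω (p ^ (m + 1))
  have hz0 : z ≠ 0 := hz.ne_zero (pow_ne_zero _ hp.ne_zero)
  have hfix : ∀ g : (primeLocalPlace u).decompositionSubgroup ℚ, (g : Γ) (z ^ p) = z ^ p := fun g =>
    apply_root_of_unity_eq u.2 hA hφ (hnd m) hm
      (by rw [← pow_mul, ← pow_succ']; exact hz.pow_eq_one) g.2
  have hzI : ∀ τ : (primeLocalPlace u).decompositionSubgroup ℚ, (τ : Γ) ∈ (primeLocalPlace u).inertiaSubgroupIn ℚ →
      kummerHom (primeLocalPlace u) p z τ = 0 := fun τ hτ =>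
    (kummerHom_eq_zero_iff hz0 hfix τ).mpr (inertia_fixes_root u.2 hA (hnd _) hτ hz.pow_eq_one)
  have hzφ : kummerHom (primeLocalPlace u) p z φ ≠ 0 := fun h => hm' (by
    have h1 := (kummerHom_eq_zero_iff hz0 hfix φ).mp h
    rw [Descent.frobenius_root_of_unity u.2 hA (hnd _) hφ hz.pow_eq_one] at h1
    refine hz.dvd_of_pow_eq_one _ (mul_right_cancel₀ hz0 ?_)
    rw [one_mul, ← pow_succ, show (u : ℕ) - 1 + 1 = u by have := u.2.two_le; omega, h1])
  have hinert : ∀ τ : (primeLocalPlace u).decompositionSubgroup ℚ, (τ : Γ) ∈ (primeLocalPlace u).inertiaSubgroupIn ℚ →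
      y (τ : Γ) v = 0 := fun τ hτ => by
    have h := kummer_relation u hup hu1 hρ hI hy hylev horth hφ hz0 hfix hv hτ
      (by rw [hzI τ hτ, zero_mul])
    rw [hzI τ hτ, zero_mul] at h
    exact (mul_eq_zero.mp h).resolve_left hzφ
  refine ⟨hinert, ?_⟩
  -- the ramified character
  obtain ⟨x, hx⟩ := IsAlgClosed.exists_pow_nat_eq ((u : ℕ) : Ω) hp.pos
  have hx0 : x ≠ 0 := fun h => by
    rw [h, zero_pow hp.ne_zero] at hx
    exact u.2.ne_zero (by exact_mod_cast hx.symm)
  have hfix' : ∀ g : (primeLocalPlace u).decompositionSubgroup ℚ, (g : Γ) (x ^ p) = x ^ p := fun g => by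
    rw [hx, map_natCast]
  obtain ⟨τ, hτ, hmove⟩ := exists_inertia_moves_root u.2 hA hp.one_lt hx
  have h := kummer_relation u hup hu1 hρ hI hy hylev horth hφ hx0 hfix' hv hτ
    (by rw [hinert τ hτ, mul_zero])
  rw [hinert τ hτ, mul_zero] at h
  exact (mul_eq_zero.mp h.symm).resolve_left fun h0 =>
    hmove ((kummerHom_eq_zero_iff hx0 hfix' τ).mp h0)

include hup hu1 hρ hI hy hylev horth hφ in
/-- **Orthogonality forces a class to be unramified.** -/
theorem unramified_of_orthogonal [FiniteDimensional (ZMod p) k] (h2 : (2 : k) ≠ 0)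
    (hreg : (ρ (φ : Γ)).trace ^ 2 ≠ 4 * (ρ (φ : Γ)).det)
    (hIall : ∀ B : ValuationSubring Ω, B.LiesOverPrime (u : ℕ) →
      ∀ σ ∈ B.inertiaSubgroupIn ℚ, ρ σ = 1)
    {B : ValuationSubring Ω} (hB : B.LiesOverPrime (u : ℕ)) {σ : Γ}
    (hσ : σ ∈ B.inertiaSubgroupIn ℚ) : y σ = 0 := by
  have hA : (primeLocalPlace u).LiesOverPrime (u : ℕ) := primeLocalPlace_liesOver u
  have hdual : ∀ B : ValuationSubring Ω, B.LiesOverPrime (u : ℕ) →
      ∀ σ ∈ B.inertiaSubgroupIn ℚ, dualMu (adP p ρ) σ = 1 := fun B hB σ hσ => by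
    have hχ : cycloChar p σ = 1 := cycloChar_eq_one (inertia_fixes_root u.2 hB
      (fun h => hup ((Nat.prime_dvd_prime_iff_eq u.2 (Fact.out : p.Prime)).mp h).symm) hσ
      (zetaP_spec p).pow_eq_one)
    have h1 : ρ σ⁻¹ = 1 := (rhoKer ρ).inv_mem (hIall B hB σ hσ)
    refine LinearMap.ext fun f => LinearMap.ext fun w => ?_
    rw [dualMu_apply, hχ, adP_eq_one h1]
    simp
  have hAI : ∀ τ : (primeLocalPlace u).decompositionSubgroup ℚ, (τ : Γ) ∈ (primeLocalPlace u).inertiaSubgroupIn ℚ →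
      y (τ : Γ) = 0 := fun τ hτ => by
    let σ' : Representation (ZMod p) ((primeLocalPlace u).decompositionSubgroup ℚ) (Dual (ZMod p) (traceZero k)) :=
      (dualMu (adP p ρ)).comp ((primeLocalPlace u).decompositionSubgroup ℚ).subtype
    have hc : ∀ g h : (primeLocalPlace u).decompositionSubgroup ℚ,
        y ((g * h : (primeLocalPlace u).decompositionSubgroup ℚ) : Γ) = y g + σ' g (y h) := fun g h =>
      (hy g h).trans (add_comm _ _)
    have hlev : IsFiniteLevel σ' fun g => y g := by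
      obtain ⟨L, hL, hρL⟩ := hρ
      obtain ⟨L', hL', hyL⟩ := hylev
      have := IntermediateField.adjoin.finiteDimensional
        (Algebra.IsIntegral.isIntegral (R := ℚ) (zetaP p))
      refine ⟨L ⊔ L' ⊔ IntermediateField.adjoin ℚ {zetaP p}, inferInstance, fun g hg => ⟨?_, ?_⟩⟩
      · have h1 : ρ (g : Γ)⁻¹ = 1 := (rhoKer ρ).inv_mem
          (hρL _ fun a ha => hg a ((le_sup_left.trans le_sup_left : L ≤ _) ha))
        have h2 : cycloChar p (g : Γ) = 1 := cycloChar_eq_one
          (hg _ (le_sup_right (a := L ⊔ L') (IntermediateField.mem_adjoin_simple_self ℚ _)))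
        refine LinearMap.ext fun f => LinearMap.ext fun w => ?_
        show dualMu (adP p ρ) (g : Γ) f w = f w
        rw [dualMu_apply, h2, adP_eq_one h1]
        simp
      · exact hyL _ fun a ha => hg a ((le_sup_right.trans le_sup_left : L' ≤ _) ha)
    have hI1 : ∀ g : (primeLocalPlace u).decompositionSubgroup ℚ, (g : Γ) ∈ (primeLocalPlace u).inertiaSubgroupIn ℚ → σ' g = 1 :=
      fun g hg => hdual (primeLocalPlace u) hA _ hg
    obtain ⟨h, hh⟩ := cocycle_frobenius_relation u.2 hup hA hc hlev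
      (fun g hg => by rw [hI1 g hg, one_pow]) hφ hτ
    have hpow := cocycle_pow_of_trivial
      (c := fun g : (primeLocalPlace u).decompositionSubgroup ℚ => y (g : Γ)) hc (hI1 τ hτ) (u : ℕ)
    rw [natCast_eq_one u hu1, one_smul] at hpow
    have h3 : y ((φ * τ * φ⁻¹ * φ : (primeLocalPlace u).decompositionSubgroup ℚ) : Γ) =
        y (τ : Γ) + σ' (τ ^ (u : ℕ)) (y φ) := by rw [hc]; exact congrArg₂ (· + ·) (h.trans hpow) (congrArg (fun e => e (y (φ : Γ))) hh)
    rw [inv_mul_cancel_right, hc, map_pow, hI1 τ hτ, one_pow, Module.End.one_apply,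
      add_comm (y (τ : Γ)), add_right_inj] at h3
    -- a fixed functional vanishing on fixed vectors vanishes
    let f : traceZero k →ₗ[ZMod p] traceZero k := (adP p ρ (φ : Γ)⁻¹) - 1
    have hker : LinearMap.ker f ≤ LinearMap.ker (y (τ : Γ)) := fun w hw => by
      rw [LinearMap.mem_ker, LinearMap.sub_apply, Module.End.one_apply, sub_eq_zero,
        adP_apply] at hw
      refine LinearMap.mem_ker.mpr
        ((value_eq_zero_of_fixed u hup hu1 hρ hI hy hylev horth hφ (mem_cent0.mpr ?_)).1 τ hτ)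
      conv_lhs => rw [← hw, slRep_apply_inv_apply]
    have hχφ : cycloChar p (φ : Γ) = 1 := cycloChar_eq_one (by
      have := apply_mu_of_mem u hup hu1 hφ φ.2 1
      rwa [mu, ZMod.val_one, pow_one] at this)
    have hrange : LinearMap.range f ≤ LinearMap.ker (y (τ : Γ)) := by
      rintro _ ⟨w, rfl⟩
      have h4 : dualMu (adP p ρ) (φ : Γ) (y (τ : Γ)) w = y (τ : Γ) w := LinearMap.congr_fun h3 w
      rw [dualMu_apply, hχφ, Units.val_one, one_mul] at h4
      rw [LinearMap.mem_ker, LinearMap.sub_apply, Module.End.one_apply, map_sub, h4, sub_self]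
    have hdisj : LinearMap.ker f ⊓ LinearMap.range f = ⊥ := by
      rw [eq_bot_iff]
      rintro X ⟨hX, Z, rfl⟩
      rw [SetLike.mem_coe, LinearMap.mem_ker, LinearMap.sub_apply, Module.End.one_apply,
        sub_eq_zero, adP_apply] at hX
      set X := f Z with hXdef
      have hcomm : ρ (φ : Γ) * (X : Matrix (Fin 2) (Fin 2) k) =
          (X : Matrix (Fin 2) (Fin 2) k) * ρ (φ : Γ) := by
        have h5 := congrArg (fun W : traceZero k => ρ (φ : Γ) * (W : Matrix (Fin 2) (Fin 2) k)) hX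
        simp only [coe_slRep, adRep_apply, inv_inv, ← mul_assoc, rho_mul_inv, one_mul] at h5
        exact h5.symm
      refine (Submodule.mem_bot _).mpr (Subtype.ext
        (eq_zero_of_commute_regular h2 hreg X.2 hcomm ?_))
      simp only [hXdef, f, LinearMap.sub_apply, Module.End.one_apply, adP_apply,
        Submodule.coe_sub, coe_slRep, adRep_apply, inv_inv, Matrix.mul_sub, Matrix.trace_sub,
        ← mul_assoc, rho_mul_inv, one_mul]
      rw [Matrix.trace_mul_comm, sub_self]
    have htop : LinearMap.ker f ⊔ LinearMap.range f = ⊤ := by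
      have := finiteDimensional_traceZero (k := k) (p := p)
      refine Submodule.eq_top_of_finrank_eq ?_
      have h6 := Submodule.finrank_sup_add_finrank_inf_eq (LinearMap.ker f) (LinearMap.range f)
      rw [hdisj, finrank_bot, add_zero] at h6
      rw [h6, add_comm]
      exact LinearMap.finrank_range_add_finrank_ker f
    refine LinearMap.ext fun w => ?_
    exact LinearMap.mem_ker.mp ((sup_le hker hrange) (htop ▸ Submodule.mem_top : w ∈ _))
  obtain ⟨g, rfl⟩ := Frobenius.exists_smul_eq_of_liesOverPrime_qbar u.2 hA hB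
  have hτ : g⁻¹ * σ * g ∈ (primeLocalPlace u).inertiaSubgroupIn ℚ := by
    have := conj_mem_inertiaSubgroupIn hσ g⁻¹
    rwa [inv_inv, inv_smul_smul] at this
  have h0 : y (g⁻¹ * σ * g) = 0 := hAI ⟨_, MultRed.inertia_mem_decomposition hτ⟩ hτ
  have h1 : y (g * (g⁻¹ * σ * g)) = y (σ * g) := by rw [mul_assoc g⁻¹, mul_inv_cancel_left]
  rw [hy, hy σ g, h0, map_zero, zero_add, hdual _ hB σ hσ, Module.End.one_apply, left_eq_add] at h1
  exact h1

end Fermat.Agent.Engine.TW
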