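import Fermat.Agent.Engine.TW.SelmerConds

/-!
# Killing the dual Selmer group by Taylor–Wiles primes
-/

set_option autoImplicit false

noncomputable section

set_option maxSynthPendingDepth 5

namespace Fermat.Agent.Engine.TW

open Fermat.Agent.DefRing Fermat.Agent.Deform Fermat.Agent.GalCoh Fermat.Agent.GalCoh.Descent
  ExtCitation Module
open scoped Pointwise

local notation "Ω" => AlgebraicClosure ℚ
local notation "Γ" => (AlgebraicClosure ℚ ≃ₐ[ℚ] AlgebraicClosure ℚ)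

variable {k : Type} [Field k] {p : ℕ} [Fact p.Prime] [Algebra (ZMod p) k] [CharP k p]
  [FiniteDimensional (ZMod p) k] {ρ : MRep k} {χ : GQ → k} {Smin T : Finset ℕ}

omit [Algebra (ZMod p) k] [FiniteDimensional (ZMod p) k] in
lemma inertia_le_rhoKer (H : TWHyp p ρ χ Smin T) {Q : Finset ℕ} (u : Nat.Primes)
    (hu : u ∉ placeSet p Smin T Q) {A : ValuationSubring Ω} (hA : A.LiesOverPrime (u : ℕ)) :
    A.inertiaSubgroupIn ℚ ≤ rhoKer ρ := by
  rw [mem_placeSet] at hu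
  simp only [sigmaSet, Finset.mem_union, Finset.mem_singleton, not_or] at hu
  exact fun σ hσ => H.unr _ u.2 hu.1.1.1 hu.2 A hA σ hσ

lemma isCtsRep_adP_placeSet (H : TWHyp p ρ χ Smin T) (Q : Finset ℕ) :
    IsCtsRep (levelsS (placeSet p Smin T Q)) (adP p ρ) :=
  isCtsRep_adP H.fin fun u hu _ hA _ hσ => inertia_le_rhoKer H u hu hA hσ

lemma isCtsRep_dual (H : TWHyp p ρ χ Smin T) (Q : Finset ℕ) :
    IsCtsRep (levelsS (placeSet p Smin T Q)) (dualMu (adP p ρ)) :=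
  isCtsRep_dualMu (isCtsRep_adP_placeSet H Q)
    ⟨rhoKer ρ, levelsS_mem_of_inertia (fullLevels_rhoKer H.fin)
      fun u hu _ hA => inertia_le_rhoKer H u hu hA,
      fun _ hσ => cycloChar_of_rhoKer H.cyc H.det hσ⟩

/-- The dual Selmer group at `Q`. -/
abbrev dualSel (H : TWHyp p ρ χ Smin T) (inv : InvFamily p) (atP : CondAtP ρ p) (Q : Finset ℕ) :
    Submodule (ZMod p) (H1 (levelsS (placeSet p Smin T Q)) (dualMu (adP p ρ))) :=
  Sel _ (dualMu (adP p ρ)) (dualLocal _ (adP p ρ) inv (isCtsRep_dual H Q)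
    (condFamily atP Smin T (placeSet p Smin T Q)))

variable (H : TWHyp p ρ χ Smin T) {inv : InvFamily p} (hinv : inv.IsReciprocal)
  {atP : CondAtP ρ p}

include hinv in
/-- A dual Selmer class is orthogonal at the auxiliary primes. -/
theorem isOrthogonalAt_of_mem {Q : Finset ℕ} {y : ↥(Z1 (levelsS (placeSet p Smin T Q))
    (dualMu (adP p ρ)))} (hy : H1mk (levelsS _) (dualMu (adP p ρ)) y ∈ dualSel H inv atP Q) (u : Nat.Primes)
    (hup : (u : ℕ) ≠ p) (hS : (u : ℕ) ∉ Smin) (hT : (u : ℕ) ∉ T)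
    (hu : u ∈ placeSet p Smin T Q) : IsOrthogonalAt u ρ y.1 := by
  intro d hd
  let ι := placeLoc (Sum.inr u)
  have hg : (1 : Γ) • primeLocalPlace u = (primeLocalPlace u) := one_smul _ _
  have hid : ∀ a : placeGroup (Sum.inr u), (toDecomp u 1 (primeLocalPlace u) hg a : Γ) = ι a := fun a => by
    simp [ι]
  have htr : ∀ a, transport u 1 (primeLocalPlace u) hg ρ d a = d (toDecomp u 1 (primeLocalPlace u) hg a) := fun a => by
    rw [transport_apply, inv_one, map_one, Module.End.one_apply]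
  have hz : transport u 1 (primeLocalPlace u) hg ρ d ∈ Z1 (localLevels ι) ((adP p ρ).comp ι) := by
    refine mem_Z1_iff.mpr ⟨fun a b => ?_, (isCts₁_localLevels_iff _ _).mpr ?_⟩
    · rw [htr, htr, htr, MonoidHom.comp_apply, adP_apply, ← hid,
        show toDecomp u 1 (primeLocalPlace u) hg (a * b) = toDecomp u 1 (primeLocalPlace u) hg a * toDecomp u 1 (primeLocalPlace u) hg b from
          Subtype.ext (by simp [map_mul]), hd.1, add_comm]
    · obtain ⟨L, hL, h⟩ := hd.2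
      refine ⟨L, hL, fun a s hs => ?_⟩
      rw [htr, htr, show toDecomp u 1 (primeLocalPlace u) hg (a * s) = toDecomp u 1 (primeLocalPlace u) hg a * toDecomp u 1 (primeLocalPlace u) hg s from
        Subtype.ext (by simp [map_mul]), hd.1, h (toDecomp u 1 (primeLocalPlace u) hg s) fun x hx => by
          rw [hid]; exact (IntermediateField.mem_fixingSubgroup_iff _ _).mp hs x hx,
        map_zero, add_zero]
  let u' : extArithIndex (placeSet p Smin T Q) := Sum.inr ⟨u, hu⟩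
  have hmem : H1mk (localLevels ι) ((adP p ρ).comp ι) ⟨_, hz⟩ ∈
      condAt atP Smin T (Sum.inr u) := by
    rw [condAt_aux hup hS hT]
    exact mem_classesOf ⟨d, hd, rfl⟩
  have h0 : localPairing (placeSet p Smin T Q) (adP p ρ) inv (isCtsRep_dual H Q) u'
      (H1mk (localLevels ι) ((adP p ρ).comp ι) ⟨_, hz⟩)
      (resAt (placeSet p Smin T Q) (dualMu (adP p ρ)) u' (H1mk (levelsS _) (dualMu (adP p ρ)) y)) = 0 :=
    (mem_dualLocal_iff _ _ inv _ _ u' _).mp ((mem_Sel_iff _ _ _ _).mp hy u') _ hmem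
  have h1 := hinv.1 (Sum.inr u) (h0.trans (map_zero _).symm)
  obtain ⟨F, hF, hFd⟩ := mem_B2_iff.mp (H2mk_eq_zero_iff.mp h1)
  refine ⟨F, hF, fun a b => ?_⟩
  have h2 := congrFun hFd (a, b)
  rw [d1_apply] at h2
  rw [← htr]
  exact h2

variable (hvan : H1Vanishing p ρ)

include hinv hvan in
/-- Finitely many primes killing the dual Selmer group, their number independent of the level. -/
theorem exists_killing_set
    [FiniteDimensional (ZMod p) (dualSel H inv atP ∅)] (n r : ℕ)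
    (hr : Nat.card (dualSel H inv atP ∅) ≤ r) :
    ∃ Q : Finset ℕ, Q.card = r ∧
      (∀ q ∈ Q, q.Prime ∧ q ∉ Smin ∪ T ∧ q ≠ p ∧ IsTWPrime p (n + 1) ρ q) ∧
      dualSel H inv atP Q = ⊥ := by
  classical
  have hp : p.Prime := Fact.out
  have h2 := two_ne_zero_of_hyp hp H
  have : Finite (dualSel H inv atP ∅) := Module.finite_of_finite (ZMod p)
  have := Fintype.ofFinite (dualSel H inv atP ∅)
  let Bad : Finset ℕ := Smin ∪ T ∪ {p}
  have hunr : ∀ q : ℕ, q.Prime → q ∉ Bad → ∀ A : ValuationSubring Ω, A.LiesOverPrime q →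
      ∀ σ ∈ A.inertiaSubgroupIn ℚ, ρ σ = 1 := fun q hq hb => by
    simp only [Bad, Finset.mem_union, Finset.mem_singleton, not_or] at hb
    exact H.unr q hq hb.1.1 hb.2
  -- a representative and a killing prime for each class
  have hrep : ∀ x : dualSel H inv atP ∅, ∃ (y : ↥(Z1 (levelsS (placeSet p Smin T ∅))
      (dualMu (adP p ρ)))) (q : ℕ), H1mk (levelsS _) (dualMu (adP p ρ)) y = x.1 ∧ q.Prime ∧ q ∉ Bad ∧
      IsTWPrime p (n + 1) ρ q ∧
      ((x.1 ≠ 0) → ∃ hq : q.Prime, IsKilling ⟨q, hq⟩ y.1 ρ) := fun x => by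
    obtain ⟨y, hy⟩ := H1mk_surjective x.1
    by_cases hx : x.1 = 0
    · obtain ⟨u, hu, hTW⟩ := exists_twPrime H.abs h2 H.cyc H.det H.fin Bad (by simp [Bad]) hunr n
      exact ⟨y, u, hy, u.2, hu, hTW, fun h => absurd hx h⟩
    · obtain ⟨hyc, hylev⟩ := mem_Z1_iff.mp y.2
      obtain ⟨U, ⟨F, hF, hFU⟩, hU⟩ := hylev
      have hlev : ∃ L : IntermediateField ℚ Ω, FiniteDimensional ℚ L ∧
          ∀ σ : Γ, (∀ a ∈ L, σ a = a) → y.1 σ = 0 := ⟨F, hF.1, fun σ hσ => by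
        rw [← one_mul σ, hU 1 σ (hFU ((IntermediateField.mem_fixingSubgroup_iff _ _).mpr hσ)),
          Z1.map_one y.2]⟩
      obtain ⟨u, hu, hTW, hkill⟩ := exists_killing_prime H.abs h2 H.cyc H.det hvan H.fin Bad
        (by simp [Bad]) hunr hyc hlev (fun hB => hx (by rw [← hy]; exact H1mk_eq_zero_iff.mpr hB)) n
      exact ⟨y, u, hy, u.2, hu, hTW, fun _ => ⟨u.2, hkill⟩⟩
  choose rep qOf hrepEq hqp hqBad hqTW hqKill using hrep
  let Q₀ : Finset ℕ := Finset.univ.image qOf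
  have hQ₀ : Q₀.card ≤ r := by
    refine Finset.card_image_le.trans ?_
    rwa [Finset.card_univ, ← Nat.card_eq_fintype_card]
  -- enlarge to the prescribed number
  obtain ⟨Q, hQ₀Q, hQcard, hQprop⟩ : ∃ Q : Finset ℕ, Q₀ ⊆ Q ∧ Q.card = r ∧
      ∀ q ∈ Q, q.Prime ∧ q ∉ Bad ∧ IsTWPrime p (n + 1) ρ q := by
    have hgrow : ∀ j, Q₀.card + j ≤ r → ∃ Q : Finset ℕ, Q₀ ⊆ Q ∧ Q.card = Q₀.card + j ∧
        ∀ q ∈ Q, q.Prime ∧ q ∉ Bad ∧ IsTWPrime p (n + 1) ρ q := by
      intro j hj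
      induction j with
      | zero =>
        refine ⟨Q₀, subset_rfl, rfl, fun q hq => ?_⟩
        obtain ⟨x, -, rfl⟩ := Finset.mem_image.mp hq
        exact ⟨hqp x, hqBad x, hqTW x⟩
      | succ j ih =>
        obtain ⟨Q, hsub, hcard, hprop⟩ := ih (by omega)
        obtain ⟨u, hu, hTW⟩ := exists_twPrime H.abs h2 H.cyc H.det H.fin (Bad ∪ Q)
          (Finset.mem_union_left _ (by simp [Bad]))
          (fun q hq hb => hunr q hq fun h => hb (Finset.mem_union_left _ h)) n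
        have huQ : (u : ℕ) ∉ Q := fun h => hu (Finset.mem_union_right _ h)
        refine ⟨insert (u : ℕ) Q, hsub.trans (Finset.subset_insert _ _), by
          rw [Finset.card_insert_of_notMem huQ, hcard]; ring, fun q hq => ?_⟩
        rcases Finset.mem_insert.mp hq with rfl | h
        · exact ⟨u.2, fun h => hu (Finset.mem_union_left _ h), hTW⟩
        · exact hprop q h
    obtain ⟨Q, h1, h2, h3⟩ := hgrow (r - Q₀.card) (by omega)
    exact ⟨Q, h1, by omega, h3⟩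
  have hQ' : ∀ q ∈ Q, q.Prime ∧ q ∉ Smin ∪ T ∧ q ≠ p ∧ IsTWPrime p (n + 1) ρ q := fun q hq => by
    obtain ⟨h1, h2', h3⟩ := hQprop q hq
    simp only [Bad, Finset.mem_union, Finset.mem_singleton, not_or] at h2'
    exact ⟨h1, by simp [h2'], h2'.2, h3⟩
  refine ⟨Q, hQcard, hQ', eq_bot_iff.mpr fun x hx => ?_⟩
  obtain ⟨y, rfl⟩ := H1mk_surjective x
  rw [Submodule.mem_bot]
  obtain ⟨hyc, U, hUmem, hU⟩ := mem_Z1_iff.mp y.2
  obtain ⟨F, hF, hFU⟩ := hUmem
  have hy0 : ∀ σ ∈ F.fixingSubgroup, y.1 σ = 0 := fun σ hσ => by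
    rw [← one_mul σ, hU 1 σ (hFU hσ), Z1.map_one y.2]
  have hylev : ∃ L : IntermediateField ℚ Ω, FiniteDimensional ℚ L ∧
      ∀ σ : Γ, (∀ a ∈ L, σ a = a) → y.1 σ = 0 :=
    ⟨F, hF.1, fun σ hσ => hy0 σ ((IntermediateField.mem_fixingSubgroup_iff _ _).mpr hσ)⟩
  have horth : ∀ u : Nat.Primes, (u : ℕ) ∈ Q → IsOrthogonalAt u ρ y.1 := fun u hu => by
    obtain ⟨-, h1, h2', -⟩ := hQ' _ hu
    simp at h1
    exact isOrthogonalAt_of_mem H hinv hx u h2' h1.1 h1.2
      (mem_placeSet.mpr (by simp [sigmaSet, hu]))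
  -- the class is unramified at `Q`
  let U' : Subgroup Γ :=
    { carrier := {σ | ρ σ = 1 ∧ y.1 σ = 0}
      one_mem' := ⟨map_one ρ, Z1.map_one y.2⟩
      mul_mem' := fun {a b} ha hb => ⟨(rhoKer ρ).mul_mem ha.1 hb.1, by
        rw [hyc, ha.2, hb.2, map_zero, zero_add]⟩
      inv_mem' := fun {a} ha => ⟨(rhoKer ρ).inv_mem ha.1, by
        have h := hyc a⁻¹ a
        rw [inv_mul_cancel, Z1.map_one y.2, ha.2, map_zero, zero_add] at h
        exact h.symm⟩ }
  have hU'full : fullLevels.mem U' := by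
    obtain ⟨L, hL, hρL⟩ := H.fin
    have := hF.1
    refine ⟨F ⊔ L, inferInstance, fun σ hσ => ?_⟩
    rw [IntermediateField.fixingSubgroup_sup, Subgroup.mem_inf] at hσ
    exact ⟨hρL σ ((IntermediateField.mem_fixingSubgroup_iff _ _).mp hσ.2), hy0 σ hσ.1⟩
  have hU' : (levelsS (placeSet p Smin T ∅)).mem U' := by
    refine levelsS_mem_of_inertia hU'full fun u hu A hA σ hσ => ?_
    refine ⟨inertia_le_rhoKer H u hu hA hσ, ?_⟩
    by_cases huQ : (u : ℕ) ∈ Q
    · obtain ⟨-, h1, hup, hdvd, hreg⟩ := hQ' _ huQ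
      simp at h1
      obtain ⟨φ, hφ⟩ := Frobenius.exists_isFrobeniusAt_qbar u.2 (primeLocalPlace_liesOver u)
      exact unramified_of_orthogonal u (fun h => hup h.symm)
        ((dvd_pow_self p (Nat.succ_ne_zero n)).trans hdvd) H.fin
        (H.unr _ u.2 h1.1 hup _ (primeLocalPlace_liesOver u)) hyc hylev (horth u huQ)
        (φ := ⟨φ, hφ.choose⟩) hφ h2 (hreg _ (primeLocalPlace_liesOver u) _ hφ)
        (H.unr _ u.2 h1.1 hup) hA hσ
    · refine hy0 σ (hF.2 u ?_ A hA hσ)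
      rw [mem_placeSet] at hu ⊢
      simp [sigmaSet] at hu ⊢
      tauto
  have hy' : y.1 ∈ Z1 (levelsS (placeSet p Smin T ∅)) (dualMu (adP p ρ)) :=
    mem_Z1_iff.mpr ⟨hyc, U', hU', fun g s hs => by
      rw [hyc, hs.2, map_zero, zero_add]⟩
  have hmem' : H1mk (levelsS (placeSet p Smin T ∅)) (dualMu (adP p ρ)) ⟨_, hy'⟩ ∈ dualSel H inv atP ∅ := by
    refine (mem_Sel_iff _ _ _ _).mpr fun u => ?_
    rcases u with v | ⟨u, hu⟩
    · exact (mem_Sel_iff _ _ _ _).mp hx (Sum.inl v)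
    · exact (mem_Sel_iff _ _ _ _).mp hx (Sum.inr ⟨u, placeSet_mono Q hu⟩)
  -- compare with the chosen representative
  set x' : dualSel H inv atP ∅ := ⟨_, hmem'⟩
  by_contra hne
  have hne' : x'.1 ≠ 0 := fun h => hne (H1mk_eq_zero_iff.mpr (H1mk_eq_zero_iff.mp h :))
  obtain ⟨hqprime, φ, hφ, v, hv, hval⟩ := hqKill x' hne'
  have hqQ : qOf x' ∈ Q := hQ₀Q (Finset.mem_image_of_mem _ (Finset.mem_univ _))
  obtain ⟨-, h1, hup, hdvd, -⟩ := hQ' _ hqQ
  simp at h1
  have hB : (rep x').1 - y.1 ∈ B1 (dualMu (adP p ρ)) :=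
    H1mk_eq_iff.mp ((hrepEq x').trans rfl : H1mk (levelsS (placeSet p Smin T ∅)) (dualMu (adP p ρ)) (rep x') = H1mk (levelsS (placeSet p Smin T ∅)) (dualMu (adP p ρ)) ⟨_, hy'⟩)
  obtain ⟨w, hw⟩ := mem_B1_iff.mp hB
  have hval0 : y.1 (φ : Γ) v = 0 :=
    (value_eq_zero_of_fixed ⟨qOf x', hqprime⟩ (fun h => hup h.symm)
      ((dvd_pow_self p (Nat.succ_ne_zero n)).trans hdvd) H.fin
      (H.unr _ hqprime h1.1 hup _ (primeLocalPlace_liesOver ⟨qOf x', hqprime⟩)) hyc hylev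
      (horth ⟨qOf x', hqprime⟩ hqQ) hφ hv).2
  refine hval ?_
  have h3 := LinearMap.congr_fun (hw (φ : Γ)) v
  rw [Pi.sub_apply, LinearMap.sub_apply, LinearMap.sub_apply, hval0, sub_zero, dualMu_apply] at h3
  have hχ1 : cycloChar p (φ : Γ) = 1 := cycloChar_eq_one (by
    have := apply_mu_of_mem (p := p) ⟨qOf x', hqprime⟩ (fun h => hup h.symm)
      ((dvd_pow_self p (Nat.succ_ne_zero n)).trans hdvd) hφ φ.2 1
    rwa [mu, ZMod.val_one, pow_one] at this)
  rw [h3, hχ1, Units.val_one, one_mul, adP_apply]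
  conv_lhs => arg 1; rw [← mem_cent0.mp hv, slRep_inv_apply_apply]
  exact sub_self _

end Fermat.Agent.Engine.TW
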