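import Mathlib.Topology.Compactification.OnePoint.ProjectiveLine
import Mathlib.GroupTheory.GroupAction.Quotient
import Mathlib.GroupTheory.Sylow
import Mathlib.FieldTheory.IsAlgClosed.Basic
import Mathlib.Algebra.CharP.Lemmas
import Mathlib.LinearAlgebra.Matrix.CharP

/-!
# Counting fixed points on the projective line

A finite subgroup `Γ ∋ -1` of `SL₂(K)` with a Sylow `p`-subgroup of order `q ≥ 5` fixing `∞` and
without global fixed point has a torus at `∞` of order at least `(q - 1) / 2`: this is the first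
step of Dickson's classification, by counting fixed points on the projective line.
-/

set_option autoImplicit false
set_option linter.style.haveILetI false

noncomputable section

namespace Fermat.Agent.Engine.TW.PointCount

open MulAction Polynomial

/-- The arithmetic of the class equation. -/
lemma torus_ge {q t h o c : ℕ} (hq : 5 ≤ q) (ht : t + 1 ≤ q) (hh : q + 1 ≤ h)
    (hmod : q ∣ h - 1) (hc : 2 ≤ c) (ho : o = 2 + h * (q - 2)) (hoc : o * c = h * q * t) :
    q - 1 ≤ 2 * t := by
  obtain ⟨q, rfl⟩ : ∃ j, q = j + 2 := ⟨q - 2, by omega⟩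
  obtain ⟨m, hm⟩ := hmod
  obtain rfl : h = (q + 2) * m + 1 := by omega
  rw [Nat.add_sub_cancel] at ho
  subst ho
  -- `2 c = h K`
  have h1 : q * c < (q + 2) * t := by
    by_contra hcon
    have : ((q + 2) * m + 1) * ((q + 2) * t) ≤ ((q + 2) * m + 1) * (q * c) :=
      Nat.mul_le_mul_left _ (not_lt.mp hcon)
    nlinarith
  obtain ⟨K, hK⟩ : ∃ K, (q + 2) * t = q * c + K := ⟨_, (Nat.add_sub_cancel' h1.le).symm⟩
  have h2 : 2 * c = ((q + 2) * m + 1) * K := by nlinarith
  have hm1 : 1 ≤ m := by
    rcases Nat.eq_zero_or_pos m with rfl | h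
    · simp at hh
    · exact h
  have hK1 : 1 ≤ K := by omega
  have hclt : c < q + 4 := by
    by_contra hcon
    nlinarith [Nat.mul_le_mul_left q (not_lt.mp hcon), Nat.mul_le_mul_left (q + 2) ht]
  have hmK : m * K ≤ 2 := by
    by_contra hcon
    nlinarith [Nat.mul_le_mul_left (q + 2) (not_le.mp hcon)]
  have hKle : K ≤ 2 := le_trans (Nat.le_mul_of_pos_left K (by omega)) hmK
  have hmle : m ≤ 2 := le_trans (Nat.le_mul_of_pos_right m (by omega)) hmK
  interval_cases m
  · have h3 : (q + 2) * (2 * t) = (q + 2) * (K * (q + 1)) := by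
      calc (q + 2) * (2 * t) = q * (2 * c) + 2 * K := by linarith
        _ = (q + 2) * (K * (q + 1)) := by rw [h2]; ring
    have h4 := Nat.eq_of_mul_eq_mul_left (by omega) h3
    have := Nat.mul_le_mul_right (q + 1) hK1
    omega
  · obtain rfl : K = 1 := by omega
    omega

/-- The orbit equation leaves a single orbit besides that of `∞`. -/
lemma orbits_arith {q t h N S n : ℕ} (hq : 5 ≤ q) (hh : q + 1 ≤ h) (hn : n = h * q * t)
    (hsum : (N + 1) * (2 * n) + 2 * (h * (q - 1)) + 4 = 2 * (h + S) + 2 * (2 * n))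
    (hsmall : 2 * S ≤ N * n) : N = 1 ∧ S = 2 + h * (q - 2) := by
  obtain ⟨q, rfl⟩ : ∃ j, q = j + 2 := ⟨q - 2, by omega⟩
  rw [show q + 2 - 1 = q + 1 by omega] at hsum
  rw [Nat.add_sub_cancel]
  have he : N * n + h * q + 2 = S + n := by nlinarith
  rcases N with _ | _ | N
  · exfalso
    rw [zero_mul] at hsmall he
    rcases Nat.eq_zero_or_pos t with rfl | ht
    · rw [mul_zero] at hn
      omega
    · nlinarith [Nat.mul_le_mul_left (h * (q + 2)) ht]
  · exact ⟨rfl, by omega⟩
  · exfalso
    nlinarith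

variable {K : Type} [Field K] [DecidableEq K]

local notation "GL₂" => GL (Fin 2) K
local notation "∞" => (OnePoint.infty : OnePoint K)

/-- A scalar matrix. -/
def IsScalarMat (g : GL₂) : Prop := g 0 1 = 0 ∧ g 1 0 = 0 ∧ g 0 0 = g 1 1

omit [DecidableEq K] in
lemma det_eq (g : GL₂) : (g : Matrix (Fin 2) (Fin 2) K).det = g 0 0 * g 1 1 - g 0 1 * g 1 0 :=
  Matrix.det_fin_two _

omit [DecidableEq K] in
lemma neg_apply' (g : GL₂) (i j : Fin 2) : (-g) i j = -(g i j) := by
  simp [Units.val_neg]

lemma smul_eq_of_scalar {g : GL₂} (h : IsScalarMat g) (x : OnePoint K) : g • x = x := by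
  obtain ⟨h01, h10, hd⟩ := h
  have h11 : g 1 1 ≠ 0 := fun h0 => g.det_ne_zero (by rw [Matrix.det_fin_two, hd, h0, h10]; ring)
  cases x with
  | infty => exact OnePoint.smul_infty_eq_self_iff.mpr h10
  | coe c => rw [OnePoint.smul_some_eq_ite, h10, h01, hd]; simp [h11]

omit [DecidableEq K] in
lemma isScalarMat_iff (g : GL₂) (hd : (g : Matrix (Fin 2) (Fin 2) K).det = 1) :
    IsScalarMat g ↔ g = 1 ∨ g = -1 := by
  constructor
  · rintro ⟨h01, h10, hh⟩
    rw [det_eq, h01, hh] at hd
    have : g 1 1 = 1 ∨ g 1 1 = -1 := sq_eq_one_iff.mp (by linear_combination hd)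
    rcases this with h | h <;> [left; right] <;> ext i j <;> fin_cases i <;> fin_cases j <;>
      simp [h01, h10, hh, h]
  · rintro (rfl | rfl) <;> simp [IsScalarMat]

lemma smul_some_eq_self_iff {g : GL₂} {c : K} :
    g • (c : OnePoint K) = c ↔ g 1 0 * c ^ 2 + (g 1 1 - g 0 0) * c - g 0 1 = 0 := by
  rw [OnePoint.smul_some_eq_ite]
  split_ifs with h
  · refine ⟨fun h' => absurd h' (OnePoint.infty_ne_coe c), fun h' => absurd ?_ g.det_ne_zero⟩
    rw [Matrix.det_fin_two]
    linear_combination g 0 0 * h - g 1 0 * (c * h - h')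
  · rw [OnePoint.coe_eq_coe, div_eq_iff h]
    constructor <;> intro h' <;> linear_combination -h'

/-- A non-scalar element has two fixed points, or one when its eigenvalues coincide. -/
theorem exists_fixed_finset [IsAlgClosed K] (h2 : (2 : K) ≠ 0) {g : GL₂}
    (hd : (g : Matrix (Fin 2) (Fin 2) K).det = 1) (hg : ¬ IsScalarMat g) :
    ∃ s : Finset (OnePoint K), (∀ x, x ∈ s ↔ g • x = x) ∧
      s.card = if (g 0 0 + g 1 1) ^ 2 = 4 then 1 else 2 := by
  classical
  rw [det_eq] at hd
  by_cases h10 : g 1 0 = 0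
  · rw [h10, mul_zero, sub_zero] at hd
    by_cases hh : g 0 0 = g 1 1
    · have h01 : g 0 1 ≠ 0 := fun h => hg ⟨h, h10, hh⟩
      refine ⟨{∞}, fun x => ?_, ?_⟩
      · rw [Finset.mem_singleton]
        refine ⟨fun h => h ▸ OnePoint.smul_infty_eq_self_iff.mpr h10, fun hx => ?_⟩
        cases x with
        | infty => rfl
        | coe c =>
          rw [smul_some_eq_self_iff, h10, hh] at hx
          exact absurd (by linear_combination -hx) h01
      · rw [Finset.card_singleton, if_pos (by rw [hh] at hd ⊢; linear_combination 4 * hd)]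
    · refine ⟨{∞, ((g 0 1 / (g 1 1 - g 0 0) : K) : OnePoint K)}, fun x => ?_, ?_⟩
      · have hne : g 1 1 - g 0 0 ≠ 0 := sub_ne_zero.mpr (Ne.symm hh)
        cases x with
        | infty => simp [OnePoint.smul_infty_eq_self_iff, h10]
        | coe c =>
          rw [smul_some_eq_self_iff, h10, zero_mul, zero_add, sub_eq_zero,
            Finset.mem_insert, Finset.mem_singleton, OnePoint.coe_eq_coe]
          constructor
          · rintro (h | rfl)
            · exact absurd h (OnePoint.coe_ne_infty c)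
            · rw [mul_div_cancel₀ _ hne]
          · exact fun h => Or.inr (by rw [eq_div_iff hne, mul_comm, h])
      · rw [Finset.card_pair (OnePoint.infty_ne_coe _), if_neg fun h => hh ?_]
        have : (g 0 0 - g 1 1) ^ 2 = 0 := by linear_combination h - 4 * hd
        exact sub_eq_zero.mp (pow_eq_zero_iff (n := 2) (by norm_num) |>.mp this)
  · obtain ⟨s, hs⟩ := IsAlgClosed.exists_pow_nat_eq ((g 0 0 + g 1 1) ^ 2 - 4) (n := 2) (by norm_num)
    have hne : 2 * g 1 0 ≠ 0 := mul_ne_zero h2 h10
    let r₁ : K := (g 0 0 - g 1 1 + s) / (2 * g 1 0)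
    let r₂ : K := (g 0 0 - g 1 1 - s) / (2 * g 1 0)
    refine ⟨{(r₁ : OnePoint K), (r₂ : OnePoint K)}, fun x => ?_, ?_⟩
    · cases x with
      | infty => simp [OnePoint.smul_infty_eq_self_iff, h10]
      | coe c =>
        rw [smul_some_eq_self_iff, Finset.mem_insert, Finset.mem_singleton, OnePoint.coe_eq_coe,
          OnePoint.coe_eq_coe]
        have key : (2 * g 1 0 * c - (g 0 0 - g 1 1 + s)) * (2 * g 1 0 * c - (g 0 0 - g 1 1 - s)) =
            4 * g 1 0 * (g 1 0 * c ^ 2 + (g 1 1 - g 0 0) * c - g 0 1) := by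
          linear_combination -hs - 4 * hd
        have h4 : (4 : K) * g 1 0 ≠ 0 := by
          rw [show (4 : K) = 2 * 2 by norm_num]
          exact mul_ne_zero (mul_ne_zero h2 h2) h10
        rw [show c = r₁ ↔ 2 * g 1 0 * c - (g 0 0 - g 1 1 + s) = 0 by
            rw [sub_eq_zero, eq_div_iff hne, mul_comm],
          show c = r₂ ↔ 2 * g 1 0 * c - (g 0 0 - g 1 1 - s) = 0 by
            rw [sub_eq_zero, eq_div_iff hne, mul_comm],
          ← mul_eq_zero, key, mul_eq_zero, or_iff_right h4]
    · by_cases h4 : (g 0 0 + g 1 1) ^ 2 = 4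
      · have hs0 : s = 0 := pow_eq_zero_iff (n := 2) (by norm_num) |>.mp (by rw [hs, h4, sub_self])
        simp [r₁, r₂, hs0, h4]
      · rw [if_neg h4, Finset.card_pair]
        rw [Ne, OnePoint.coe_eq_coe, div_left_inj' hne]
        intro he
        have hs0 : (2 : K) * s = 0 := by linear_combination he
        rw [(mul_eq_zero.mp hs0).resolve_left h2] at hs
        exact h4 (by linear_combination -hs)

variable (Γ : Subgroup (GL (Fin 2) K))

/-- The upper unitriangular elements of `Γ`. -/
def unip : Subgroup Γ where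
  carrier := {g | (g : GL₂) 0 0 = 1 ∧ (g : GL₂) 1 0 = 0 ∧ (g : GL₂) 1 1 = 1}
  one_mem' := by simp
  mul_mem' := by
    rintro a b ⟨a0, a1, a2⟩ ⟨b0, b1, b2⟩
    simp [Matrix.mul_apply, Fin.sum_univ_two, a0, a1, a2, b0, b1, b2]
  inv_mem' := by
    rintro a ⟨a0, a1, a2⟩
    have h : ((a : GL₂)⁻¹ : GL₂) * (a : GL₂) = 1 := inv_mul_cancel _
    show ((a : GL₂)⁻¹ : GL₂) 0 0 = 1 ∧ ((a : GL₂)⁻¹ : GL₂) 1 0 = 0 ∧ ((a : GL₂)⁻¹ : GL₂) 1 1 = 1
    generalize (a : GL₂)⁻¹ = b at h ⊢
    have e := fun i j => congrArg (fun M : GL₂ => M i j) h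
    have e00 := e 0 0; have e10 := e 1 0; have e11 := e 1 1
    simp [Matrix.mul_apply, Fin.sum_univ_two, a0, a1, a2] at e00 e10 e11
    rw [e10, zero_mul, zero_add] at e11
    exact ⟨e00, e10, e11⟩

variable {Γ}

omit [DecidableEq K] in
lemma mem_unip {g : Γ} :
    g ∈ unip Γ ↔ (g : GL₂) 0 0 = 1 ∧ (g : GL₂) 1 0 = 0 ∧ (g : GL₂) 1 1 = 1 := Iff.rfl

variable {p : ℕ} [Fact p.Prime] [CharP K p] [IsAlgClosed K] [Finite Γ]

/-- **The torus at a Sylow point is large.** -/
theorem sub_one_le_two_mul_torus (hp2 : p ≠ 2)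
    (hdet : ∀ g ∈ Γ, (g : Matrix (Fin 2) (Fin 2) K).det = 1) (hneg : (-1 : GL (Fin 2) K) ∈ Γ)
    (P : Sylow p Γ) (hP : (P : Subgroup Γ) = unip Γ) (hirr : ∃ g : Γ, (g : GL (Fin 2) K) 1 0 ≠ 0)
    (h5 : 5 ≤ Nat.card (unip Γ)) :
    Nat.card (unip Γ) ≤
      2 * {a : K | ∃ g ∈ Γ, g 1 0 = 0 ∧ a = g 0 0 ^ 2}.ncard + 1 := by
  classical
  haveI := Fintype.ofFinite Γ
  have hp : p.Prime := Fact.out
  have h2 : (2 : K) ≠ 0 := fun h => hp2 (((Nat.prime_dvd_prime_iff_eq hp Nat.prime_two).mp
    ((CharP.cast_eq_zero_iff K p 2).mp (by simpa using h))))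
  set q := Nat.card (unip Γ) with hqdef
  have hd : ∀ g : Γ, ((g : GL₂) : Matrix (Fin 2) (Fin 2) K).det = 1 := fun g => hdet g g.2
  let ε : Γ := ⟨-1, hneg⟩
  have hε : ∀ g : Γ, ((ε * g : Γ) : GL₂) = -(g : GL₂) := fun g => neg_one_mul (g : GL₂)
  have hεne : ε ≠ 1 := fun h => by
    have := congrArg (fun g : Γ => (g : GL₂) 0 0) h
    simp [ε] at this
    exact h2 (by linear_combination -this)
  have hεsq : ε * ε = 1 := Subtype.ext (by simp [ε])
  have hsc : ∀ g : Γ, IsScalarMat (g : GL₂) ↔ g = 1 ∨ g = ε := fun g => by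
    rw [isScalarMat_iff _ (hd g)]
    exact or_congr ⟨fun h => Subtype.ext h, fun h => by rw [h]; rfl⟩
      ⟨fun h => Subtype.ext h, fun h => by rw [h]⟩
  let R : Set K := {a : K | ∃ g ∈ Γ, g 1 0 = 0 ∧ a = g 0 0 ^ 2}
  -- the stabiliser of `∞`
  let B : Subgroup Γ := stabilizer Γ ∞
  have hB : ∀ g : Γ, g ∈ B ↔ (g : GL₂) 1 0 = 0 := fun g => by
    show (g : GL₂) • ∞ = ∞ ↔ _
    exact OnePoint.smul_infty_eq_self_iff
  have hUB : unip Γ ≤ B := fun g hg => (hB g).mpr hg.2.1
  have hBdiag : ∀ g : Γ, g ∈ B → (g : GL₂) 0 0 * (g : GL₂) 1 1 = 1 := fun g hg => by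
    have := hd g
    rw [det_eq, (hB g).mp hg, mul_zero, sub_zero] at this
    exact this
  let θ : B →* K :=
    { toFun := fun g => ((g : Γ) : GL₂) 0 0 ^ 2
      map_one' := by simp
      map_mul' := fun a b => by
        simp [Matrix.mul_apply, Fin.sum_univ_two, (hB b).mp b.2, mul_pow] }
  let θu : B →* Kˣ := θ.toHomUnits
  have hθrange : Nat.card θu.range = R.ncard := by
    rw [← Nat.card_coe_set_eq]
    refine Nat.card_congr (Equiv.ofBijective (fun a => ⟨((a.1 : Kˣ) : K), ?_⟩) ⟨fun a b h => ?_, ?_⟩)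
    · obtain ⟨_, g, rfl⟩ := a
      exact ⟨(g : Γ), (g : Γ).2, (hB g).mp g.2, rfl⟩
    · exact Subtype.ext (Units.ext (congrArg Subtype.val h))
    · rintro ⟨a, g, hg, h10, rfl⟩
      exact ⟨⟨θu ⟨⟨g, hg⟩, (hB _).mpr h10⟩, _, rfl⟩, rfl⟩
  have hker : Nat.card θu.ker = 2 * q := by
    have hmem : ∀ g : B, g ∈ θu.ker ↔ (g : Γ) ∈ unip Γ ∨ ε * (g : Γ) ∈ unip Γ := fun g => by
      rw [MonoidHom.mem_ker, Units.ext_iff]
      show ((g : Γ) : GL₂) 0 0 ^ 2 = 1 ↔ _
      have h10 := (hB g).mp g.2
      have had := hBdiag g g.2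
      rw [sq_eq_one_iff, mem_unip, mem_unip, hε]
      constructor
      · rintro (h | h) <;> [left; right] <;> rw [h] at had
        · exact ⟨h, h10, by linear_combination had⟩
        · exact ⟨by rw [neg_apply', h, neg_neg], by rw [neg_apply', h10, neg_zero],
            by rw [neg_apply']; linear_combination had⟩
      · rintro (⟨h, -, -⟩ | ⟨h, -, -⟩)
        · exact Or.inl h
        · rw [neg_apply'] at h
          exact Or.inr (by linear_combination -h)
    have hdisj : ∀ g : Γ, g ∈ unip Γ → ε * g ∉ unip Γ := fun g hg hg' => by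
      have h := hg'.1
      rw [hε, neg_apply', hg.1] at h
      exact h2 (by linear_combination -h)
    let e : Bool × unip Γ → θu.ker := fun x =>
      if x.1 then ⟨⟨(x.2 : Γ), hUB x.2.2⟩, (hmem _).mpr (Or.inl x.2.2)⟩
      else ⟨⟨ε * (x.2 : Γ), B.mul_mem ((hB ε).mpr (by simp [ε])) (hUB x.2.2)⟩,
        (hmem _).mpr (Or.inr (by rw [← mul_assoc, hεsq, one_mul]; exact x.2.2))⟩
    have he : Function.Bijective e := by
      refine ⟨?_, fun g => ?_⟩
      · rintro ⟨b, u⟩ ⟨b', u'⟩ h
        have h' := congrArg (fun z : θu.ker => ((z : B) : Γ)) h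
        cases b <;> cases b' <;> simp [e] at h'
        · simp [h']
        · exact absurd (by rw [h']; exact u'.2) (hdisj u u.2)
        · exact absurd (by rw [← h']; exact u.2) (hdisj u' u'.2)
        · simp [h']
      · rcases (hmem g).mp g.2 with h | h
        · exact ⟨(true, ⟨_, h⟩), by simp [e]⟩
        · exact ⟨(false, ⟨_, h⟩), by
            apply Subtype.ext; apply Subtype.ext
            simp [e, ← mul_assoc, hεsq]⟩
    rw [← Nat.card_congr (Equiv.ofBijective e he), Nat.card_prod]
    simp [hqdef]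
  have hBcard : Nat.card B = 2 * q * R.ncard := by
    rw [← hθrange, ← hker, ← Nat.card_congr (QuotientGroup.quotientKerEquivRange θu).toEquiv,
      mul_comm]
    exact (Subgroup.card_eq_card_quotient_mul_card_subgroup θu.ker)
  -- a non-trivial element of the Sylow subgroup fixes only `∞`
  have hfix1 : ∀ u : Γ, u ∈ unip Γ → u ≠ 1 → ∀ x : OnePoint K, u • x = x → x = ∞ := by
    intro u hu hu1 x hx
    obtain ⟨h0, h1, h11⟩ := hu
    cases x with
    | infty => rfl
    | coe c =>
      exfalso
      rw [Subgroup.smul_def, smul_some_eq_self_iff, h0, h1, h11] at hx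
      refine hu1 (Subtype.ext (Units.ext ?_))
      ext i j
      fin_cases i <;> fin_cases j <;> simp [h0, h1, h11]
      linear_combination -hx
  -- the orbit of `∞`
  let O : Set (OnePoint K) := orbit Γ ∞
  have hOfin : O.Finite := Set.finite_range _
  set h := O.ncard with hhdef
  have hn : Nat.card Γ = h * (2 * q * R.ncard) := by
    rw [← hBcard, hhdef, ← Nat.card_coe_set_eq,
      Nat.card_congr (orbitEquivQuotientStabilizer Γ ∞)]
    exact Subgroup.card_eq_card_quotient_mul_card_subgroup B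
  have hpq : IsPGroup p (unip Γ) := hP ▸ P.isPGroup'
  obtain ⟨e, hqe⟩ := hpq.exists_card_eq
  rw [← hqdef] at hqe
  have hmod : q ∣ h - 1 := by
    let O' : Set (OnePoint K) := O \ {∞}
    have hO'card : O'.ncard = h - 1 := by
      rw [Set.ncard_sdiff_singleton_of_mem (mem_orbit_self _)]
    letI act : MulAction (unip Γ) O' :=
      { smul := fun u x => ⟨(u : Γ) • (x : OnePoint K), by
          refine ⟨?_, fun hx => x.2.2 ?_⟩
          · obtain ⟨g, hg⟩ := x.2.1
            exact ⟨(u : Γ) * g, by rw [← hg]; exact mul_smul _ _ _⟩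
          · have hu : (u : Γ) • ∞ = ∞ := (hB u).mp (hUB u.2) |>
              fun h10 => OnePoint.smul_infty_eq_self_iff.mpr h10
            exact (smul_left_cancel_iff (u : Γ)).mp (hx.trans hu.symm)⟩
        one_smul := fun x => Subtype.ext (one_smul _ _)
        mul_smul := fun u v x => Subtype.ext (mul_smul _ _ _) }
    haveI : Finite O' := (hOfin.subset Set.sdiff_subset).to_subtype
    haveI : Fintype (orbitRel.Quotient (unip Γ) O') := Fintype.ofFinite _
    have hfree : ∀ x : O', stabilizer (unip Γ) x = ⊥ := fun x => by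
      rw [eq_bot_iff]
      intro u hu
      rw [Subgroup.mem_bot]
      by_contra hu1
      exact x.2.2 (hfix1 u u.2 (fun h => hu1 (Subtype.ext h)) _ (congrArg Subtype.val hu))
    rw [← hO'card, ← Nat.card_coe_set_eq, Nat.card_congr (selfEquivSigmaOrbits (unip Γ) O'),
      Nat.card_sigma]
    refine Finset.dvd_sum fun ω _ => ?_
    rw [Nat.card_congr (orbitEquivQuotientStabilizer _ _), hfree]
    rw [← hqdef.symm.trans rfl |>.trans rfl]
    exact (Nat.card_congr QuotientGroup.quotientBot.toEquiv).symm.dvd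
  have hh2 : 2 ≤ h := by
    obtain ⟨g, hg⟩ := hirr
    refine (Set.one_lt_ncard hOfin).mpr ⟨∞, mem_orbit_self _, g • ∞, mem_orbit _ _, fun h' => hg ?_⟩
    exact OnePoint.smul_infty_eq_self_iff.mp h'.symm
  have hhq : q + 1 ≤ h := by
    have := Nat.le_of_dvd (by omega) hmod
    omega
  haveI : Nontrivial (unip Γ) := Finite.one_lt_card_iff_nontrivial.mp (by rw [← hqdef]; omega)
  have ht : R.ncard + 1 ≤ q := by
    obtain ⟨u, hu1⟩ := exists_ne (1 : unip Γ)
    obtain ⟨u00, u10, u11⟩ := mem_unip.mp u.2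
    set x := ((u : Γ) : GL₂) 0 1 with hx
    have hu01 : x ≠ 0 := fun h0 => hu1 (by
      refine Subtype.ext (Subtype.ext (Units.ext ?_))
      ext i j
      fin_cases i <;> fin_cases j <;> simp [u00, u10, u11, ← hx, h0])
    let X : Set K := (fun v : unip Γ => ((v : Γ) : GL₂) 0 1) '' {1}ᶜ
    have hXc : X.ncard + 1 ≤ q := by
      have h1 : X.ncard ≤ ({1}ᶜ : Set (unip Γ)).ncard := Set.ncard_image_le (Set.toFinite _)
      have h3 := Set.ncard_add_ncard_compl ({1} : Set (unip Γ))
      rw [Set.ncard_singleton] at h3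
      omega
    refine le_trans (Nat.add_le_add_right ?_ 1) hXc
    refine Set.ncard_le_ncard_of_injOn (fun a => a * x) ?_
      (fun a _ b _ hab => mul_right_cancel₀ hu01 hab) (Set.toFinite X)
    rintro a ⟨g, hg, hg10, rfl⟩
    let g' : Γ := ⟨g, hg⟩
    have had : g 0 0 * g 1 1 = 1 := hBdiag g' ((hB g').mpr hg10)
    obtain ⟨v, hv⟩ : ∃ v : Γ, v * g' = g' * (u : Γ) := ⟨g' * u * g'⁻¹, by group⟩
    have e := fun i j => congrArg (fun M : Γ => (M : GL₂) i j) hv
    have e00 := e 0 0; have e10 := e 1 0; have e01 := e 0 1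
    simp [g', Matrix.mul_apply, Fin.sum_univ_two, hg10, u00, u10, u11, ← hx] at e00 e10 e01
    have h00 : g 0 0 ≠ 0 := fun h => one_ne_zero (by rw [← had, h, zero_mul])
    have v00 : (v : GL₂) 0 0 = 1 := mul_right_cancel₀ h00 (e00.trans (one_mul _).symm)
    have v10 : (v : GL₂) 1 0 = 0 := e10.resolve_right h00
    have v11 : (v : GL₂) 1 1 = 1 := by
      have := hd v
      rw [det_eq, v00, v10, one_mul, mul_zero, sub_zero] at this
      exact this
    rw [v00, one_mul] at e01
    refine ⟨⟨v, v00, v10, v11⟩, fun h1 => hu1 ?_, ?_⟩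
    · rw [show v = 1 from congrArg Subtype.val h1, one_mul] at hv
      exact Subtype.ext (mul_left_cancel (hv.symm.trans (mul_one g').symm))
    · show (v : GL₂) 0 1 = g 0 0 ^ 2 * x
      linear_combination g 0 0 * e01 - (v : GL₂) 0 1 * had
  -- the set of fixed points of non-scalar elements
  have hfixed := fun g : Γ => fun hg : ¬ IsScalarMat (g : GL₂) => exists_fixed_finset h2 (hd g) hg
  choose fx hfx hfxcard using hfixed
  let F : Finset (OnePoint K) := Finset.univ.biUnion fun g : Γ =>
    if hg : IsScalarMat (g : GL₂) then ∅ else fx g hg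
  have hF : ∀ x, x ∈ F ↔ ∃ g : Γ, ¬ IsScalarMat (g : GL₂) ∧ g • x = x := fun x => by
    simp only [F, Finset.mem_biUnion, Finset.mem_univ, true_and]
    refine exists_congr fun g => ?_
    split_ifs with hg
    · simp [hg]
    · simp [hg, hfx g hg, Subgroup.smul_def]
  have hFstab : ∀ (a : Γ) (x : OnePoint K), x ∈ F → a • x ∈ F := fun a x hx => by
    obtain ⟨g, hg, hgx⟩ := (hF x).mp hx
    refine (hF _).mpr ⟨a * g * a⁻¹, fun hs => hg ?_, by rw [mul_smul, inv_smul_smul, mul_smul, hgx]⟩
    rcases (hsc _).mp hs with h | h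
    · exact (hsc g).mpr (Or.inl (by simpa using h))
    · refine (hsc g).mpr (Or.inr ?_)
      have hc : a⁻¹ * ε * a = ε := by
        apply Subtype.ext
        simp [ε]
      rw [← hc, ← h]
      group
  letI : MulAction Γ F :=
    { smul := fun a x => ⟨a • (x : OnePoint K), hFstab a x x.2⟩
      one_smul := fun x => Subtype.ext (one_smul _ _)
      mul_smul := fun a b x => Subtype.ext (mul_smul _ _ _) }
  have hburn := sum_card_fixedBy_eq_card_orbits_mul_card_group Γ F
  rw [← Nat.card_eq_fintype_card, ← Nat.card_eq_fintype_card] at hburn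
  -- the parabolic elements
  let Par : Finset Γ := Finset.univ.filter fun g : Γ =>
    ¬ IsScalarMat (g : GL₂) ∧ ((g : GL₂) 0 0 + (g : GL₂) 1 1) ^ 2 = 4
  have hparfix : ∀ g ∈ Par, ∃ x ∈ O, g • x = x ∧ ∀ z, g • z = z → z = x := by
    intro g hg
    obtain ⟨hns, h4⟩ : ¬ IsScalarMat (g : GL₂) ∧ _ := (Finset.mem_filter.mp hg).2
    obtain ⟨x, hx⟩ := Finset.card_eq_one.mp ((hfxcard g hns).trans (if_pos h4))
    have huniq : ∀ z, g • z = z → z = x := fun z hz => by
      have : z ∈ fx g hns := (hfx g hns z).mpr hz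
      simpa [hx] using this
    have hxx : g • x = x := (hfx g hns x).mp (by simp [hx])
    -- `± g` is unipotent
    obtain ⟨u, hu, hug⟩ : ∃ u : Γ, (u : GL₂) 0 0 + (u : GL₂) 1 1 = 2 ∧ (u = g ∨ u = ε * g) := by
      have : ((g : GL₂) 0 0 + (g : GL₂) 1 1 - 2) * ((g : GL₂) 0 0 + (g : GL₂) 1 1 + 2) = 0 := by
        linear_combination h4
      rcases mul_eq_zero.mp this with h | h
      · exact ⟨g, sub_eq_zero.mp h, Or.inl rfl⟩
      · exact ⟨ε * g, by rw [hε, neg_apply', neg_apply']; linear_combination -h, Or.inr rfl⟩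
    have hup : u ^ p = 1 := by
      have hN : (((u : GL₂) : Matrix (Fin 2) (Fin 2) K) - 1) * (((u : GL₂) : Matrix (Fin 2) (Fin 2) K) - 1) = 0 := by
        have := hd u
        rw [det_eq] at this
        ext i j
        fin_cases i <;> fin_cases j <;> simp [Matrix.mul_apply, Fin.sum_univ_two]
        · linear_combination (u : GL₂) 0 0 * hu - this
        · linear_combination (u : GL₂) 0 1 * hu
        · linear_combination (u : GL₂) 1 0 * hu
        · linear_combination (u : GL₂) 1 1 * hu - this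
      refine Subtype.ext (Units.ext ?_)
      rw [SubmonoidClass.coe_pow, Units.val_pow_eq_pow_val, OneMemClass.coe_one, Units.val_one,
        ← sub_eq_zero]
      have hpe := sub_pow_char_of_commute (p := p)
        (h := Commute.one_right (((u : GL₂) : Matrix (Fin 2) (Fin 2) K)))
      rw [one_pow] at hpe
      rw [← hpe, show p = 2 + (p - 2) by have := hp.two_le; omega, pow_add, sq, hN, zero_mul]
    obtain ⟨Q, hQ⟩ := IsPGroup.exists_le_sylow (p := p) (P := Subgroup.zpowers u) (IsPGroup.of_card (n := 1)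
      (by
        rw [pow_one, Nat.card_zpowers]
        refine orderOf_eq_prime hup fun h1 => hns ?_
        rcases hug with rfl | rfl
        · exact (hsc _).mpr (Or.inl h1)
        · exact (hsc _).mpr (Or.inr (by rw [← one_mul g, ← hεsq, mul_assoc, h1, mul_one]))))
    obtain ⟨a, ha⟩ := exists_smul_eq Γ P Q
    have hufix : u • (a • ∞) = a • ∞ := by
      have hu' := hQ (Subgroup.mem_zpowers u)
      rw [← ha, Sylow.coe_subgroup_smul, Subgroup.mem_pointwise_smul_iff_inv_smul_mem] at hu'
      rw [hP] at hu'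
      have := (hB _).mpr hu'.2.1
      have h' : (a⁻¹ * u * a) • ∞ = ∞ := by
        simpa [B, MulAut.smul_def, mul_assoc] using this
      rw [mul_smul, mul_smul, inv_smul_eq_iff] at h'
      exact h'
    have hgfix : g • (a • ∞) = a • ∞ := by
      rcases hug with rfl | rfl
      · exact hufix
      · have hscε : ∀ z : OnePoint K, ε • z = z := fun z =>
          smul_eq_of_scalar ((hsc ε).mpr (Or.inr rfl)) z
        rw [mul_smul, hscε] at hufix
        exact hufix
    exact ⟨a • ∞, mem_orbit _ _, hgfix, fun z hz => (huniq z hz).trans (huniq _ hgfix).symm⟩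
  have hparinf : (Par.filter fun g : Γ => g • ∞ = ∞).card = 2 * (q - 1) := by
    have heq : (Par.filter fun g : Γ => g • ∞ = ∞) =
        ((Finset.univ.filter fun g : Γ => g ∈ unip Γ).erase 1).disjUnion
          (((Finset.univ.filter fun g : Γ => g ∈ unip Γ).erase 1).image (ε * ·)) (by
        rw [Finset.disjoint_left]
        intro g hg hg'
        simp only [Finset.mem_erase, Finset.mem_filter, Finset.mem_univ, true_and,
          Finset.mem_image] at hg hg'
        obtain ⟨v, ⟨-, hv⟩, rfl⟩ := hg'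
        have := hg.2.1
        rw [hε, neg_apply', hv.1] at this
        exact h2 (by linear_combination -this)) := by
      ext g
      simp only [Finset.mem_filter, Par, Finset.mem_univ, true_and, Finset.mem_disjUnion,
        Finset.mem_erase, Finset.mem_image]
      constructor
      · rintro ⟨⟨hns, h4⟩, hg⟩
        have h10 := (hB g).mp hg
        have had := hBdiag g hg
        have : ((g : GL₂) 0 0 - (g : GL₂) 1 1) ^ 2 = 0 := by linear_combination h4 - 4 * had
        have hh := sub_eq_zero.mp (pow_eq_zero_iff (n := 2) (by norm_num) |>.mp this)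
        rw [← hh] at had
        rcases mul_self_eq_one_iff.mp had with h | h
        · exact Or.inl ⟨fun e => hns ((hsc g).mpr (Or.inl e)), h, h10, by rw [← hh, h]⟩
        · refine Or.inr ⟨ε * g, ⟨fun e => hns ((hsc g).mpr (Or.inr ?_)), ?_⟩, ?_⟩
          · rw [← one_mul g, ← hεsq, mul_assoc, e, mul_one]
          · exact ⟨by rw [hε, neg_apply', h, neg_neg], by rw [hε, neg_apply', h10, neg_zero],
              by rw [hε, neg_apply', ← hh, h, neg_neg]⟩
          · rw [← mul_assoc, hεsq, one_mul]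
      · rintro (⟨hne, h00, h10, h11⟩ | ⟨v, ⟨hne, h00, h10, h11⟩, rfl⟩)
        · refine ⟨⟨fun hs => hne (Subtype.ext (Units.ext ?_)), by rw [h00, h11]; ring⟩,
            (hB g).mpr h10⟩
          ext i j
          fin_cases i <;> fin_cases j <;> simp [hs.1, h00, h10, h11]
        · refine ⟨⟨fun hs => hne (Subtype.ext (Units.ext ?_)),
            by rw [hε, neg_apply', neg_apply', h00, h11]; ring⟩, (hB _).mpr (by
              rw [hε, neg_apply', h10, neg_zero])⟩
          have h01 := hs.1
          rw [hε, neg_apply', neg_eq_zero] at h01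
          ext i j
          fin_cases i <;> fin_cases j <;> simp [h01, h00, h10, h11]
    rw [heq, Finset.card_disjUnion, Finset.card_image_of_injective _ (mul_right_injective ε),
      Finset.card_erase_of_mem (by simp [(unip Γ).one_mem]),
      ← Fintype.card_subtype, ← Nat.card_eq_fintype_card]
    omega
  have hParcard : Par.card = 2 * (h * (q - 1)) := by
    choose! pt hptO hptfix hptuniq using hparfix
    rw [Finset.card_eq_sum_card_fiberwise (t := hOfin.toFinset) (f := pt)
      fun g hg => hOfin.mem_toFinset.mpr (hptO g hg)]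
    rw [Finset.sum_const_nat (m := 2 * (q - 1)), hhdef, Set.ncard_eq_toFinset_card O hOfin]
    · ring
    intro x hx
    obtain ⟨a, rfl⟩ := hOfin.mem_toFinset.mp hx
    rw [← hparinf]
    refine Finset.card_bij' (fun g _ => a⁻¹ * g * a) (fun g _ => a * g * a⁻¹) ?_ ?_
      (fun g _ => by group) (fun g _ => by group)
    all_goals
      intro g hg
      simp only [Finset.mem_filter] at hg ⊢
      obtain ⟨hgP, hgx⟩ := hg
      simp only [Par, Finset.mem_filter, Finset.mem_univ, true_and] at hgP ⊢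
    · refine ⟨?_, ?_⟩
      · refine ⟨fun hs => hgP.1 ?_, ?_⟩
        · rcases (hsc _).mp hs with e | e
          · exact (hsc g).mpr (Or.inl (by
              rw [show g = a * (a⁻¹ * g * a) * a⁻¹ by group, e, mul_one, mul_inv_cancel]))
          · refine (hsc g).mpr (Or.inr ?_)
            have hc : a * ε * a⁻¹ = ε := Subtype.ext (by simp [ε])
            rw [← hc, ← e]
            group
        · have ht : (((a⁻¹ * g * a : Γ) : GL₂) : Matrix (Fin 2) (Fin 2) K).trace =
              ((g : GL₂) : Matrix (Fin 2) (Fin 2) K).trace := by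
            simp only [Subgroup.coe_mul, Units.val_mul, InvMemClass.coe_inv]
            rw [Matrix.trace_mul_comm, ← mul_assoc, ← Units.val_mul, mul_inv_cancel, Units.val_one,
              one_mul]
          rw [Matrix.trace_fin_two, Matrix.trace_fin_two] at ht
          rw [ht]
          exact hgP.2
      · have hfix' := hptfix g (Finset.mem_filter.mpr ⟨Finset.mem_univ _, hgP⟩)
        rw [hgx] at hfix'
        rw [mul_smul, mul_smul, inv_smul_eq_iff]
        exact hfix'
    · have hmem : a * g * a⁻¹ ∈ Par := by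
        simp only [Par, Finset.mem_filter, Finset.mem_univ, true_and]
        refine ⟨fun hs => hgP.1 ?_, ?_⟩
        · rcases (hsc _).mp hs with e | e
          · exact (hsc g).mpr (Or.inl (conj_eq_one_iff.mp e))
          · refine (hsc g).mpr (Or.inr ?_)
            have hc : a⁻¹ * ε * a = ε := Subtype.ext (by simp [ε])
            rw [← hc, ← e]
            group
        · have ht : (((a * g * a⁻¹ : Γ) : GL₂) : Matrix (Fin 2) (Fin 2) K).trace =
              ((g : GL₂) : Matrix (Fin 2) (Fin 2) K).trace := by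
            simp only [Subgroup.coe_mul, Units.val_mul, InvMemClass.coe_inv]
            rw [Matrix.trace_mul_comm, ← mul_assoc, ← Units.val_mul, inv_mul_cancel, Units.val_one,
              one_mul]
          rw [Matrix.trace_fin_two, Matrix.trace_fin_two] at ht
          rw [ht]
          exact hgP.2
      refine ⟨by simpa [Par] using hmem, (hptuniq _ hmem _ ?_).symm⟩
      rw [mul_smul, inv_smul_smul, mul_smul, hgx]
  -- the sum of the numbers of fixed points
  have hsum : (∑ g : Γ, Fintype.card (fixedBy F g)) + Par.card + 4 = 2 * F.card + 2 * Nat.card Γ := by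
    have hpt : ∀ g : Γ, Fintype.card (fixedBy F g) + (if g ∈ Par then 1 else 0) +
        (if g ∈ ({1, ε} : Finset Γ) then 2 else 0) =
        (if g ∈ ({1, ε} : Finset Γ) then F.card else 0) + 2 := by
      intro g
      by_cases hg : IsScalarMat (g : GL₂)
      · have hmem : g ∈ ({1, ε} : Finset Γ) := by simpa using (hsc g).mp hg
        rw [if_pos hmem, if_pos hmem, if_neg (by simp [Par, hg]),
          ← Fintype.card_coe F, add_zero]
        congr 1
        exact Fintype.card_congr ((Equiv.setCongr (Set.eq_univ_of_forall fun x =>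
          Subtype.ext (smul_eq_of_scalar hg _))).trans (Equiv.Set.univ _))
      · have hmem : g ∉ ({1, ε} : Finset Γ) := by simpa using fun h => hg ((hsc g).mpr h)
        have hc : Fintype.card (fixedBy F g) = (fx g hg).card := by
          rw [← Fintype.card_coe]
          exact Fintype.card_congr
            { toFun := fun x => ⟨x.1.1, (hfx g hg _).mpr (congrArg Subtype.val x.2)⟩
              invFun := fun x => ⟨⟨x.1, (hF _).mpr ⟨g, hg, (hfx g hg _).mp x.2⟩⟩,
                Subtype.ext ((hfx g hg _).mp x.2)⟩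
              left_inv := fun x => rfl
              right_inv := fun x => rfl }
        rw [if_neg hmem, if_neg hmem, hc, hfxcard g hg, zero_add, add_zero]
        simp only [Par, Finset.mem_filter, Finset.mem_univ, true_and, hg, not_false_eq_true]
        split_ifs <;> rfl
    have hs := Finset.sum_congr (s₁ := Finset.univ) rfl fun g _ => hpt g
    rw [Finset.sum_add_distrib, Finset.sum_add_distrib, Finset.sum_add_distrib,
      Finset.sum_ite_mem, Finset.sum_ite_mem, Finset.sum_ite_mem, Finset.univ_inter,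
      Finset.univ_inter, Finset.sum_const, Finset.sum_const, Finset.sum_const, Finset.sum_const,
      Finset.card_pair (Ne.symm hεne), Finset.card_univ, ← Nat.card_eq_fintype_card] at hs
    simp only [smul_eq_mul, mul_one] at hs
    omega
  rw [hburn, hParcard] at hsum
  -- the orbits
  have hinfF : ∞ ∈ F := by
    obtain ⟨u, hu1⟩ := exists_ne (1 : unip Γ)
    refine (hF _).mpr ⟨u, fun hs => ?_, (hB u).mp (hUB u.2) |> fun h10 =>
      OnePoint.smul_infty_eq_self_iff.mpr h10⟩
    rcases (hsc _).mp hs with e | e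
    · exact hu1 (Subtype.ext e)
    · have h0 := u.2.1
      rw [e] at h0
      simp [ε] at h0
      exact h2 (by linear_combination -h0)
  let ω₀ : Quotient (orbitRel Γ F) := Quotient.mk _ ⟨∞, hinfF⟩
  have hcardF : F.card = ∑ ω : Quotient (orbitRel Γ F), Nat.card (orbit Γ ω.out) := by
    rw [← Nat.card_sigma, ← Nat.card_congr (selfEquivSigmaOrbits Γ F), Nat.card_eq_fintype_card,
      Fintype.card_coe]
  have horb : ∀ x : F, Nat.card (orbit Γ x) * Nat.card (stabilizer Γ x) = Nat.card Γ := fun x => by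
    rw [Nat.card_congr (orbitEquivQuotientStabilizer Γ x)]
    exact (Subgroup.card_eq_card_quotient_mul_card_subgroup _).symm
  have hstab : ∀ x : F, ∃ c, 2 ≤ c ∧ Nat.card (stabilizer Γ x) = 2 * c := fun x => by
    have hεx : ε ∈ stabilizer Γ x := Subtype.ext (smul_eq_of_scalar ((hsc ε).mpr (Or.inr rfl)) _)
    have hdvd : 2 ∣ Nat.card (stabilizer Γ x) := by
      have h := orderOf_dvd_natCard (⟨ε, hεx⟩ : stabilizer Γ x)
      rwa [orderOf_eq_prime (p := 2) (Subtype.ext (by rw [sq]; exact hεsq))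
        (fun e => hεne (congrArg Subtype.val e))] at h
    obtain ⟨c, hc⟩ := hdvd
    refine ⟨c, ?_, hc⟩
    obtain ⟨g, hg, hgx⟩ := (hF x.1).mp x.2
    by_contra hc2
    have hc2' : Nat.card (stabilizer Γ x) ≤ 2 := by omega
    have h3 : ({1, ε, g} : Finset Γ).card = 3 := by
      rw [Finset.card_insert_of_notMem, Finset.card_pair]
      · exact fun e => hg ((hsc g).mpr (Or.inr e.symm))
      · simp only [Finset.mem_insert, Finset.mem_singleton, not_or]
        exact ⟨Ne.symm hεne, fun e => hg ((hsc g).mpr (Or.inl e.symm))⟩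
    have : ({1, ε, g} : Finset Γ).card ≤ Nat.card (stabilizer Γ x) := by
      rw [Nat.card_eq_fintype_card, Fintype.card_subtype]
      refine Finset.card_le_card fun a ha => ?_
      simp only [Finset.mem_insert, Finset.mem_singleton] at ha
      refine Finset.mem_filter.mpr ⟨Finset.mem_univ _, ?_⟩
      rcases ha with rfl | rfl | rfl
      exacts [one_mem _, hεx, Subtype.ext hgx]
    omega
  have ho0 : Nat.card (orbit Γ ω₀.out) = h := by
    have hω : orbit Γ ω₀.out = orbit Γ (⟨∞, hinfF⟩ : F) :=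
      orbit_eq_iff.mpr (Quotient.exact (Quotient.out_eq ω₀))
    rw [hω, hhdef, ← Nat.card_coe_set_eq]
    refine Nat.card_congr (Equiv.ofBijective (fun z => ⟨z.1.1, ?_⟩) ⟨fun a b e => ?_, fun z => ?_⟩)
    · obtain ⟨a, ha⟩ := z.2
      exact ⟨a, congrArg Subtype.val ha⟩
    · exact Subtype.ext (Subtype.ext (Subtype.mk.inj e))
    · obtain ⟨a, ha⟩ := z.2
      exact ⟨⟨a • ⟨∞, hinfF⟩, mem_orbit _ _⟩, Subtype.ext ha⟩
  rw [← Finset.add_sum_erase _ _ (Finset.mem_univ ω₀), ho0] at hcardF
  set rest := (Finset.univ : Finset (Quotient (orbitRel Γ F))).erase ω₀ with hrest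
  have hN : Nat.card (Quotient (orbitRel Γ F)) = rest.card + 1 := by
    rw [Nat.card_eq_fintype_card, hrest, Finset.card_erase_of_mem (Finset.mem_univ _),
      Finset.card_univ]
    have := Fintype.card_pos_iff.mpr ⟨ω₀⟩
    omega
  set n := h * q * R.ncard with hndef
  have hn2 : Nat.card Γ = 2 * n := by rw [hn, hndef]; ring
  have hsmall : 2 * (∑ ω ∈ rest, Nat.card (orbit Γ ω.out)) ≤ rest.card * n := by
    rw [Finset.mul_sum, ← smul_eq_mul rest.card n]
    refine Finset.sum_le_card_nsmul _ _ _ fun ω _ => ?_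
    obtain ⟨c, hc2, hc⟩ := hstab ω.out
    have := horb ω.out
    rw [hc, hn2, mul_left_comm] at this
    rw [← Nat.eq_of_mul_eq_mul_left two_pos this, mul_comm 2]
    exact Nat.mul_le_mul_left _ hc2
  rw [hN, hn2, hcardF] at hsum
  obtain ⟨hrest1, hS⟩ := orbits_arith h5 hhq hndef hsum hsmall
  obtain ⟨ω₁, hω₁⟩ := Finset.card_eq_one.mp hrest1
  rw [hω₁, Finset.sum_singleton] at hS
  obtain ⟨c, hc2, hc⟩ := hstab ω₁.out
  have hoc := horb ω₁.out
  rw [hc, hn2, mul_left_comm] at hoc
  have := torus_ge h5 ht hhq hmod hc2 hS ((Nat.eq_of_mul_eq_mul_left (by omega) hoc).trans hndef)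
  show q ≤ 2 * R.ncard + 1
  omega

end Fermat.Agent.Engine.TW.PointCount
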