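import Fermat.Agent.Engine.TW.Tame
import Fermat.Agent.Engine.TW.Classes

/-!
# Bounds on cocycles at a prime away from `p`

At an unramified prime with regular semisimple Frobenius the cocycles form a space of dimension
at most four, at a unipotently ramified prime those of the unipotent condition one of dimension at
most three.
-/

set_option autoImplicit false

noncomputable section

set_option maxSynthPendingDepth 5

namespace Fermat.Agent.Engine.TW

open Fermat.Agent.DefRing Fermat.Agent.Deform Module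

local notation "Ω" => AlgebraicClosure ℚ
local notation "Γ" => (AlgebraicClosure ℚ ≃ₐ[ℚ] AlgebraicClosure ℚ)

variable {A : ValuationSubring Ω} {k : Type} [Field k] {ρ : MRep k}

/-- The trace zero cocycles of finite level on a decomposition group. -/
def adCocyclesAt (A : ValuationSubring Ω) (ρ : MRep k) :
    Submodule k (A.decompositionSubgroup ℚ → traceZero k) where
  carrier := {c | (∀ g h : A.decompositionSubgroup ℚ,
      c (g * h) = c g + slRep ρ (g : Γ) (c h)) ∧
    ∃ L : IntermediateField ℚ Ω, FiniteDimensional ℚ L ∧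
      ∀ g : A.decompositionSubgroup ℚ, (∀ a ∈ L, (g : Γ) a = a) → c g = 0}
  zero_mem' := ⟨fun g h => by simp, ⊥, inferInstance, fun _ _ => rfl⟩
  add_mem' := by
    rintro a b ⟨ha, F, hF, haF⟩ ⟨hb, F', hF', hbF⟩
    refine ⟨fun g h => ?_, F ⊔ F', IntermediateField.finiteDimensional_sup F F', fun g hg => ?_⟩
    · simp only [Pi.add_apply, ha, hb, map_add]; abel
    · simp [haF g fun a h => hg a ((le_sup_left : F ≤ F ⊔ F') h),
        hbF g fun a h => hg a ((le_sup_right : F' ≤ F ⊔ F') h)]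
  smul_mem' := by
    rintro t a ⟨ha, F, hF, haF⟩
    exact ⟨fun g h => by simp [ha, smul_add], F, hF, fun g hg => by simp [haF g hg]⟩

variable {p q : ℕ} [Fact p.Prime] [Algebra (ZMod p) k]

/-- The restriction of the adjoint representation to a decomposition group. -/
abbrev adAt (p : ℕ) [Fact p.Prime] [Algebra (ZMod p) k] (ρ : MRep k) (A : ValuationSubring Ω) :
    Representation (ZMod p) (A.decompositionSubgroup ℚ) (traceZero k) :=
  (adP p ρ).comp (A.decompositionSubgroup ℚ).subtype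

lemma cocycle_of_mem {c : A.decompositionSubgroup ℚ → traceZero k} (hc : c ∈ adCocyclesAt A ρ)
    (g h : A.decompositionSubgroup ℚ) : c (g * h) = c g + adAt p ρ A g (c h) :=
  hc.1 g h

lemma isFiniteLevel_of_mem (hρ : GaloisFactorsThroughFiniteLevel (ρ : GQ →* _))
    {c : A.decompositionSubgroup ℚ → traceZero k} (hc : c ∈ adCocyclesAt A ρ) :
    IsFiniteLevel (adAt p ρ A) c := by
  obtain ⟨L, hL, hρL⟩ := hρ
  obtain ⟨L', hL', hcL⟩ := hc.2
  refine ⟨L ⊔ L', IntermediateField.finiteDimensional_sup L L', fun g hg => ⟨?_, ?_⟩⟩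
  · have h1 : ρ (g : Γ) = 1 := hρL _ fun a h => hg a ((le_sup_left : L ≤ L ⊔ L') h)
    have h2 : ρ (g : Γ)⁻¹ = 1 := by
      have := rho_inv_mul ρ (g : Γ)
      rwa [h1, mul_one] at this
    refine LinearMap.ext fun X => Subtype.ext ?_
    simp [h1, h2]
  · exact hcL g fun a h => hg a ((le_sup_right : L' ≤ L ⊔ L') h)

lemma adAt_eq_one_of_rho_eq_one {g : A.decompositionSubgroup ℚ} (h : ρ (g : Γ) = 1) :
    adAt p ρ A g = 1 := by
  have h2 : ρ (g : Γ)⁻¹ = 1 := by
    have := rho_inv_mul ρ (g : Γ)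
    rwa [h, mul_one] at this
  exact LinearMap.ext fun X => Subtype.ext (by simp [h, h2])

/-- Powers of a unipotent matrix. -/
lemma unipotent_pow {u : Matrix (Fin 2) (Fin 2) k} (h : (u - 1) * (u - 1) = 0) (n : ℕ) :
    u ^ n = 1 + (n : k) • (u - 1) := by
  induction n with
  | zero => simp
  | succ n ih =>
    have hu : u * (u - 1) = u - 1 := by
      rw [← sub_eq_zero, ← h]; noncomm_ring
    rw [pow_succ', ih, Matrix.mul_add, mul_one, Matrix.mul_smul, hu, Nat.cast_succ, add_smul,
      one_smul]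
    abel

lemma adAt_pow_prime [CharP k p] {g : A.decompositionSubgroup ℚ}
    (h : (ρ (g : Γ) - 1) * (ρ (g : Γ) - 1) = 0) : adAt p ρ A g ^ p = 1 := by
  rw [← map_pow]
  refine adAt_eq_one_of_rho_eq_one ?_
  rw [SubgroupClass.coe_pow, map_pow, unipotent_pow h, CharP.cast_eq_zero, zero_smul, add_zero]

lemma adAt_pow_of_unramified {g : A.decompositionSubgroup ℚ} (h : ρ (g : Γ) = 1) :
    adAt p ρ A g ^ p = 1 := by
  rw [adAt_eq_one_of_rho_eq_one h, one_pow]

variable (hq : q.Prime) (hpq : p ≠ q) (hA : A.LiesOverPrime q)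
  (hρ : GaloisFactorsThroughFiniteLevel (ρ : GQ →* _))
  {φ : A.decompositionSubgroup ℚ} (hφ : A.IsFrobeniusAt (φ : Γ) q)

section Unramified

variable (hI : ∀ σ ∈ A.inertiaSubgroupIn ℚ, ρ σ = 1)

include hq hpq hA hρ hI hφ in
/-- A cocycle vanishing at a tame element and at Frobenius vanishes. -/
theorem eq_zero_of_tame_frobenius {c : A.decompositionSubgroup ℚ → traceZero k}
    (hc : c ∈ adCocyclesAt A ρ) {x : Ω} (hx : x ^ p = (q : Ω)) {τ₀ : A.decompositionSubgroup ℚ}
    (hτ₀ : (τ₀ : Γ) ∈ A.inertiaSubgroupIn ℚ) (hmove : (τ₀ : Γ) x ≠ x) (h1 : c τ₀ = 0)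
    (h2 : c φ = 0) : c = 0 :=
  funext fun g => cocycle_eq_zero_of_frobenius hq hA (cocycle_of_mem hc)
    (isFiniteLevel_of_mem (p := p) hρ hc) hφ h2
    (fun _ hτ => cocycle_eq_zero_on_inertia hq hpq hA (cocycle_of_mem hc)
      (isFiniteLevel_of_mem (p := p) hρ hc) (fun _ hg => adAt_pow_of_unramified (hI _ hg))
      hx hτ₀ hmove h1 hτ) g

include hq hpq hA hρ hI hφ in
/-- The tame value of a cocycle is fixed by Frobenius at a prime `≡ 1 mod p`. -/
theorem tame_value_fixed (hq1 : (q : ZMod p) = 1) {c : A.decompositionSubgroup ℚ → traceZero k}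
    (hc : c ∈ adCocyclesAt A ρ) {τ : A.decompositionSubgroup ℚ}
    (hτ : (τ : Γ) ∈ A.inertiaSubgroupIn ℚ) : slRep ρ (φ : Γ) (c τ) = c τ := by
  have hc' := cocycle_of_mem (p := p) hc
  obtain ⟨h, -⟩ := cocycle_frobenius_relation hq hpq hA hc' (isFiniteLevel_of_mem hρ hc)
    (fun g hg => adAt_pow_of_unramified (hI _ hg)) hφ hτ
  have h1 : adAt p ρ A τ = 1 := adAt_eq_one_of_rho_eq_one (hI _ hτ)
  rw [cocycle_pow_of_trivial hc' h1, hq1, one_smul, mul_assoc, hc', hc', h1,
    Module.End.one_apply, map_add] at h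
  have h2 : c φ + adAt p ρ A φ (c φ⁻¹) = 0 := by rw [← hc', mul_inv_cancel, cocycle_one hc']
  calc slRep ρ (φ : Γ) (c τ) = adAt p ρ A φ (c τ) := rfl
    _ = c φ + (adAt p ρ A φ (c τ) + adAt p ρ A φ (c φ⁻¹)) - (c φ + adAt p ρ A φ (c φ⁻¹)) := by
      abel
    _ = c τ := by rw [h, h2, sub_zero]

/-- The fixed vectors of a regular semisimple matrix in trace zero matrices. -/
lemma eq_zero_of_commute_regular (h2 : (2 : k) ≠ 0) {M X : Matrix (Fin 2) (Fin 2) k}
    (hM : M.trace ^ 2 ≠ 4 * M.det) (hX : X.trace = 0) (hc : M * X = X * M)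
    (htr : (M * X).trace = 0) : X = 0 := by
  let M₀ := M - (M.trace / 2) • (1 : Matrix (Fin 2) (Fin 2) k)
  have hM0 : M₀.trace = 0 := by
    simp [M₀, Matrix.trace_sub, Matrix.trace_smul, Matrix.trace_one]
    field_simp
    ring
  have htr0 : (M₀ * X).trace = 0 := by
    simp [M₀, Matrix.sub_mul, Matrix.trace_sub, Matrix.trace_smul, htr, hX]
  have hsum : M₀ * X + X * M₀ = (M₀ * X).trace • 1 := by
    rw [Matrix.trace_fin_two] at hM0 hX
    have a1 : M₀ 1 1 = -M₀ 0 0 := by linear_combination hM0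
    have a2 : X 1 1 = -X 0 0 := by linear_combination hX
    ext i j
    fin_cases i <;> fin_cases j <;>
      simp [Matrix.mul_apply, Fin.sum_univ_two, Matrix.trace_fin_two, a1, a2] <;> ring
  have hcomm : X * M₀ = M₀ * X := by simp [M₀, Matrix.sub_mul, Matrix.mul_sub, hc]
  rw [htr0, zero_smul, hcomm, ← two_smul k, smul_eq_zero] at hsum
  have hdet : IsUnit M₀.det := by
    rw [isUnit_iff_ne_zero]
    intro h0
    apply hM
    simp [M₀, Matrix.det_fin_two, Matrix.trace_fin_two] at h0 ⊢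
    field_simp at h0
    linear_combination -h0
  calc X = M₀⁻¹ * (M₀ * X) := (Matrix.nonsing_inv_mul_cancel_left M₀ X hdet).symm
    _ = 0 := by rw [hsum.resolve_left h2, mul_zero]

include hq hpq hA hρ hI hφ in
/-- **The bound at a Taylor–Wiles prime.** -/
theorem finrank_adCocyclesAt_le (h2 : (2 : k) ≠ 0) (hq1 : (q : ZMod p) = 1)
    (hreg : (ρ (φ : Γ)).trace ^ 2 ≠ 4 * (ρ (φ : Γ)).det) :
    FiniteDimensional k (adCocyclesAt A ρ) ∧ finrank k (adCocyclesAt A ρ) ≤ 4 := by
  have hp : p.Prime := Fact.out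
  obtain ⟨x, hx⟩ := IsAlgClosed.exists_pow_nat_eq (q : Ω) hp.pos
  obtain ⟨τ₀, hτ₀, hmove⟩ := exists_inertia_moves_root hq hA hp.one_lt hx
  let f : adCocyclesAt A ρ →ₗ[k] traceZero k × k :=
    { toFun := fun c => ((c : A.decompositionSubgroup ℚ → traceZero k) φ,
        (ρ (φ : Γ) * ((c : A.decompositionSubgroup ℚ → traceZero k) τ₀ :
          Matrix (Fin 2) (Fin 2) k)).trace)
      map_add' := fun a b => by simp [Matrix.mul_add]
      map_smul' := fun t a => by simp }
  have hf : Function.Injective f := by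
    refine LinearMap.ker_eq_bot.mp ((Submodule.eq_bot_iff _).mpr fun c hc => ?_)
    rw [LinearMap.mem_ker] at hc
    obtain ⟨c, hcm⟩ := c
    simp only [f, LinearMap.coe_mk, AddHom.coe_mk, Prod.mk_eq_zero] at hc
    have hfix := congrArg (fun Y : traceZero k => (Y : Matrix (Fin 2) (Fin 2) k) * ρ (φ : Γ))
      (tame_value_fixed hq hpq hA hρ hφ hI hq1 hcm hτ₀)
    simp only [coe_slRep, adRep_apply, mul_assoc] at hfix
    rw [rho_inv_mul, mul_one] at hfix
    have h1 : c τ₀ = 0 := Subtype.ext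
      (eq_zero_of_commute_regular h2 hreg (c τ₀).2 hfix hc.2)
    exact Subtype.ext (eq_zero_of_tame_frobenius hq hpq hA hρ hφ hI hcm hx hτ₀ hmove h1 hc.1)
  refine ⟨Module.Finite.of_injective f hf, (LinearMap.finrank_le_finrank_of_injective hf).trans ?_⟩
  rw [Module.finrank_prod, finrank_traceZero, Module.finrank_self]

end Unramified

section Unipotent

/-- The cocycles satisfying the first order unipotence on inertia. -/
def unipotentSpace (A : ValuationSubring Ω) (ρ : MRep k) :
    Submodule k (A.decompositionSubgroup ℚ → traceZero k) where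
  carrier := {c | c ∈ adCocyclesAt A ρ ∧ ∀ g : A.decompositionSubgroup ℚ,
    (g : Γ) ∈ A.inertiaSubgroupIn ℚ →
      (c g : Matrix (Fin 2) (Fin 2) k) * ρ (g : Γ) * (ρ (g : Γ) - 1) +
        (ρ (g : Γ) - 1) * ((c g : Matrix (Fin 2) (Fin 2) k) * ρ (g : Γ)) = 0}
  zero_mem' := ⟨zero_mem _, fun g _ => by simp⟩
  add_mem' := by
    rintro a b ⟨ha, ha'⟩ ⟨hb, hb'⟩
    refine ⟨add_mem ha hb, fun g hg => ?_⟩
    simp only [Pi.add_apply, Submodule.coe_add, Matrix.add_mul, Matrix.mul_add]
    rw [show ∀ P Q R S : Matrix (Fin 2) (Fin 2) k, P + Q + (R + S) = P + R + (Q + S) from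
      fun P Q R S => by abel, ha' g hg, hb' g hg, add_zero]
  smul_mem' := by
    rintro t a ⟨ha, ha'⟩
    refine ⟨Submodule.smul_mem _ t ha, fun g hg => ?_⟩
    simp only [Pi.smul_apply, SetLike.val_smul, Matrix.smul_mul, Matrix.mul_smul, ← smul_add,
      ha' g hg, smul_zero]

/-- Trace zero matrices commuting with a non-zero nilpotent are multiples of it. -/
lemma eq_zero_of_commute_nilpotent (h2 : (2 : k) ≠ 0) {N X : Matrix (Fin 2) (Fin 2) k}
    (hN : N ≠ 0) (hN2 : N * N = 0) (hX : X.trace = 0) (hc : N * X = X * N)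
    (h0 : ∀ i j, N i j ≠ 0 → i ≠ j → X i j = 0) : X = 0 := by
  rw [Matrix.trace_fin_two] at hX
  have hX1 : X 1 1 = -X 0 0 := by linear_combination hX
  have e00 := congrFun (congrFun hN2 0) 0
  have e11 := congrFun (congrFun hN2 1) 1
  have e01 := congrFun (congrFun hN2 0) 1
  have c00 := congrFun (congrFun hc 0) 0
  have c01 := congrFun (congrFun hc 0) 1
  have c10 := congrFun (congrFun hc 1) 0
  simp [Matrix.mul_apply, Fin.sum_univ_two, hX1] at e00 e11 e01 c00 c01 c10
  by_cases hb : N 0 1 = 0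
  · have ha : N 0 0 = 0 := mul_self_eq_zero.mp (by linear_combination e00 - N 1 0 * hb)
    have hd : N 1 1 = 0 := mul_self_eq_zero.mp (by linear_combination e11 - N 1 0 * hb)
    have hc0 : N 1 0 ≠ 0 := fun h => hN (Matrix.ext fun i j => by
      fin_cases i <;> fin_cases j
      exacts [ha, hb, h, hd])
    have h10 := h0 1 0 hc0 (by decide)
    have h01 : X 0 1 = 0 := (mul_eq_zero.mp (show N 1 0 * X 0 1 = 0 by
      linear_combination -c00 + X 1 0 * hb)).resolve_left hc0
    have h00 : X 0 0 = 0 := (mul_eq_zero.mp (show (2 * N 1 0) * X 0 0 = 0 by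
      linear_combination c10 + X 1 0 * ha - X 1 0 * hd)).resolve_left (mul_ne_zero h2 hc0)
    refine Matrix.ext fun i j => ?_
    fin_cases i <;> fin_cases j
    exacts [h00, h01, h10, hX1.trans (by rw [h00, neg_zero]; rfl)]
  · have h01 := h0 0 1 hb (by decide)
    have h10 : X 1 0 = 0 := (mul_eq_zero.mp (show N 0 1 * X 1 0 = 0 by
      linear_combination c00 + N 1 0 * h01)).resolve_left hb
    have h00 : X 0 0 = 0 := (mul_eq_zero.mp (show (2 * N 0 1) * X 0 0 = 0 by
      linear_combination -c01 + N 0 0 * h01 - N 1 1 * h01)).resolve_left (mul_ne_zero h2 hb)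
    refine Matrix.ext fun i j => ?_
    fin_cases i <;> fin_cases j
    exacts [h00, h01, h10, hX1.trans (by rw [h00, neg_zero]; rfl)]

include hq hpq hA hρ hφ in
/-- **The bound at a unipotently ramified prime.** -/
theorem finrank_unipotentSpace_le [CharP k p] (h2 : (2 : k) ≠ 0)
    (huni : ∀ σ ∈ A.inertiaSubgroupIn ℚ, (ρ σ - 1) * (ρ σ - 1) = 0)
    (hram : ∃ σ ∈ A.inertiaSubgroupIn ℚ, ρ σ ≠ 1) :
    FiniteDimensional k (unipotentSpace A ρ) ∧ finrank k (unipotentSpace A ρ) ≤ 3 := by
  classical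
  have hp : p.Prime := Fact.out
  obtain ⟨x, hx⟩ := IsAlgClosed.exists_pow_nat_eq (q : Ω) hp.pos
  obtain ⟨τ₀, hτ₀, hmove⟩ := exists_inertia_moves_root hq hA hp.one_lt hx
  have hpow : ∀ g : A.decompositionSubgroup ℚ, (g : Γ) ∈ A.inertiaSubgroupIn ℚ →
      adAt p ρ A g ^ p = 1 := fun g hg => adAt_pow_prime (huni _ hg)
  -- the tame element is ramified
  let vecRep : Representation (ZMod p) (A.decompositionSubgroup ℚ) (Fin 2 → k) :=
    { toFun := fun g => (Matrix.mulVecLin (ρ (g : Γ))).restrictScalars (ZMod p)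
      map_one' := LinearMap.ext fun v => by simp
      map_mul' := fun g h => LinearMap.ext fun v => by
        simp [Module.End.mul_apply] }
  have hram₀ : ρ (τ₀ : Γ) ≠ 1 := by
    intro h1
    obtain ⟨σ, hσ, hσ1⟩ := hram
    obtain ⟨L, hL, hρL⟩ := hρ
    obtain ⟨n, -, hn⟩ := cocycle_inertia_generated (σ := vecRep) (c := 0) hq hpq hA
      (fun g h => by simp) ⟨L, hL, fun g hg => ⟨LinearMap.ext fun v => by
        simp [vecRep, hρL _ hg], rfl⟩⟩
      (fun g hg => by
        rw [← map_pow]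
        refine LinearMap.ext fun v => ?_
        simp [vecRep, unipotent_pow (huni _ hg), CharP.cast_eq_zero])
      hx hτ₀ hmove (τ := ⟨σ, MultRed.inertia_mem_decomposition hσ⟩) hσ
    apply hσ1
    refine Matrix.ext fun i j => ?_
    have h3 := congrFun (LinearMap.congr_fun hn (Pi.single j 1)) i
    simp [vecRep, h1] at h3
    rw [h3, Pi.single_apply, Matrix.one_apply]
  set N := ρ (τ₀ : Γ) - 1 with hNdef
  have hN0 : N ≠ 0 := sub_ne_zero.mpr hram₀
  have hN2 : N * N = 0 := huni _ hτ₀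
  set u' := ρ ((φ * τ₀ * φ⁻¹ : A.decompositionSubgroup ℚ) : Γ) with hu'
  have hτ' : ((φ * τ₀ * φ⁻¹ : A.decompositionSubgroup ℚ) : Γ) ∈ A.inertiaSubgroupIn ℚ :=
    TameInertia.inertia_normal_in_decomposition φ.2 hτ₀
  have hM0 : u' - 1 ≠ 0 := by
    intro h
    apply hram₀
    have h1 : ρ (φ : Γ) * ρ (τ₀ : Γ) * ρ (φ : Γ)⁻¹ = 1 := by
      rw [← map_mul, ← map_mul]; exact sub_eq_zero.mp h
    have h2 := congrArg (fun M => ρ (φ : Γ)⁻¹ * M * ρ (φ : Γ)) h1
    simp only [← mul_assoc, rho_inv_mul, one_mul] at h2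
    rw [mul_assoc, rho_inv_mul, mul_one, mul_one, rho_inv_mul] at h2
    exact h2
  have hM2 : (u' - 1) * (u' - 1) = 0 := huni _ hτ'
  obtain ⟨a, b, hab, hne⟩ : ∃ a b, (u' - 1) a b ≠ 0 ∧ a ≠ b := by
    by_contra hcon
    push Not at hcon
    have hcon' : ∀ a b, a ≠ b → (u' - 1) a b = 0 := fun a b h => by
      by_contra hne
      exact h (hcon a b hne)
    apply hM0
    have e00 := congrFun (congrFun hM2 0) 0
    have e11 := congrFun (congrFun hM2 1) 1
    simp [Matrix.mul_apply, Fin.sum_univ_two, hcon' 0 1 (by decide), hcon' 1 0 (by decide),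
      -Matrix.sub_apply] at e00 e11
    refine Matrix.ext fun i j => ?_
    fin_cases i <;> fin_cases j
    exacts [e00, hcon' 0 1 (by decide), hcon' 1 0 (by decide), e11]
  let ℓ : traceZero k →ₗ[k] k :=
    (Matrix.traceLinearMap (Fin 2) k k) ∘ₗ (LinearMap.mulLeft k N) ∘ₗ (traceZero k).subtype
  let g₀ : unipotentSpace A ρ →ₗ[k] traceZero k :=
    { toFun := fun c => (c : A.decompositionSubgroup ℚ → traceZero k) τ₀
      map_add' := fun _ _ => rfl
      map_smul' := fun _ _ => rfl }
  let f : unipotentSpace A ρ →ₗ[k] LinearMap.ker ℓ × k :=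
    LinearMap.prod
      (g₀.codRestrict (LinearMap.ker ℓ) fun c => by
        show (N * ((c : A.decompositionSubgroup ℚ → traceZero k) τ₀ :
          Matrix (Fin 2) (Fin 2) k)).trace = 0
        set X := ((c : A.decompositionSubgroup ℚ → traceZero k) τ₀ : Matrix (Fin 2) (Fin 2) k)
        have h := c.2.2 τ₀ hτ₀
        change X * ρ (τ₀ : Γ) * N + N * (X * ρ (τ₀ : Γ)) = 0 at h
        rw [show ρ (τ₀ : Γ) = 1 + N by simp [hNdef]] at h
        have h1 := congrArg Matrix.trace h
        simp only [Matrix.mul_add, Matrix.add_mul, mul_one, mul_assoc, hN2, mul_zero, add_zero,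
          Matrix.trace_add, Matrix.trace_zero] at h1
        rw [Matrix.trace_mul_comm X N, Matrix.trace_mul_comm N (X * N), mul_assoc, hN2, mul_zero,
          Matrix.trace_zero, add_zero, ← two_mul] at h1
        exact (mul_eq_zero.mp h1).resolve_left h2)
      { toFun := fun c => ((c : A.decompositionSubgroup ℚ → traceZero k) φ :
          Matrix (Fin 2) (Fin 2) k) a b
        map_add' := fun _ _ => rfl
        map_smul' := fun _ _ => rfl }
  have hf : Function.Injective f := by
    refine LinearMap.ker_eq_bot.mp ((Submodule.eq_bot_iff _).mpr fun c hc => ?_)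
    rw [LinearMap.mem_ker] at hc
    obtain ⟨c, hcm, hceq⟩ := c
    have hc1 : c τ₀ = 0 := congrArg (fun y : LinearMap.ker ℓ × k => (y.1 : traceZero k)) hc
    have hc2 : (c φ : Matrix (Fin 2) (Fin 2) k) a b = 0 := congrArg Prod.snd hc
    have hc' := cocycle_of_mem (p := p) hcm
    have hlev := isFiniteLevel_of_mem (p := p) hρ hcm
    have hI0 : ∀ g : A.decompositionSubgroup ℚ, (g : Γ) ∈ A.inertiaSubgroupIn ℚ → c g = 0 :=
      fun g hg => cocycle_eq_zero_on_inertia hq hpq hA hc' hlev hpow hx hτ₀ hmove hc1 hg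
    have hφ0 : c φ = 0 := by
      have h1 : c (φ * τ₀ * φ⁻¹ * φ) = slRep ρ ((φ * τ₀ * φ⁻¹ : A.decompositionSubgroup ℚ) : Γ)
          (c φ) := by
        rw [hc', hI0 _ hτ', zero_add]; rfl
      rw [inv_mul_cancel_right, hc', hc1, map_zero, add_zero] at h1
      have h3 := congrArg (fun Y : traceZero k => (Y : Matrix (Fin 2) (Fin 2) k) * u') h1
      simp only [coe_slRep, adRep_apply, hu'] at h3
      rw [mul_assoc (ρ _ * _), rho_inv_mul, mul_one] at h3
      refine Subtype.ext (eq_zero_of_commute_nilpotent h2 hM0 hM2 (c φ).2 ?_ fun i j hij hne' => ?_)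
      · rw [Matrix.sub_mul, Matrix.mul_sub, one_mul, mul_one, hu', h3]
      · by_cases hij' : i = a ∧ j = b
        · rw [hij'.1, hij'.2]; exact hc2
        · -- the other off-diagonal entry: both are non-zero, use the commutation
          have e00 := congrFun (congrFun hM2 0) 0
          have c00 := congrFun (congrFun (show (u' - 1) * (c φ : Matrix (Fin 2) (Fin 2) k) =
            (c φ : Matrix (Fin 2) (Fin 2) k) * (u' - 1) by
              rw [Matrix.sub_mul, Matrix.mul_sub, one_mul, mul_one, hu', h3]) 0) 0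
          simp [Matrix.mul_apply, Fin.sum_univ_two, -Matrix.sub_apply] at c00
          fin_cases i <;> fin_cases j <;> fin_cases a <;> fin_cases b <;>
            simp [-Matrix.sub_apply] at hij' hne hne' hc2 hij hab ⊢
          · exact (mul_eq_zero.mp (show (u' - 1) 1 0 * (c φ : Matrix (Fin 2) (Fin 2) k) 0 1 = 0 by
              linear_combination -c00 + (u' - 1) 0 1 * hc2)).resolve_left hab
          · exact (mul_eq_zero.mp (show (u' - 1) 0 1 * (c φ : Matrix (Fin 2) (Fin 2) k) 1 0 = 0 by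
              linear_combination c00 + (u' - 1) 1 0 * hc2)).resolve_left hab
    exact Subtype.ext (funext (cocycle_eq_zero_of_frobenius hq hA hc' hlev hφ hφ0 hI0))
  have : Module.Free k (LinearMap.ker ℓ) := inferInstance
  have : Module.Finite k (LinearMap.ker ℓ) :=
    Module.Finite.of_injective (LinearMap.ker ℓ).subtype Subtype.val_injective
  have : Module.Finite k (LinearMap.ker ℓ × k) := inferInstance
  refine ⟨Module.Finite.of_injective f hf, (LinearMap.finrank_le_finrank_of_injective hf).trans ?_⟩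
  rw [Module.finrank_prod, Module.finrank_self]
  have hsum := LinearMap.finrank_range_add_finrank_ker ℓ
  have hr : 1 ≤ finrank k (LinearMap.range ℓ) := by
    rw [Submodule.one_le_finrank_iff]
    intro h0
    have hz : ∀ Z : Matrix (Fin 2) (Fin 2) k, Z.trace = 0 → (N * Z).trace = 0 := fun Z hZ => by
      have h : ℓ ⟨Z, hZ⟩ ∈ LinearMap.range ℓ := LinearMap.mem_range_self _ _
      rw [h0, Submodule.mem_bot] at h
      exact h
    have e00 := congrFun (congrFun hN2 0) 0
    have e11 := congrFun (congrFun hN2 1) 1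
    have p1 := hz !![0, 1; 0, 0] (by simp [Matrix.trace_fin_two])
    have p2 := hz !![0, 0; 1, 0] (by simp [Matrix.trace_fin_two])
    simp [Matrix.trace_fin_two, Matrix.mul_apply, Fin.sum_univ_two, -Matrix.sub_apply] at e00 e11 p1 p2
    refine hN0 (Matrix.ext fun i j => ?_)
    fin_cases i <;> fin_cases j
    · exact (mul_self_eq_zero.mp (by linear_combination e00 - N 0 1 * p1) : N 0 0 = 0)
    · exact p2
    · exact p1
    · exact (mul_self_eq_zero.mp (by linear_combination e11 - N 0 1 * p1) : N 1 1 = 0)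
  rw [finrank_traceZero] at hsum
  omega

end Unipotent

end Fermat.Agent.Engine.TW
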