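import Fermat.Agent.Engine.TW.Choice
import Fermat.Agent.BigImage.RootsOfUnity
import Fermat.Prelude.Def_GaloisRep_ComplexConjugation

/-!
# The Selmer conditions of the patching problem and their Greenberg–Wiles count
-/

set_option autoImplicit false

noncomputable section

set_option maxSynthPendingDepth 5

namespace Fermat.Agent.Engine.TW

open Fermat.Agent.DefRing Fermat.Agent.Deform Fermat.Agent.GalCoh Fermat.Agent.GalCoh.Descent
  ExtCitation Module
open scoped Pointwise

local notation "Ω" => AlgebraicClosure ℚ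
local notation "Γ" => (AlgebraicClosure ℚ ≃ₐ[ℚ] AlgebraicClosure ℚ)

variable {k : Type} [Field k] {p : ℕ}

/-- The hypotheses on the residual representation and the auxiliary sets. -/
structure TWHyp (p : ℕ) (ρ : MRep k) (χ : GQ → k) (Smin T : Finset ℕ) : Prop where
  fin : GaloisFactorsThroughFiniteLevel (ρ : GQ →* _)
  abs : IndexTwoIrreducible ρ
  odd : p ≠ 2
  cyc : IsCyclotomicModP p χ
  det : ∀ σ, (ρ σ).det = χ σ
  notMem : p ∉ Smin ∧ p ∉ T
  disj : Disjoint Smin T
  prime : ∀ q ∈ Smin ∪ T, q.Prime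
  unip : ∀ q ∈ Smin, ∀ A : ValuationSubring Ω, A.LiesOverPrime q →
    ∀ σ ∈ A.inertiaSubgroupIn ℚ, (ρ σ - 1) * (ρ σ - 1) = 0
  ram : ∀ q ∈ Smin, ∃ A : ValuationSubring Ω, A.LiesOverPrime q ∧
    ∃ σ ∈ A.inertiaSubgroupIn ℚ, ρ σ ≠ 1
  unr : ∀ q : ℕ, q.Prime → q ∉ Smin → q ≠ p →
    ∀ A : ValuationSubring Ω, A.LiesOverPrime q → ∀ σ ∈ A.inertiaSubgroupIn ℚ, ρ σ = 1

variable {ρ : MRep k} {χ : GQ → k} {Smin T : Finset ℕ}

/-- The allowed ramification. -/
abbrev sigmaSet (p : ℕ) (Smin T Q : Finset ℕ) : Finset ℕ := Smin ∪ T ∪ Q ∪ {p}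

/-- The allowed ramification, as a set of primes. -/
def placeSet (p : ℕ) (Smin T Q : Finset ℕ) : Finset Nat.Primes :=
  (sigmaSet p Smin T Q).subtype Nat.Prime

lemma mem_placeSet {Q : Finset ℕ} {u : Nat.Primes} :
    u ∈ placeSet p Smin T Q ↔ (u : ℕ) ∈ sigmaSet p Smin T Q := Finset.mem_subtype

lemma placeSet_mono (Q : Finset ℕ) : placeSet p Smin T ∅ ⊆ placeSet p Smin T Q := fun u hu => by
  rw [mem_placeSet] at hu ⊢
  simp [sigmaSet] at hu ⊢
  tauto

lemma two_ne_zero_of_hyp [CharP k p] (hp : p.Prime) (H : TWHyp p ρ χ Smin T) : (2 : k) ≠ 0 := by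
  have h : ((2 : ℕ) : k) ≠ 0 := by
    rw [Ne, CharP.cast_eq_zero_iff k p, Nat.prime_dvd_prime_iff_eq hp Nat.prime_two]
    exact H.odd
  simpa using h

variable [Fact p.Prime] [Algebra (ZMod p) k]

lemma pPrime_mem_placeSet (Q : Finset ℕ) : pPrime p ∈ placeSet p Smin T Q :=
  mem_placeSet.mpr (by simp [sigmaSet])

/-- A conjugate of the standard place equal to a given one. -/
def placeConj (u : Nat.Primes) {A : ValuationSubring Ω} (hA : A.LiesOverPrime (u : ℕ)) : Γ :=
  (Frobenius.exists_smul_eq_of_liesOverPrime_qbar u.2 (primeLocalPlace_liesOver u) hA).choose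

lemma placeConj_smul (u : Nat.Primes) {A : ValuationSubring Ω} (hA : A.LiesOverPrime (u : ℕ)) :
    placeConj u hA • primeLocalPlace u = A :=
  (Frobenius.exists_smul_eq_of_liesOverPrime_qbar u.2 (primeLocalPlace_liesOver u) hA).choose_spec

/-- The condition at each place. -/
def condAt (atP : CondAtP ρ p) (Smin T : Finset ℕ) :
    ∀ v : Place, Submodule (ZMod p) (H1 (localLevels (placeLoc v)) ((adP p ρ).comp (placeLoc v)))
  | Sum.inl _ => ⊥
  | Sum.inr u =>
    if h : (u : ℕ) = p then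
      condOf u (placeConj u (h.symm ▸ atP.over)) atP.place (placeConj_smul u _) (pSpace atP)
    else if (u : ℕ) ∈ Smin then
      condOf u 1 (primeLocalPlace u) (one_smul _ _) (unipotentSpace (primeLocalPlace u) ρ)
    else if (u : ℕ) ∈ T then ⊥
    else condOf u 1 (primeLocalPlace u) (one_smul _ _) (adCocyclesAt (primeLocalPlace u) ρ)

variable {atP : CondAtP ρ p}

lemma condAt_p {u : Nat.Primes} (h : (u : ℕ) = p) :
    condAt atP Smin T (Sum.inr u) = condOf u (placeConj u (h.symm ▸ atP.over)) atP.place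
      (placeConj_smul u _) (pSpace atP) := dif_pos h

lemma condAt_min {u : Nat.Primes} (h : (u : ℕ) ≠ p) (hS : (u : ℕ) ∈ Smin) :
    condAt atP Smin T (Sum.inr u) =
      condOf u 1 (primeLocalPlace u) (one_smul _ _) (unipotentSpace (primeLocalPlace u) ρ) :=
  (dif_neg h).trans (if_pos hS)

lemma condAt_frame {u : Nat.Primes} (h : (u : ℕ) ≠ p) (hS : (u : ℕ) ∉ Smin) (hT : (u : ℕ) ∈ T) :
    condAt atP Smin T (Sum.inr u) = ⊥ :=
  (dif_neg h).trans ((if_neg hS).trans (if_pos hT))

lemma condAt_aux {u : Nat.Primes} (h : (u : ℕ) ≠ p) (hS : (u : ℕ) ∉ Smin) (hT : (u : ℕ) ∉ T) :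
    condAt atP Smin T (Sum.inr u) =
      condOf u 1 (primeLocalPlace u) (one_smul _ _) (adCocyclesAt (primeLocalPlace u) ρ) :=
  (dif_neg h).trans ((if_neg hS).trans (if_neg hT))

/-- The family of conditions. -/
abbrev condFamily (atP : CondAtP ρ p) (Smin T : Finset ℕ) (S : Finset Nat.Primes) :
    LocalConditions S (adP p ρ) :=
  fun u => condAt atP Smin T (toPlace u)

section Count

variable [CharP k p] [FiniteDimensional (ZMod p) k] (H : TWHyp p ρ χ Smin T)

include H in
lemma le_finrank_archimedean (x : Unit) :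
    finrank (ZMod p) k ≤ finrank (ZMod p) (H0 ((adP p ρ).comp (placeLoc (Sum.inl x)))) := by
  have h2 := two_ne_zero_of_hyp (Fact.out : p.Prime) H
  have hcne : (complexConjugation : Γ) ≠ 1 := fun h => by
    obtain ⟨i, hi⟩ := IsAlgClosed.exists_pow_nat_eq (-1 : Ω) two_pos
    have h1 := complexEmbedding_complexConjugation i
    rw [h, AlgEquiv.one_apply, eq_comm, Complex.conj_eq_iff_im] at h1
    have h2 : complexEmbedding i ^ 2 = -1 := by rw [← map_pow, hi, map_neg, map_one]
    have h3 := congrArg Complex.re h2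
    simp [sq, h1] at h3
    nlinarith [mul_self_nonneg (complexEmbedding i).re]
  have hp : p.Prime := Fact.out
  have hd : (ρ complexConjugation).det = -1 := by
    rw [H.det, H.cyc complexConjugation (p - 1) fun μ hμ => by
      rw [BigImage.involution_root_of_unity complexConjugation_mul_self hcne hp.ne_zero hμ]
      refine inv_eq_of_mul_eq_one_right ?_
      rw [← pow_succ', Nat.sub_add_cancel hp.one_le, hμ],
      Nat.cast_sub hp.one_le, CharP.cast_eq_zero, Nat.cast_one, zero_sub]
  set M := ρ complexConjugation with hM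
  have hM2 : M * M = 1 := by rw [hM, ← map_mul, complexConjugation_mul_self, map_one]
  have htr : M.trace = 0 := by
    have e : ∀ i j : Fin 2, (M * M) i j = (1 : Matrix (Fin 2) (Fin 2) k) i j := fun i j => by
      rw [hM2]
    rw [Matrix.det_fin_two] at hd
    have e00 := e 0 0
    have e01 := e 0 1
    have e10 := e 1 0
    simp [Matrix.mul_apply, Fin.sum_univ_two] at e00 e01 e10
    rw [Matrix.trace_fin_two]
    by_contra ht
    have a01 : M 0 1 = 0 := (mul_eq_zero.mp (show (M 0 0 + M 1 1) * M 0 1 = 0 by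
      linear_combination e01)).resolve_left ht
    have a00 : M 0 0 = 0 := (mul_eq_zero.mp (show (M 0 0 + M 1 1) * M 0 0 = 0 by
      linear_combination e00 + hd)).resolve_left ht
    rw [a00, a01] at e00
    simp at e00
  let X : traceZero k := ⟨M, htr⟩
  have hX : X ≠ 0 := fun h => by
    have h' : M = 0 := congrArg Subtype.val h
    rw [h', mul_zero] at hM2
    exact zero_ne_one hM2
  have hfix : slRep ρ complexConjugation X = X := Subtype.ext (by
    simp only [X, coe_slRep, adRep_apply, ← hM]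
    rw [mul_assoc, hM, rho_mul_inv, mul_one])
  have hinv : ∀ a : k, ∀ g : placeGroup (Sum.inl x),
      slRep ρ (placeLoc (Sum.inl x) g) (a • X) = a • X := fun a g => by
    have hg : placeLoc (Sum.inl x) g ∈ Subgroup.zpowers complexConjugation := by
      show archimedeanLoc g ∈ _
      exact g.2
    rw [map_smul]
    congr 1
    obtain ⟨n, hn⟩ := Subgroup.mem_zpowers_iff.mp hg
    rw [← hn]
    rcases Int.even_or_odd n with ⟨j, rfl⟩ | ⟨j, rfl⟩
    · rw [← two_mul, zpow_mul, zpow_ofNat, complexConjugation_sq, one_zpow, map_one,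
        Module.End.one_apply]
    · rw [zpow_add, zpow_mul, zpow_ofNat, complexConjugation_sq, one_zpow, one_mul, zpow_one, hfix]
  let e : k →ₗ[ZMod p] H0 ((adP p ρ).comp (placeLoc (Sum.inl x))) :=
    (((LinearMap.toSpanSingleton k (traceZero k) X).restrictScalars (ZMod p))).codRestrict _
      fun a => (Representation.mem_invariants _ _).mpr (hinv a)
  have he : Function.Injective e := fun a b h => by
    have h1 : a • X = b • X := congrArg Subtype.val h
    exact smul_left_injective k hX h1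
  have := finiteDimensional_traceZero (k := k) (p := p)
  exact LinearMap.finrank_le_finrank_of_injective he

/-- The excess of the invariants over the condition, by prime. -/
def lowerTerm (p : ℕ) [Fact p.Prime] [Algebra (ZMod p) k] (ρ : MRep k) {T : Finset ℕ}
    (C : LocalChoices T) (n : ℕ) : ℕ :=
  if h : n ∈ T then finrank (ZMod p) k * finrank k (cent0 ρ (C.frob ⟨n, h⟩)) else 0

/-- The excess of the condition over the invariants, by prime. -/
def upperTerm (p : ℕ) [Fact p.Prime] (k : Type) [Field k] [Algebra (ZMod p) k] (Q : Finset ℕ)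
    (n : ℕ) : ℕ :=
  if n ∈ insert p Q then finrank (ZMod p) k else 0

variable {C : LocalChoices T} (hC : C.Valid p) {Q : Finset ℕ}
  (hQ : ∀ q ∈ Q, q.Prime ∧ q ∉ Smin ∪ T ∧ q ≠ p ∧ ∃ m, IsTWPrime p (m + 1) ρ q)

include H hC hQ in
lemma condAt_bound (u : Nat.Primes) (hu : (u : ℕ) ∈ sigmaSet p Smin T Q) :
    FiniteDimensional (ZMod p) (condAt atP Smin T (Sum.inr u)) ∧
      finrank (ZMod p) (condAt atP Smin T (Sum.inr u)) + lowerTerm p ρ C (u : ℕ) ≤
        finrank (ZMod p) (H0 ((adP p ρ).comp (placeLoc (Sum.inr u)))) +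
          upperTerm p k Q (u : ℕ) := by
  classical
  have hp : p.Prime := Fact.out
  have h2 := two_ne_zero_of_hyp hp H
  have hA := primeLocalPlace_liesOver u
  obtain ⟨φ, hφ⟩ := Frobenius.exists_isFrobeniusAt_qbar u.2 hA
  by_cases hup : (u : ℕ) = p
  · rw [condAt_p hup]
    obtain ⟨hB, hf, hd⟩ := pSpace_bound atP
    obtain ⟨hfin, h⟩ := finrank_condOf_le (p := p) u _ atP.place (placeConj_smul u _) H.fin hB hf hd
    refine ⟨hfin, ?_⟩
    have hlow : lowerTerm p ρ C (u : ℕ) = 0 := dif_neg (hup ▸ H.notMem.2)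
    have hupp : upperTerm p k Q (u : ℕ) = finrank (ZMod p) k := if_pos (by simp [hup])
    rw [hlow, hupp]
    omega
  by_cases hS : (u : ℕ) ∈ Smin
  · rw [condAt_min hup hS]
    have hram : ∃ σ ∈ (primeLocalPlace u).inertiaSubgroupIn ℚ, ρ σ ≠ 1 := by
      obtain ⟨A, hA', σ, hσ, hne⟩ := H.ram _ hS
      obtain ⟨g, hg⟩ := Frobenius.exists_smul_eq_of_liesOverPrime_qbar u.2 hA' hA
      refine ⟨g * σ * g⁻¹, hg ▸ conj_mem_inertiaSubgroupIn hσ g, fun h => hne ?_⟩
      rw [show σ = g⁻¹ * (g * σ * g⁻¹) * g by group, map_mul, map_mul, h, mul_one, rho_inv_mul]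
    obtain ⟨hf, hd⟩ := finrank_unipotentSpace_le (p := p) u.2 (fun h => hup h.symm) hA H.fin
      (φ := ⟨φ, hφ.choose⟩) hφ h2 (H.unip _ hS _ hA) hram
    obtain ⟨hfin, h⟩ := finrank_condOf_le (p := p) u 1 _ (one_smul _ _) H.fin
      (hasCoboundaries_unipotentSpace _ H.fin (H.unip _ hS _ hA)) hf hd
    refine ⟨hfin, ?_⟩
    have hlow : lowerTerm p ρ C (u : ℕ) = 0 :=
      dif_neg (fun hT => Finset.disjoint_left.mp H.disj hS hT)
    rw [hlow]
    omega
  by_cases hT : (u : ℕ) ∈ T
  · rw [condAt_frame hup hS hT]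
    refine ⟨inferInstance, ?_⟩
    obtain ⟨A, hA', hF, -, -⟩ := hC ⟨_, hT⟩
    obtain ⟨g, hg⟩ := Frobenius.exists_smul_eq_of_liesOverPrime_qbar u.2 hA hA'
    have h := le_finrank_invariants (p := p) u g A hg hA' H.fin (H.unr _ u.2 hS hup A hA')
      (φ := ⟨C.frob ⟨_, hT⟩, hF.choose⟩) hF
    rw [lowerTerm, dif_pos hT, finrank_bot, zero_add]
    exact h.trans (Nat.le_add_right _ _)
  · rw [condAt_aux hup hS hT]
    have huQ : (u : ℕ) ∈ Q := by
      simp [sigmaSet, hup, hS, hT] at hu
      exact hu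
    obtain ⟨-, -, -, m, hdvd, hreg⟩ := hQ _ huQ
    have hq1 : ((u : ℕ) : ZMod p) = 1 :=
      natCast_eq_one u ((dvd_pow_self p (Nat.succ_ne_zero m)).trans hdvd)
    obtain ⟨hf, hd⟩ := finrank_adCocyclesAt_le (p := p) u.2 (fun h => hup h.symm) hA H.fin
      (φ := ⟨φ, hφ.choose⟩) hφ (H.unr _ u.2 hS hup _ hA) h2 hq1 (hreg _ hA _ hφ)
    obtain ⟨hfin, h⟩ := finrank_condOf_le (p := p) u 1 _ (one_smul _ _) H.fin
      (hasCoboundaries_adCocyclesAt _ H.fin) hf hd
    refine ⟨hfin, ?_⟩
    have hlow : lowerTerm p ρ C (u : ℕ) = 0 := dif_neg hT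
    have hupp : upperTerm p k Q (u : ℕ) = finrank (ZMod p) k :=
      if_pos (Finset.mem_insert_of_mem huQ)
    rw [hlow, hupp]
    omega

include H hC hQ in
lemma finiteDimensional_condFamily (u : extArithIndex (placeSet p Smin T Q)) :
    FiniteDimensional (ZMod p) (condFamily atP Smin T _ u) := by
  rcases u with x | ⟨u, hu⟩
  · show FiniteDimensional (ZMod p) ↥(⊥ : Submodule (ZMod p)
      (H1 (localLevels (placeLoc (Sum.inl x))) ((adP p ρ).comp (placeLoc (Sum.inl x)))))
    infer_instance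
  · exact (condAt_bound H hC hQ u (mem_placeSet.mp hu)).1

include H hC hQ in
/-- The sum over all places. -/
theorem sum_condFamily_le :
    (∑ u : extArithIndex (placeSet p Smin T Q),
        finrank (ZMod p) (condFamily atP Smin T _ u)) +
      finrank (ZMod p) k * ∑ r : T, finrank k (cent0 ρ (C.frob r)) ≤
    (∑ u : extArithIndex (placeSet p Smin T Q),
        finrank (ZMod p) (H0 ((adP p ρ).comp (locAt (placeSet p Smin T Q) u)))) +
      finrank (ZMod p) k * Q.card := by
  classical
  set S := placeSet p Smin T Q with hSdef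
  let L : Unit ⊕ ↥S → ℕ := fun u => finrank (ZMod p) (condFamily atP Smin T S u)
  let N : Unit ⊕ ↥S → ℕ := fun u => finrank (ZMod p) (H0 ((adP p ρ).comp (locAt S u)))
  let a : Unit ⊕ ↥S → ℕ := Sum.elim (fun _ => finrank (ZMod p) k) fun u => lowerTerm p ρ C (u.1 : ℕ)
  let b : Unit ⊕ ↥S → ℕ := Sum.elim (fun _ => 0) fun u => upperTerm p k Q (u.1 : ℕ)
  have hpt : ∀ u, L u + a u ≤ N u + b u := by
    rintro (x | ⟨u, hu⟩)
    · have hbot : L (Sum.inl x) = 0 := finrank_bot (ZMod p)
        (H1 (localLevels (placeLoc (Sum.inl x))) ((adP p ρ).comp (placeLoc (Sum.inl x))))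
      have := le_finrank_archimedean H x
      show L (Sum.inl x) + finrank (ZMod p) k ≤ N (Sum.inl x) + 0
      rw [hbot, zero_add, add_zero]
      exact this
    · exact (condAt_bound H hC hQ u (mem_placeSet.mp hu)).2
  have hsum := Finset.sum_le_sum fun u (_ : u ∈ Finset.univ) => hpt u
  rw [Finset.sum_add_distrib, Finset.sum_add_distrib] at hsum
  have htot : ∀ f : ℕ → ℕ, ∑ u : ↥S, f (u.1 : ℕ) = ∑ n ∈ sigmaSet p Smin T Q, f n := fun f => by
    rw [Finset.sum_coe_sort S fun u : Nat.Primes => f (u : ℕ), hSdef]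
    show Finset.sum (ι := Subtype Nat.Prime) ((sigmaSet p Smin T Q).subtype Nat.Prime)
      (fun u => f (u : ℕ)) = _
    erw [Finset.sum_subtype_eq_sum_filter]
    refine Finset.sum_congr (Finset.filter_true_of_mem fun n hn => ?_) fun _ _ => rfl
    simp only [sigmaSet, Finset.mem_union, Finset.mem_singleton] at hn
    rcases hn with ((h | h) | h) | h
    · exact H.prime n (Finset.mem_union_left _ h)
    · exact H.prime n (Finset.mem_union_right _ h)
    · exact (hQ n h).1
    · exact h ▸ (Fact.out : p.Prime)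
  have ha : ∑ u, a u =
      finrank (ZMod p) k + finrank (ZMod p) k * ∑ r : T, finrank k (cent0 ρ (C.frob r)) := by
    rw [Fintype.sum_sum_type]
    simp only [a, Sum.elim_inl, Sum.elim_inr, Finset.sum_const, Finset.card_univ, Fintype.card_unit,
      one_smul]
    rw [htot (lowerTerm p ρ C), ← Finset.sum_subset (f := lowerTerm p ρ C) (s₁ := T)
      (fun n hn => by simp [sigmaSet, hn]) (fun n _ hn => dif_neg hn), ← Finset.sum_coe_sort T,
      Finset.mul_sum]
    congr 1
    exact Finset.sum_congr rfl fun r _ => dif_pos r.2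
  have hb : ∑ u, b u = finrank (ZMod p) k + finrank (ZMod p) k * Q.card := by
    rw [Fintype.sum_sum_type]
    simp only [b, Sum.elim_inl, Sum.elim_inr, Finset.sum_const_zero, zero_add]
    rw [htot (upperTerm p k Q), ← Finset.sum_subset (f := upperTerm p k Q) (s₁ := insert p Q)
      (fun n hn => by
        rcases Finset.mem_insert.mp hn with rfl | h <;> simp [sigmaSet, *])
      (fun n _ hn => if_neg hn),
      Finset.sum_congr rfl (fun n hn => show upperTerm p k Q n = finrank (ZMod p) k from if_pos hn),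
      Finset.sum_const,
      Finset.card_insert_of_notMem fun h => (hQ p h).2.2.1 rfl, smul_eq_mul]
    ring
  rw [ha, hb] at hsum
  change (∑ u, L u) + _ ≤ (∑ u, N u) + _
  omega

end Count

end Fermat.Agent.Engine.TW
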