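import Fermat.Agent.TameInertia.Qbar
import Fermat.Agent.GalCoh.Descent.LocalClass
import Fermat.Agent.LocalRingP.KummerClass
import Mathlib.RepresentationTheory.Basic

/-!
# Cocycles on a decomposition group away from `p` are tame

For a representation of a decomposition group at `q ≠ p` on an `𝔽_p`-space, with inertia acting
through elements of order dividing `p`, a cocycle of finite level is determined on inertia by its
value at one element moving a `p`-th root of `q`, and satisfies the tame relation.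
-/

set_option autoImplicit false

noncomputable section

namespace Fermat.Agent.Engine.TW

local notation "Ω" => AlgebraicClosure ℚ
local notation "Γ" => (AlgebraicClosure ℚ ≃ₐ[ℚ] AlgebraicClosure ℚ)

local instance isAlgebraicQbar_etw : Algebra.IsAlgebraic ℚ (AlgebraicClosure ℚ) :=
  AlgebraicClosure.isAlgebraic ℚ

variable {A : ValuationSubring Ω} {p : ℕ} {M : Type} [AddCommGroup M] [Module (ZMod p) M]

local notation "D" => (A.decompositionSubgroup ℚ)

/-- Cocycle and representation vanish near the identity. -/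
def IsFiniteLevel (σ : Representation (ZMod p) (A.decompositionSubgroup ℚ) M)
    (c : A.decompositionSubgroup ℚ → M) : Prop :=
  ∃ L : IntermediateField ℚ Ω, FiniteDimensional ℚ L ∧
    ∀ g : A.decompositionSubgroup ℚ, (∀ a ∈ L, (g : Γ) a = a) → σ g = 1 ∧ c g = 0

/-- The affine action of a cocycle. -/
def affine (σ : Representation (ZMod p) (A.decompositionSubgroup ℚ) M)
    (c : A.decompositionSubgroup ℚ → M) (hc : ∀ g h, c (g * h) = c g + σ g (c h)) :
    A.decompositionSubgroup ℚ →* Equiv.Perm M :=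
  MonoidHom.mk'
    (fun g =>
      { toFun := fun m => σ g m + c g
        invFun := fun m => σ g⁻¹ m + c g⁻¹
        left_inv := fun m => by
          show σ g⁻¹ (σ g m + c g) + c g⁻¹ = m
          have h1 : c g⁻¹ + σ g⁻¹ (c g) = 0 := by
            rw [← hc, inv_mul_cancel]
            have := hc 1 1
            simpa using this
          rw [map_add, ← Module.End.mul_apply, ← map_mul, inv_mul_cancel, map_one,
            Module.End.one_apply, add_assoc, add_comm (σ g⁻¹ (c g)), h1, add_zero]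
        right_inv := fun m => by
          show σ g (σ g⁻¹ m + c g⁻¹) + c g = m
          have h1 : c g + σ g (c g⁻¹) = 0 := by
            rw [← hc, mul_inv_cancel]
            have := hc 1 1
            simpa using this
          rw [map_add, ← Module.End.mul_apply, ← map_mul, mul_inv_cancel, map_one,
            Module.End.one_apply, add_assoc, add_comm (σ g (c g⁻¹)), h1, add_zero] })
    fun g h => Equiv.ext fun m => by
      show σ (g * h) m + c (g * h) = σ g (σ h m + c h) + c g
      rw [hc, map_mul, map_add, Module.End.mul_apply]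
      abel

variable {σ : Representation (ZMod p) (A.decompositionSubgroup ℚ) M}
  {c : A.decompositionSubgroup ℚ → M}

lemma affine_apply (hc : ∀ g h, c (g * h) = c g + σ g (c h)) (g : A.decompositionSubgroup ℚ)
    (m : M) : affine σ c hc g m = σ g m + c g := rfl

lemma cocycle_one (hc : ∀ g h, c (g * h) = c g + σ g (c h)) : c 1 = 0 := by simpa using hc 1 1

lemma cocycle_pow_of_trivial (hc : ∀ g h, c (g * h) = c g + σ g (c h))
    {a : A.decompositionSubgroup ℚ} (ha : σ a = 1) (n : ℕ) : c (a ^ n) = (n : ZMod p) • c a := by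
  induction n with
  | zero => simp [cocycle_one hc]
  | succ n ih =>
    rw [pow_succ', hc, ha, Module.End.one_apply, ih, Nat.cast_succ, add_smul, one_smul, add_comm]

variable {q : ℕ} [Fact p.Prime]

lemma affine_pow_sq (hc : ∀ g h, c (g * h) = c g + σ g (c h)) {a : A.decompositionSubgroup ℚ}
    (ha : σ a ^ p = 1) : affine σ c hc a ^ (p * p) = 1 := by
  have h1 : σ (a ^ p) = 1 := by rw [map_pow, ha]
  have h2 : c ((a ^ p) ^ p) = 0 := by
    rw [cocycle_pow_of_trivial hc h1, ZMod.natCast_self, zero_smul]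
  rw [← map_pow, pow_mul]
  refine Equiv.ext fun m => ?_
  rw [affine_apply, map_pow, h1, one_pow, h2, add_zero]
  rfl

lemma affine_open (hc : ∀ g h, c (g * h) = c g + σ g (c h)) (hlev : IsFiniteLevel σ c) :
    ∃ F₀ : IntermediateField ℚ Ω, FiniteDimensional ℚ F₀ ∧
      F₀.fixingSubgroup.comap (A.decompositionSubgroup ℚ).subtype ≤ (affine σ c hc).ker := by
  obtain ⟨L, hL, h⟩ := hlev
  refine ⟨L, hL, fun g hg => ?_⟩
  obtain ⟨h1, h2⟩ := h g ((IntermediateField.mem_fixingSubgroup_iff _ _).mp hg)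
  refine Equiv.ext fun m => ?_
  rw [affine_apply, h1, h2, add_zero]
  rfl

/-- The tame relation. -/
theorem cocycle_frobenius_relation (hq : q.Prime) (hpq : p ≠ q) (hA : A.LiesOverPrime q)
    (hc : ∀ g h, c (g * h) = c g + σ g (c h)) (hlev : IsFiniteLevel σ c)
    (hpow : ∀ g : A.decompositionSubgroup ℚ, (g : Γ) ∈ A.inertiaSubgroupIn ℚ → σ g ^ p = 1)
    {φ τ : A.decompositionSubgroup ℚ} (hφ : A.IsFrobeniusAt (φ : Γ) q)
    (hτ : (τ : Γ) ∈ A.inertiaSubgroupIn ℚ) :
    c (φ * τ * φ⁻¹) = c (τ ^ q) ∧ σ (φ * τ * φ⁻¹) = σ (τ ^ q) := by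
  have hp : p.Prime := Fact.out
  have hcop : (p * p).Coprime q :=
    Nat.Coprime.mul_left ((Nat.coprime_primes hp hq).mpr hpq) ((Nat.coprime_primes hp hq).mpr hpq)
  have h := (TameInertia.local_tame_inertia (A.decompositionSubgroup ℚ).subtype
    (affine_open hc hlev) hq hA hcop fun d hd => affine_pow_sq hc (hpow d hd)).2 φ hφ τ hτ
  rw [← map_inv, ← map_mul, ← map_mul, ← map_pow] at h
  have h0 : c (φ * τ * φ⁻¹) = c (τ ^ q) := by
    have h0 := congrArg (fun e : Equiv.Perm M => e 0) h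
    simp only [affine_apply, map_zero, zero_add] at h0
    exact h0
  refine ⟨h0, LinearMap.ext fun m => ?_⟩
  have h1 := congrArg (fun e : Equiv.Perm M => e m) h
  simp only [affine_apply, h0] at h1
  exact add_right_cancel h1

/-- Inertia moves the `p`-th roots of `q`. -/
theorem exists_inertia_moves_root (hq : q.Prime) (hA : A.LiesOverPrime q) (hp : 1 < p) {x : Ω}
    (hx : x ^ p = (q : Ω)) :
    ∃ τ : A.decompositionSubgroup ℚ, (τ : Γ) ∈ A.inertiaSubgroupIn ℚ ∧ (τ : Γ) x ≠ x := by
  by_contra! hc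
  have hx0 : x ≠ 0 := fun h => by
    rw [h, zero_pow (by omega)] at hx
    exact hq.ne_zero (by exact_mod_cast hx.symm)
  obtain ⟨j, hj⟩ := FlatJ0.exists_valuation_eq_zpow_of_fixed hq hA hx0 fun s hs =>
    hc ⟨s, MultRed.inertia_mem_decomposition hs⟩ hs
  have h1 := congrArg A.valuation hx
  rw [map_pow, hj, ← zpow_natCast, ← zpow_mul] at h1
  have h2 := LocalRingP.zpow_valuation_inj hq hA (h1.trans (zpow_one _).symm)
  rcases Int.eq_one_or_neg_one_of_mul_eq_one (mul_comm j _ ▸ h2) with h | h <;> omega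

/-- A cocycle killed at an element moving a `p`-th root of `q` kills inertia, and such an element
generates the action of inertia. -/
theorem cocycle_inertia_generated (hq : q.Prime) (hpq : p ≠ q) (hA : A.LiesOverPrime q)
    (hc : ∀ g h, c (g * h) = c g + σ g (c h)) (hlev : IsFiniteLevel σ c)
    (hpow : ∀ g : A.decompositionSubgroup ℚ, (g : Γ) ∈ A.inertiaSubgroupIn ℚ → σ g ^ p = 1)
    {x : Ω} (hx : x ^ p = (q : Ω)) {τ₀ : A.decompositionSubgroup ℚ}
    (hτ₀ : (τ₀ : Γ) ∈ A.inertiaSubgroupIn ℚ) (hmove : (τ₀ : Γ) x ≠ x)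
    {τ : A.decompositionSubgroup ℚ} (hτ : (τ : Γ) ∈ A.inertiaSubgroupIn ℚ) :
    ∃ n : ℕ, c τ = c (τ₀ ^ n) ∧ σ τ = σ (τ₀ ^ n) := by
  have hp : p.Prime := Fact.out
  have hx0 : x ≠ 0 := fun h => by
    rw [h, zero_pow hp.ne_zero] at hx
    exact hq.ne_zero (by exact_mod_cast hx.symm)
  have hqp : ¬ q ∣ p := fun h => hpq ((Nat.prime_dvd_prime_iff_eq hq hp).mp h).symm
  -- the Kummer character of `x` on inertia
  let I : Subgroup (A.decompositionSubgroup ℚ) :=
    (A.inertiaSubgroupIn ℚ).comap (A.decompositionSubgroup ℚ).subtype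
  have hroot : ∀ s : Γ, (s x / x) ^ p = 1 := fun s => by
    rw [div_pow, ← map_pow, hx, map_natCast, div_self (Nat.cast_ne_zero.mpr hq.ne_zero)]
  let κ : I →* Ωˣ :=
    MonoidHom.mk' (fun s => Units.mk0 (((s : A.decompositionSubgroup ℚ) : Γ) x / x)
      (div_ne_zero (by simpa using hx0) hx0)) fun s t => Units.ext (by
      show ((s : A.decompositionSubgroup ℚ) : Γ) (((t : A.decompositionSubgroup ℚ) : Γ) x) / x = _
      have h1 := GalCoh.Descent.inertia_fixes_root hq hA hqp s.2
        (hroot ((t : A.decompositionSubgroup ℚ) : Γ))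
      rw [map_div₀] at h1
      simp only [Subgroup.coe_subtype] at h1
      have hsx : ((s : A.decompositionSubgroup ℚ) : Γ) x ≠ 0 := by simpa using hx0
      rw [div_eq_iff hsx] at h1
      rw [h1]
      simp only [Units.val_mul, Units.val_mk0]
      field_simp)
  obtain ⟨L, hL, hLfix⟩ := affine_open hc hlev
  have hFx : FiniteDimensional ℚ (IntermediateField.adjoin ℚ {x}) :=
    IntermediateField.adjoin.finiteDimensional (Algebra.IsIntegral.isIntegral x)
  obtain ⟨⟨d₀, -, hgen⟩, -⟩ := TameInertia.local_tame_inertia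
    ((A.decompositionSubgroup ℚ).subtype.comp I.subtype) (e := p * p)
    (ρ := ((affine σ c hc).comp I.subtype).prod κ)
    ⟨L ⊔ IntermediateField.adjoin ℚ {x}, IntermediateField.finiteDimensional_sup _ _,
      fun d hd => by
        rw [Subgroup.mem_comap, IntermediateField.fixingSubgroup_sup, Subgroup.mem_inf] at hd
        refine Prod.ext (hLfix hd.1) (Units.ext ?_)
        show ((d : A.decompositionSubgroup ℚ) : Γ) x / x = 1
        rw [div_eq_one_iff_eq hx0]
        exact (IntermediateField.mem_fixingSubgroup_iff _ _).mp hd.2 x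
          (IntermediateField.mem_adjoin_simple_self ℚ x)⟩
    hq hA (Nat.Coprime.mul_left ((Nat.coprime_primes hp hq).mpr hpq)
      ((Nat.coprime_primes hp hq).mpr hpq))
    fun d hd => Prod.ext (by
        show affine σ c hc (d : A.decompositionSubgroup ℚ) ^ (p * p) = 1
        exact affine_pow_sq hc (hpow _ hd))
      (Units.ext (by
        show ((((κ d) ^ (p * p) : Ωˣ)) : Ω) = 1
        rw [Units.val_pow_eq_pow_val, pow_mul, show ((κ d : Ωˣ) : Ω) ^ p = 1 from hroot _,
          one_pow]))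
  obtain ⟨a, ha⟩ := hgen ⟨τ, hτ⟩ hτ
  obtain ⟨b, hb⟩ := hgen ⟨τ₀, hτ₀⟩ hτ₀
  have hb2 : κ ⟨τ₀, hτ₀⟩ = κ d₀ ^ b := congrArg Prod.snd hb
  have hpb : ¬ p ∣ b := by
    rintro ⟨j, rfl⟩
    refine hmove ((div_eq_one_iff_eq hx0).mp ?_)
    have := congrArg (fun u : Ωˣ => (u : Ω)) hb2
    simp only [pow_mul, Units.val_pow_eq_pow_val] at this
    rw [show ((κ d₀ : Ωˣ) : Ω) ^ p = 1 from hroot _, one_pow] at this
    exact this
  have hbc : b.Coprime (p * p) := by
    have := ((hp.coprime_iff_not_dvd).mpr hpb).symm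
    exact Nat.Coprime.mul_right this this
  obtain ⟨n, -, hn⟩ := Nat.exists_mul_mod_eq_one_of_coprime hbc (by nlinarith [hp.two_le])
  refine ⟨n * a, ?_⟩
  have h1 : affine σ c hc τ = affine σ c hc (d₀ : A.decompositionSubgroup ℚ) ^ a :=
    congrArg Prod.fst ha
  have h2 : affine σ c hc τ₀ = affine σ c hc (d₀ : A.decompositionSubgroup ℚ) ^ b :=
    congrArg Prod.fst hb
  have h3 : affine σ c hc τ = affine σ c hc (τ₀ ^ (n * a)) := by
    rw [map_pow, h2, ← pow_mul, ← mul_assoc, pow_mul, h1,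
      pow_eq_pow_mod (b * n) (affine_pow_sq hc (hpow _ d₀.2)), hn, pow_one]
  refine ⟨?_, LinearMap.ext fun m => ?_⟩
  · have h0 := congrArg (fun e : Equiv.Perm M => e 0) h3
    simp only [affine_apply, map_zero, zero_add] at h0
    exact h0
  · have h4 := congrArg (fun e : Equiv.Perm M => e m) h3
    have h0 := congrArg (fun e : Equiv.Perm M => e 0) h3
    simp only [affine_apply, map_zero, zero_add] at h4 h0
    rw [h0] at h4
    exact add_right_cancel h4

/-- A cocycle killed at the tame element kills inertia. -/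
theorem cocycle_eq_zero_on_inertia (hq : q.Prime) (hpq : p ≠ q) (hA : A.LiesOverPrime q)
    (hc : ∀ g h, c (g * h) = c g + σ g (c h)) (hlev : IsFiniteLevel σ c)
    (hpow : ∀ g : A.decompositionSubgroup ℚ, (g : Γ) ∈ A.inertiaSubgroupIn ℚ → σ g ^ p = 1)
    {x : Ω} (hx : x ^ p = (q : Ω)) {τ₀ : A.decompositionSubgroup ℚ}
    (hτ₀ : (τ₀ : Γ) ∈ A.inertiaSubgroupIn ℚ) (hmove : (τ₀ : Γ) x ≠ x) (h0 : c τ₀ = 0)
    {τ : A.decompositionSubgroup ℚ} (hτ : (τ : Γ) ∈ A.inertiaSubgroupIn ℚ) : c τ = 0 := by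
  obtain ⟨n, hn, -⟩ := cocycle_inertia_generated hq hpq hA hc hlev hpow hx hτ₀ hmove hτ
  rw [hn]
  clear hn
  induction n with
  | zero => rw [pow_zero, cocycle_one hc]
  | succ n ih => rw [pow_succ', hc, h0, ih, map_zero, add_zero]

/-- A cocycle killed by inertia and by Frobenius vanishes. -/
theorem cocycle_eq_zero_of_frobenius (hq : q.Prime) (hA : A.LiesOverPrime q)
    (hc : ∀ g h, c (g * h) = c g + σ g (c h)) (hlev : IsFiniteLevel σ c)
    {φ : A.decompositionSubgroup ℚ} (hφ : A.IsFrobeniusAt (φ : Γ) q) (hφ0 : c φ = 0)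
    (hI : ∀ g : A.decompositionSubgroup ℚ, (g : Γ) ∈ A.inertiaSubgroupIn ℚ → c g = 0)
    (g : A.decompositionSubgroup ℚ) : c g = 0 := by
  obtain ⟨L, hL, h⟩ := hlev
  obtain ⟨F, hLF, hF, hFg⟩ := LocalRingP.exists_galois_level L
  obtain ⟨n, τ, hτ, heq⟩ := LocalRingP.exists_pow_mul_inertia_eqOn hq hA hφ g.2 F
  let τD : A.decompositionSubgroup ℚ := ⟨τ, MultRed.inertia_mem_decomposition hτ⟩
  have hu : c ((φ ^ n * τD)⁻¹ * g) = 0 := (h _ fun a ha => by
    show (((φ : Γ) ^ n * τ)⁻¹ * (g : Γ)) a = a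
    rw [AlgEquiv.mul_apply, heq a (hLF ha), ← AlgEquiv.mul_apply, inv_mul_cancel,
      AlgEquiv.one_apply]).2
  have hpn : ∀ j : ℕ, c (φ ^ j) = 0 := fun j => by
    induction j with
    | zero => rw [pow_zero, cocycle_one hc]
    | succ j ih => rw [pow_succ', hc, hφ0, ih, map_zero, add_zero]
  rw [show g = φ ^ n * τD * ((φ ^ n * τD)⁻¹ * g) from (mul_inv_cancel_left _ _).symm, hc, hc, hu,
    hpn, hI τD hτ, map_zero, map_zero, add_zero, add_zero]

end Fermat.Agent.Engine.TW
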